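import Fermat.Agent.LinearSieve.Mertens

/-!
# Mertens' theorem from below

`∑_{a ≤ p < b} 1 / p ≥ log log b - log log a - C / log a`, with the primes dividing a given
number `M` removed at the cost of `log M / (a log a)`.
-/

set_option autoImplicit false

noncomputable section

namespace FA.Chen

open Finset

theorem exists_le_sum_prime_inv_Ioc : ∃ C : ℝ, 0 ≤ C ∧ ∀ m n : ℕ, 2 ≤ m → m ≤ n →
    Real.log (Real.log n) - Real.log (Real.log m) - C / Real.log m ≤
      ∑ q ∈ (Ioc m n).filter Nat.Prime, (q : ℝ)⁻¹ := by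
  obtain ⟨C₁, hC₁⟩ := ErdosKac.exists_abs_sum_log_div_sub_le
  have hC₁0 : 0 ≤ C₁ := (abs_nonneg _).trans (hC₁ 1 le_rfl)
  refine ⟨2 * (C₁ + 1), by linarith, fun m n hm hmn => ?_⟩
  obtain ⟨G, hG⟩ : ∃ G : ℕ → ℝ, G = fun k => ∑ q ∈ (Ioc 0 k).filter Nat.Prime,
      Real.log q / q := ⟨_, rfl⟩
  have hGb : ∀ k, 1 ≤ k → |G k - Real.log k| ≤ C₁ := fun k hk => by
    refine le_of_eq_of_le ?_ (hC₁ k hk)
    rw [hG]
    rfl
  have hlpos : ∀ k : ℕ, 2 ≤ k → (0 : ℝ) < Real.log k := fun k hk =>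
    Real.log_pos (Nat.one_lt_cast.2 (by omega))
  obtain ⟨K, hK⟩ : ∃ K, K = C₁ + 1 := ⟨_, rfl⟩
  have key : (G n / Real.log n - G m / Real.log m) +
      (Real.log (Real.log n) - Real.log (Real.log m)) - (K / Real.log m - K / Real.log n) ≤
        ∑ q ∈ (Ioc m n).filter Nat.Prime, (q : ℝ)⁻¹ := by
    induction n, hmn using Nat.le_induction with
    | base => simp
    | succ k hk ih =>
      have h0 := hlpos k (hm.trans hk)
      have h1 := hlpos (k + 1) (by omega)
      have hle : Real.log k ≤ Real.log (k + 1 : ℕ) :=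
        Real.log_le_log (Nat.cast_pos.2 (by omega)) (Nat.cast_le.2 (Nat.le_succ k))
      have hle1 : Real.log (k + 1 : ℕ) ≤ Real.log k + 1 := by
        have hk1 : (1 : ℝ) ≤ k := Nat.one_le_cast.2 (by omega)
        rw [Nat.cast_add_one, show (k : ℝ) + 1 = k * (1 + 1 / k) by field_simp,
          Real.log_mul (by linarith) (by positivity)]
        have : (1 : ℝ) / k ≤ 1 := (div_le_one (by linarith)).2 hk1
        linarith [Real.log_le_sub_one_of_pos (show (0 : ℝ) < 1 + 1 / k by positivity)]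
      have hstep : ∑ q ∈ (Ioc m (k + 1)).filter Nat.Prime, (q : ℝ)⁻¹ =
          (∑ q ∈ (Ioc m k).filter Nat.Prime, (q : ℝ)⁻¹) +
            (G (k + 1) - G k) / Real.log (k + 1 : ℕ) := by
        rw [hG]
        dsimp only
        simp only [sum_filter, sum_Ioc_succ_top hk, sum_Ioc_succ_top (Nat.zero_le k),
          add_sub_cancel_left]
        congr 1
        split_ifs
        · rw [div_div, mul_comm, ← div_div, div_self h1.ne', one_div]
        · simp
      rw [hstep]
      have hkey : Real.log (Real.log (k + 1 : ℕ)) - Real.log (Real.log k) -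
          K * ((Real.log k)⁻¹ - (Real.log (k + 1 : ℕ))⁻¹) ≤
            G k * ((Real.log k)⁻¹ - (Real.log (k + 1 : ℕ))⁻¹) := by
        refine le_trans ?_ (mul_le_mul_of_nonneg_right
          (show Real.log (k + 1 : ℕ) - K ≤ G k by linarith [(abs_le.1 (hGb k (by omega))).1])
          (sub_nonneg.2 (inv_anti₀ h0 hle)))
        rw [sub_mul, sub_le_sub_iff_right, mul_sub, mul_inv_cancel₀ h1.ne', ← div_eq_mul_inv,
          ← Real.log_div h1.ne' h0.ne']
        linarith [Real.log_le_sub_one_of_pos (div_pos h1 h0)]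
      simp only [div_eq_mul_inv] at ih ⊢
      linarith
  have h1 : 1 - C₁ / Real.log n ≤ G n / Real.log n := by
    rw [one_sub_div (hlpos n (hm.trans hmn)).ne']
    exact div_le_div_of_nonneg_right (by linarith [(abs_le.1 (hGb n (by omega))).1])
      (hlpos n (hm.trans hmn)).le
  have h2 : G m / Real.log m ≤ 1 + C₁ / Real.log m := by
    rw [one_add_div (hlpos m hm).ne']
    exact div_le_div_of_nonneg_right (by linarith [(abs_le.1 (hGb m (by omega))).2]) (hlpos m hm).le
  have h3 : C₁ / Real.log n ≤ K / Real.log n :=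
    div_le_div_of_nonneg_right (by linarith) (hlpos n (hm.trans hmn)).le
  have h4 : C₁ / Real.log m ≤ K / Real.log m :=
    div_le_div_of_nonneg_right (by linarith) (hlpos m hm).le
  rw [← hK, two_mul, add_div]
  linarith

/-- **Mertens from below**, the divisors of `M` excepted. -/
theorem exists_le_sum_prime_inv : ∃ C : ℝ, 0 ≤ C ∧ ∀ (M : ℕ) (a b : ℝ), 0 < M → 4 ≤ a → a ≤ b →
    Real.log (Real.log b) - Real.log (Real.log a) - C / Real.log a -
        Real.log M / (a * Real.log a) ≤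
      ∑ p ∈ (range ⌈b⌉₊).filter (fun p : ℕ => p.Prime ∧ a ≤ p ∧ ¬ p ∣ M), (p : ℝ)⁻¹ := by
  obtain ⟨C, hC, h⟩ := exists_le_sum_prime_inv_Ioc
  refine ⟨2 * (C + 1), by linarith, fun M a b hM ha hab => ?_⟩
  have hla : 0 < Real.log a := Real.log_pos (by linarith)
  obtain ⟨m, hm⟩ : ∃ m, m = ⌈a⌉₊ - 1 := ⟨_, rfl⟩
  obtain ⟨n, hn⟩ : ∃ n, n = ⌈b⌉₊ - 1 := ⟨_, rfl⟩
  have hca : 4 ≤ ⌈a⌉₊ := by exact_mod_cast ha.trans (Nat.le_ceil a)
  have hcb : ⌈a⌉₊ ≤ ⌈b⌉₊ := Nat.ceil_le_ceil hab
  have hm2 : 3 ≤ m := by omega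
  have hmn : m ≤ n := by omega
  have hm3 : (3 : ℝ) ≤ m := Nat.ofNat_le_cast.2 hm2
  have hn3 : (3 : ℝ) ≤ n := hm3.trans (Nat.cast_le.2 hmn)
  have hlm : 1 ≤ Real.log m := by
    rw [Real.le_log_iff_exp_le (by linarith)]
    linarith [Real.exp_one_lt_d9]
  have hlmn : Real.log m ≤ Real.log n := Real.log_le_log (by linarith) (Nat.cast_le.2 hmn)
  have hma : (m : ℝ) < a := Nat.lt_ceil.1 (show m < ⌈a⌉₊ by omega)
  have h1 : Real.log (Real.log m) ≤ Real.log (Real.log a) :=
    Real.log_le_log (by linarith) (Real.log_le_log (by linarith) hma.le)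
  have h2 : Real.log (Real.log b) ≤ Real.log (Real.log n) + 1 / Real.log m := by
    have hbn : b ≤ (n : ℝ) + 1 :=
      (Nat.le_ceil b).trans (by exact_mod_cast (show ⌈b⌉₊ ≤ n + 1 by omega))
    have h3 : Real.log b ≤ Real.log n + 1 := by
      refine (Real.log_le_log (by linarith) hbn).trans ?_
      rw [show (n : ℝ) + 1 = n * (1 + 1 / n) by field_simp,
        Real.log_mul (by linarith) (by positivity)]
      have : (1 : ℝ) / n ≤ 1 := (div_le_one (by linarith)).2 (by linarith)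
      linarith [Real.log_le_sub_one_of_pos (show (0 : ℝ) < 1 + 1 / n by positivity)]
    refine (Real.log_le_log (Real.log_pos (by linarith)) h3).trans ?_
    have hn1 : Real.log n ≠ 0 := by linarith
    rw [show Real.log n + 1 = Real.log n * (1 + 1 / Real.log n) by field_simp,
      Real.log_mul (by linarith) (by positivity)]
    have : 1 / Real.log n ≤ 1 / Real.log m := one_div_le_one_div_of_le (by linarith) hlmn
    linarith [Real.log_le_sub_one_of_pos (show (0 : ℝ) < 1 + 1 / Real.log n by positivity)]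
  have h4 : (C + 1) / Real.log m ≤ 2 * (C + 1) / Real.log a := by
    rw [div_le_div_iff₀ (by linarith) hla]
    have ham : a ≤ (m : ℝ) + 1 :=
      (Nat.le_ceil a).trans (by exact_mod_cast (show ⌈a⌉₊ ≤ m + 1 by omega))
    have h5 : Real.log a ≤ 2 * Real.log m := by
      have h6 := Real.log_le_log (by linarith) (ham.trans (show (m : ℝ) + 1 ≤ m * m by nlinarith))
      rw [Real.log_mul (by linarith) (by linarith)] at h6
      linarith
    linarith [mul_le_mul_of_nonneg_left h5 (show 0 ≤ C + 1 by linarith)]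
  obtain ⟨T, hT⟩ : ∃ T, T = M.primeFactors.filter fun p : ℕ => a ≤ p := ⟨_, rfl⟩
  have hT1 : ∑ p ∈ T, (p : ℝ)⁻¹ ≤ Real.log M / (a * Real.log a) := by
    refine (sum_le_card_nsmul _ _ a⁻¹ fun p hp => ?_).trans ?_
    · rw [hT, mem_filter] at hp
      exact inv_anti₀ (by linarith) hp.2
    · rw [nsmul_eq_mul, ← div_eq_mul_inv, div_le_div_iff₀ (by linarith) (by positivity)]
      have h5 : (#T : ℝ) * Real.log a ≤ Real.log M := by
        refine le_trans ?_ (CombinatorialSieve.sum_log_dvd_le (S := T) hM.ne' fun p hp => ?_)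
        · rw [← nsmul_eq_mul]
          refine card_nsmul_le_sum _ _ _ fun p hp => ?_
          rw [hT, mem_filter] at hp
          exact Real.log_le_log (by linarith) hp.2
        · rw [hT, mem_filter] at hp
          exact ⟨Nat.prime_of_mem_primeFactors hp.1, Nat.dvd_of_mem_primeFactors hp.1⟩
      nlinarith [mul_le_mul_of_nonneg_left h5 (show (0 : ℝ) ≤ a by linarith)]
  have hsub : ∑ q ∈ (Ioc m n).filter Nat.Prime, (q : ℝ)⁻¹ ≤
      (∑ p ∈ (range ⌈b⌉₊).filter (fun p : ℕ => p.Prime ∧ a ≤ p ∧ ¬ p ∣ M), (p : ℝ)⁻¹) +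
        ∑ p ∈ T, (p : ℝ)⁻¹ := by
    rw [← sum_union_inter]
    refine le_add_of_le_of_nonneg (sum_le_sum_of_subset_of_nonneg (fun q hq => ?_)
      fun p _ _ => by positivity) (sum_nonneg fun p _ => by positivity)
    rw [mem_filter, mem_Ioc] at hq
    have haq : a ≤ (q : ℝ) :=
      (Nat.le_ceil a).trans (Nat.cast_le.2 (show ⌈a⌉₊ ≤ q by omega))
    by_cases hd : q ∣ M
    · exact mem_union_right _ (hT ▸ mem_filter.2 ⟨Nat.mem_primeFactors.2 ⟨hq.2, hd, hM.ne'⟩, haq⟩)
    · exact mem_union_left _ (mem_filter.2 ⟨mem_range.2 (by omega), hq.2, haq, hd⟩)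
  have h5 := h m n (by omega) hmn
  rw [add_div] at h4
  linarith

end FA.Chen
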