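import Fermat.Agent.Chen.Weighted
import Fermat.Agent.LinearSieve.AlmostPrimeThree

/-!
# Chen's theorem

A number `< y ^ 3` kept by the weights has at most two prime factors.
-/

set_option autoImplicit false

noncomputable section

namespace FA.Chen

open Finset Filter
open FA.CombinatorialSieve FA.LinearSieve
open scoped Topology ArithmeticFunction.Omega

theorem cardFactors_le_two {m : ℕ} {y : ℝ} (hm : m ≠ 0) (hy : 1 < y) (hmy : (m : ℝ) < y ^ 3)
    (hone : ∀ q r : ℕ, q.Prime → r.Prime → q ∣ m → r ∣ m → (q : ℝ) < y → (r : ℝ) < y → q = r)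
    (hsq : ∀ q : ℕ, q.Prime → (q : ℝ) < y → ¬ q ^ 2 ∣ m)
    (htriple : ∀ q p₂ p₃ : ℕ, q.Prime → p₂.Prime → p₃.Prime → (q : ℝ) < y → y ≤ p₂ → y ≤ p₃ →
      m ≠ q * p₂ * p₃) : Ω m ≤ 2 := by
  have key : ∀ n : ℕ, n ≠ 0 → n ≤ m → (∀ r : ℕ, r.Prime → r ∣ n → y ≤ r) → Ω n ≤ 2 := by
    intro n hn hnm h
    by_contra hc
    have h1 := (pow_le_pow_right₀ hy.le (show 3 ≤ Ω n by omega)).trans
      (pow_cardFactors_le (by linarith) hn h)
    have h2 : (n : ℝ) ≤ m := Nat.cast_le.2 hnm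
    linarith
  by_cases hex : ∃ q : ℕ, q.Prime ∧ q ∣ m ∧ (q : ℝ) < y
  · obtain ⟨q, hq, ⟨n, hn⟩, hqy⟩ := hex
    have hn0 : n ≠ 0 := fun h => hm (by rw [hn, h, mul_zero])
    have hbig : ∀ r : ℕ, r.Prime → r ∣ n → y ≤ r := fun r hr hrn => by
      by_contra hlt
      have he := hone q r hq hr (hn ▸ dvd_mul_right q n) (hn ▸ hrn.mul_left q) hqy (not_le.1 hlt)
      subst he
      exact hsq q hq hqy (by rw [hn, sq]; exact mul_dvd_mul_left q hrn)
    have h2 := key n hn0 (hn ▸ Nat.le_mul_of_pos_left n hq.pos) hbig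
    have hne : Ω n ≠ 2 := fun h => by
      rw [ArithmeticFunction.cardFactors_apply, List.length_eq_two] at h
      obtain ⟨r, s, hrs⟩ := h
      have hr : r ∈ n.primeFactorsList := by simp [hrs]
      have hs : s ∈ n.primeFactorsList := by simp [hrs]
      refine htriple q r s hq (Nat.prime_of_mem_primeFactorsList hr)
        (Nat.prime_of_mem_primeFactorsList hs) hqy
        (hbig r (Nat.prime_of_mem_primeFactorsList hr) (Nat.dvd_of_mem_primeFactorsList hr))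
        (hbig s (Nat.prime_of_mem_primeFactorsList hs) (Nat.dvd_of_mem_primeFactorsList hs)) ?_
      have h3 := Nat.prod_primeFactorsList hn0
      rw [hrs] at h3
      simp only [List.prod_cons, List.prod_nil, mul_one] at h3
      rw [hn, ← h3, mul_assoc]
    rw [hn, ArithmeticFunction.cardFactors_mul hq.ne_zero hn0,
      ArithmeticFunction.cardFactors_apply_prime hq]
    omega
  · exact key m hm le_rfl fun r hr hrm => not_lt.1 fun h => hex ⟨r, hr, hrm, h⟩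

theorem eventually_exceptions_le {ε : ℝ} (hε : 0 < ε) (E : ℕ) : ∀ᶠ x : ℕ in atTop,
    E * Real.log x + Real.log x *
      (2 * x / (x : ℝ) ^ (1 / 8 : ℝ) + 2 * (x : ℝ) ^ (1 / 3 : ℝ)) ≤ ε * x / Real.log x := by
  filter_upwards [eventually_error_le (show 0 < ε / 3 by linarith) E,
    eventually_power_saving (show 0 < ε / 3 by linarith) (show (7 / 8 : ℝ) < 1 by norm_num) 2 2,
    eventually_power_saving (show 0 < ε / 3 by linarith) (show (1 / 3 : ℝ) < 1 by norm_num) 2 2,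
    eventually_ge_atTop 2] with x h1 h2 h3 hx
  have hx0 : (0 : ℝ) < x := Nat.cast_pos.2 (by omega)
  have hl : 0 < Real.log x := Real.log_pos (Nat.one_lt_cast.2 (by omega))
  rw [le_div_iff₀ hl] at h1 ⊢
  have e : (x : ℝ) / (x : ℝ) ^ (1 / 8 : ℝ) = (x : ℝ) ^ (7 / 8 : ℝ) := by
    rw [show (7 / 8 : ℝ) = 1 - 1 / 8 by norm_num, Real.rpow_sub hx0, Real.rpow_one]
  rw [mul_div_assoc 2 (x : ℝ), e]
  linarith

theorem sum_log_union_le (A B : Finset ℕ) :
    ∑ p ∈ A ∪ B, Real.log p ≤ ∑ p ∈ A, Real.log p + ∑ p ∈ B, Real.log p := by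
  rw [← sum_union_inter]
  exact le_add_of_nonneg_right (sum_nonneg fun p _ => Real.log_natCast_nonneg p)

/-- From the weights to the representations `N = p + P₂`. -/
theorem eventually_goldbach_two_of {δ : ℝ} (hδ : 0 < δ) : ∀ᶠ N : ℕ in atTop, Even N →
    ∀ η : ℝ, (η + δ) * N / Real.log N ≤ ∑ p ∈ chenSet N ((N : ℝ) ^ (1 / 8 : ℝ))
        ((N : ℝ) ^ (1 / 3 : ℝ)) N N (N - ·), Real.log p →
      η * N / Real.log N ^ 2 ≤ (((range N).filter fun p => p.Prime ∧ 1 < N - p ∧ Ω (N - p) ≤ 2 ∧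
        ∀ q ∈ (N - p).primeFactors, N ≤ q ^ 8).card : ℝ) := by
  filter_upwards [eventually_exceptions_le hδ 2,
    eventually_ge_atTop (65536 : ℕ)] with N herr hN4 heven η hth
  obtain ⟨z, hz⟩ : ∃ z : ℝ, z = (N : ℝ) ^ (1 / 8 : ℝ) := ⟨_, rfl⟩
  obtain ⟨y, hy⟩ : ∃ y : ℝ, y = (N : ℝ) ^ (1 / 3 : ℝ) := ⟨_, rfl⟩
  rw [← hz, ← hy] at herr hth
  have hN0 : (0 : ℝ) < N := Nat.cast_pos.2 (by omega)
  have hN1 : (1 : ℝ) < N := Nat.one_lt_cast.2 (by omega)
  have hz0 : 0 ≤ z := hz ▸ Real.rpow_nonneg hN0.le _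
  have hz8 : z ^ 8 = (N : ℝ) := by
    rw [hz, show (1 : ℝ) / 8 = ((8 : ℕ) : ℝ)⁻¹ by norm_num,
      Real.rpow_inv_natCast_pow hN0.le (by norm_num)]
  have hz4 : 4 ≤ z := by
    refine le_of_pow_le_pow_left₀ (show (8 : ℕ) ≠ 0 by norm_num) hz0 ?_
    rw [hz8]
    norm_num
    exact_mod_cast hN4
  have hzy : z ≤ y := by
    rw [hz, hy]
    exact Real.rpow_le_rpow_of_exponent_le hN1.le (by norm_num)
  have hy3 : (N : ℝ) = y ^ 3 := by
    rw [hy, show (1 : ℝ) / 3 = ((3 : ℕ) : ℝ)⁻¹ by norm_num,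
      Real.rpow_inv_natCast_pow hN0.le (by norm_num)]
  have hmemW : ∀ p ∈ weightedSet N z y N N, p ≤ N := fun p hp => by
    rw [weightedSet, mem_filter, mem_Icc] at hp
    exact hp.1.2
  obtain ⟨S, hS⟩ : ∃ S, S = (chenSet N z y N N (N - ·)).filter fun p =>
      (¬ p ∣ N ∧ p + 1 ≠ N) ∧ ¬ ∃ q ∈ middlePrimes z y N, p ≡ N [MOD q ^ 2] := ⟨_, rfl⟩
  rw [show η = 2 * η / 2 by ring]
  refine card_ge_of_sum_log (S := S) (η := 2 * η) (E := η * N / Real.log N) (by omega)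
    (hS ▸ (filter_subset _ _).trans ((filter_subset _ _).trans (filter_subset _ _)))
    (fun p hp => ?_) ?_ ?_
  · rw [hS, mem_filter, chenSet, mem_filter] at hp
    obtain ⟨⟨hw, hsw⟩, ⟨hdvd, hne⟩, hnsq⟩ := hp
    rw [weightedSet, mem_filter, mem_Icc] at hw
    obtain ⟨⟨hp1, hpN⟩, hpp, hcop, hcard⟩ := hw
    have hlt : p < N := lt_of_le_of_ne hpN fun e => hdvd (e ▸ dvd_rfl)
    have hnM : ∀ q : ℕ, q.Prime → q ∣ N - p → ¬ q ∣ N := fun q hq hqd hqN => hdvd (by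
      have h1 := Nat.dvd_sub hqN hqd
      rw [Nat.sub_sub_self hpN, Nat.prime_dvd_prime_iff_eq hq hpp] at h1
      exact h1 ▸ hqN)
    have hfac : ∀ q : ℕ, q.Prime → q ∣ N - p → z ≤ q := fun q hq hqd => not_lt.1 fun hlt' =>
      small_factor_excluded hzy hcop hq hlt' (hnM q hq hqd) ((Nat.modEq_iff_dvd' hpN).2 hqd)
    have hmid : ∀ q : ℕ, q.Prime → q ∣ N - p → (q : ℝ) < y →
        q ∈ (middlePrimes z y N).filter fun q => q ∣ p + classShift y N N := fun q hq hqd hqy => by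
      obtain ⟨hq1, hq2⟩ := dvd_shift_iff_of_middle (p := p) (c := N) hq hqy (hnM q hq hqd)
        (hfac q hq hqd)
      exact mem_filter.2 ⟨hq1, hq2 ((Nat.modEq_iff_dvd' hpN).2 hqd)⟩
    refine mem_filter.2 ⟨mem_range.2 hlt, hpp, by omega,
      cardFactors_le_two (y := y) (by omega) (by linarith) ?_ ?_ ?_ ?_, fun q hq => ?_⟩
    · rw [← hy3]
      exact Nat.cast_lt.2 (by omega)
    · exact fun q r hq hr hqd hrd hqy hry =>
        card_le_one.1 hcard q (hmid q hq hqd hqy) r (hmid r hr hrd hry)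
    · intro q hq hqy hq2
      have hqd : q ∣ N - p := (dvd_pow_self q two_ne_zero).trans hq2
      exact hnsq ⟨q, (mem_filter.1 (hmid q hq hqd hqy)).1, (Nat.modEq_iff_dvd' hpN).2 hq2⟩
    · intro q p₂ p₃ hq hp₂ hp₃ hqy hy₂ hy₃ he
      have hqd : q ∣ N - p := he ▸ Dvd.intro (p₂ * p₃) (by ring)
      refine hsw ⟨le_antisymm hcard (card_pos.2 ⟨q, hmid q hq hqd hqy⟩), ?_⟩
      simp only [tripleProducts, mem_filter, mem_range]
      exact ⟨by omega, q, p₂, p₃, hq, hp₂, hp₃, hfac q hq hqd, hqy, hy₂, hy₃, he⟩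
    · have h1 := pow_le_pow_left₀ hz0 (hfac q (Nat.prime_of_mem_primeFactors hq)
        (Nat.dvd_of_mem_primeFactors hq)) 8
      rw [hz8] at h1
      exact_mod_cast h1
  · exact le_of_eq (by ring)
  · rw [← sum_filter_add_sum_filter_not _ (fun p => (¬ p ∣ N ∧ p + 1 ≠ N) ∧
      ¬ ∃ q ∈ middlePrimes z y N, p ≡ N [MOD q ^ 2]), ← hS] at hth
    have e : 2 * η * N / Real.log N - η * N / Real.log N + δ * N / Real.log N =
        (η + δ) * N / Real.log N := by ring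
    suffices hexc : ∑ p ∈ (chenSet N z y N N (N - ·)).filter (fun p => ¬ ((¬ p ∣ N ∧ p + 1 ≠ N) ∧
        ¬ ∃ q ∈ middlePrimes z y N, p ≡ N [MOD q ^ 2])), Real.log p ≤ δ * N / Real.log N by
      linarith [hth, hexc]
    refine le_trans ?_ herr
    push_cast
    refine le_trans (sum_le_sum_of_subset_of_nonneg (t := ((N.primeFactors) ∪ {N - 1}) ∪
      (Icc 1 N).filter (fun p : ℕ => ∃ q ∈ middlePrimes z y N, p ≡ N [MOD q ^ 2]))
      (fun p hp => ?_) fun p _ _ => Real.log_natCast_nonneg p) ?_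
    · simp only [mem_filter, chenSet, weightedSet, not_and_or, not_not] at hp
      rw [mem_union, mem_union, mem_singleton, Nat.mem_primeFactors]
      rcases hp.2 with (h1 | h1) | h1
      · exact Or.inl (Or.inl ⟨hp.1.1.2.1, h1, by omega⟩)
      · exact Or.inl (Or.inr (by omega))
      · exact Or.inr (mem_filter.2 ⟨hp.1.1.1, h1⟩)
    · refine (sum_log_union_le _ _).trans (add_le_add ((sum_log_union_le _ _).trans ?_)
        (square_exceptions_le (by linarith) (by linarith) fun _ => N))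
      rw [sum_singleton, two_mul]
      exact add_le_add (sum_log_dvd_le (by omega) fun p hp =>
        ⟨Nat.prime_of_mem_primeFactors hp, Nat.dvd_of_mem_primeFactors hp⟩)
        (Real.log_le_log (Nat.cast_pos.2 (by omega)) (Nat.cast_le.2 (Nat.sub_le N 1)))

/-- The class of `-h`. -/
def shiftClass (x h : ℕ) : ℕ := (sievingProd ((x : ℝ) ^ (1 / 3 : ℝ)) h - 1) * h

theorem shiftClass_not_dvd {x h : ℕ} {q : ℕ} (hq : q.Prime)
    (hqy : (q : ℝ) < (x : ℝ) ^ (1 / 3 : ℝ)) (hqh : ¬ q ∣ h) : ¬ q ∣ shiftClass x h := fun hqc => by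
  rcases hq.dvd_mul.1 hqc with h1 | h1
  · have h3 := Nat.dvd_sub ((prime_dvd_sievingProd_iff hq).2 ⟨hqy, hqh⟩) h1
    rw [Nat.sub_sub_self (sievingProd_pos _ h)] at h3
    exact hq.not_dvd_one h3
  · exact hqh h1

theorem shift_class_spec (h : ℕ) : ∀ p q : ℕ, q.Prime → ¬ q ∣ h → p + h ≡ h [MOD q] → q ∣ p :=
  fun _ _ _ _ hm => Nat.modEq_zero_iff_dvd.1
    (Nat.ModEq.add_right_cancel (Nat.ModEq.refl h) (by rwa [Nat.zero_add]))

/-- From the weights to the primes `p` with `p + h` a `P₂`. -/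
theorem eventually_shift_two_of {δ : ℝ} (hδ : 0 < δ) {h : ℕ} (hh0 : 0 < h) :
    ∀ᶠ x : ℕ in atTop, ∀ η : ℝ, (η + δ) * x / Real.log x ≤ ∑ p ∈ chenSet x
        ((x : ℝ) ^ (1 / 8 : ℝ)) ((x : ℝ) ^ (1 / 3 : ℝ)) h (shiftClass x h) (· + h), Real.log p →
      η * x / Real.log x ^ 2 ≤ (((Icc 1 x).filter fun p => p.Prime ∧ Ω (p + h) ≤ 2 ∧
        ∀ q ∈ (p + h).primeFactors, x ≤ q ^ 8).card : ℝ) := by
  filter_upwards [eventually_exceptions_le hδ (2 * h + 1),
    eventually_ge_atTop (max (65536 : ℕ) h)] with x herr hxh η hth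
  obtain ⟨z, hz⟩ : ∃ z : ℝ, z = (x : ℝ) ^ (1 / 8 : ℝ) := ⟨_, rfl⟩
  obtain ⟨y, hy⟩ : ∃ y : ℝ, y = (x : ℝ) ^ (1 / 3 : ℝ) := ⟨_, rfl⟩
  rw [← hz, ← hy] at herr hth
  have hx4 : 65536 ≤ x := le_of_max_le_left hxh
  have hhx : h ≤ x := le_of_max_le_right hxh
  have hx0 : (0 : ℝ) < x := Nat.cast_pos.2 (by omega)
  have hx1 : (1 : ℝ) < x := Nat.one_lt_cast.2 (by omega)
  have hz0 : 0 ≤ z := hz ▸ Real.rpow_nonneg hx0.le _
  have hz8 : z ^ 8 = (x : ℝ) := by
    rw [hz, show (1 : ℝ) / 8 = ((8 : ℕ) : ℝ)⁻¹ by norm_num,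
      Real.rpow_inv_natCast_pow hx0.le (by norm_num)]
  have hz4 : 4 ≤ z := by
    refine le_of_pow_le_pow_left₀ (show (8 : ℕ) ≠ 0 by norm_num) hz0 ?_
    rw [hz8]
    norm_num
    exact_mod_cast hx4
  have hzy : z ≤ y := by
    rw [hz, hy]
    exact Real.rpow_le_rpow_of_exponent_le hx1.le (by norm_num)
  have hy3 : (x : ℝ) = y ^ 3 := by
    rw [hy, show (1 : ℝ) / 3 = ((3 : ℕ) : ℝ)⁻¹ by norm_num,
      Real.rpow_inv_natCast_pow hx0.le (by norm_num)]
  obtain ⟨c, hc⟩ : ∃ c, c = shiftClass x h := ⟨_, rfl⟩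
  rw [← hc] at hth
  rw [shiftClass, ← hy] at hc
  have hP := sievingProd_pos y h
  have hmod : ∀ p q : ℕ, q ∣ sievingProd y h → q ∣ p + h → p ≡ c [MOD q] := fun p q hq hd => by
    rw [hc, ← ZMod.natCast_eq_natCast_iff]
    have h3 : ((p + h : ℕ) : ZMod q) = 0 := (ZMod.natCast_eq_zero_iff _ _).2 hd
    have h4 : ((sievingProd y h : ℕ) : ZMod q) = 0 := (ZMod.natCast_eq_zero_iff _ _).2 hq
    push_cast [Nat.cast_sub (show 1 ≤ sievingProd y h from hP)] at h3 ⊢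
    rw [h4, zero_sub, neg_one_mul]
    exact eq_neg_of_add_eq_zero_left h3
  have hmod2 : ∀ p q : ℕ, 0 < q → q ^ 2 ∣ p + h → p ≡ q ^ 2 * h - h [MOD q ^ 2] :=
      fun p q hq hd => by
    have hle : h ≤ q ^ 2 * h := Nat.le_mul_of_pos_left h (pow_pos hq 2)
    rw [← ZMod.natCast_eq_natCast_iff, Nat.cast_sub hle, Nat.cast_mul, ZMod.natCast_self, zero_mul,
      zero_sub, eq_neg_iff_add_eq_zero, ← Nat.cast_add]
    exact (ZMod.natCast_eq_zero_iff _ _).2 hd
  obtain ⟨S, hS⟩ : ∃ S, S = (chenSet x z y h c (· + h)).filter fun p => (h < p ∧ p + h < x) ∧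
      ¬ ∃ q ∈ middlePrimes z y h, p ≡ q ^ 2 * h - h [MOD q ^ 2] := ⟨_, rfl⟩
  rw [show η = 2 * η / 2 by ring]
  refine card_ge_of_sum_log (S := S) (η := 2 * η) (E := η * x / Real.log x) (by omega)
    (hS ▸ (filter_subset _ _).trans ((filter_subset _ _).trans (filter_subset _ _)))
    (fun p hp => ?_) ?_ ?_
  · rw [hS, mem_filter, chenSet, mem_filter] at hp
    obtain ⟨⟨hw, hsw⟩, ⟨hhp, hpx'⟩, hnsq⟩ := hp
    rw [weightedSet, mem_filter, mem_Icc] at hw
    obtain ⟨⟨hp1, hpx⟩, hpp, hcop, hcard⟩ := hw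
    have hnM : ∀ q : ℕ, q.Prime → q ∣ p + h → ¬ q ∣ h := fun q hq hqd hqh => by
      have h1 := (Nat.dvd_add_left hqh).1 hqd
      rw [Nat.prime_dvd_prime_iff_eq hq hpp] at h1
      have := Nat.le_of_dvd hh0 hqh
      omega
    have hfac : ∀ q : ℕ, q.Prime → q ∣ p + h → z ≤ q := fun q hq hqd => not_lt.1 fun hlt =>
      small_factor_excluded hzy hcop hq hlt (hnM q hq hqd) (hmod p q
        ((prime_dvd_sievingProd_iff hq).2 ⟨hlt.trans_le hzy, hnM q hq hqd⟩) hqd)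
    have hmid : ∀ q : ℕ, q.Prime → q ∣ p + h → (q : ℝ) < y →
        q ∈ (middlePrimes z y h).filter fun q => q ∣ p + classShift y h c := fun q hq hqd hqy => by
      obtain ⟨hq1, hq2⟩ := dvd_shift_iff_of_middle (p := p) (c := c) hq hqy (hnM q hq hqd)
        (hfac q hq hqd)
      exact mem_filter.2 ⟨hq1, hq2 (hmod p q
        ((prime_dvd_sievingProd_iff hq).2 ⟨hqy, hnM q hq hqd⟩) hqd)⟩
    refine mem_filter.2 ⟨mem_Icc.2 ⟨hp1, hpx⟩, hpp,
      cardFactors_le_two (y := y) (by omega) (by linarith) ?_ ?_ ?_ ?_, fun q hq => ?_⟩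
    · rw [← hy3]
      exact Nat.cast_lt.2 hpx'
    · exact fun q r hq hr hqd hrd hqy hry =>
        card_le_one.1 hcard q (hmid q hq hqd hqy) r (hmid r hr hrd hry)
    · intro q hq hqy hq2
      have hqd : q ∣ p + h := (dvd_pow_self q two_ne_zero).trans hq2
      exact hnsq ⟨q, (mem_filter.1 (hmid q hq hqd hqy)).1, hmod2 p q hq.pos hq2⟩
    · intro q p₂ p₃ hq hp₂ hp₃ hqy hy₂ hy₃ he
      have hqd : q ∣ p + h := he ▸ Dvd.intro (p₂ * p₃) (by ring)
      refine hsw ⟨le_antisymm hcard (card_pos.2 ⟨q, hmid q hq hqd hqy⟩), ?_⟩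
      simp only [tripleProducts, mem_filter, mem_range]
      exact ⟨hpx', q, p₂, p₃, hq, hp₂, hp₃, hfac q hq hqd, hqy, hy₂, hy₃, he⟩
    · have h1 := pow_le_pow_left₀ hz0 (hfac q (Nat.prime_of_mem_primeFactors hq)
        (Nat.dvd_of_mem_primeFactors hq)) 8
      rw [hz8] at h1
      exact_mod_cast h1
  · exact le_of_eq (by ring)
  · rw [← sum_filter_add_sum_filter_not _ (fun p => (h < p ∧ p + h < x) ∧
      ¬ ∃ q ∈ middlePrimes z y h, p ≡ q ^ 2 * h - h [MOD q ^ 2]), ← hS] at hth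
    have e : 2 * η * x / Real.log x - η * x / Real.log x + δ * x / Real.log x =
        (η + δ) * x / Real.log x := by ring
    suffices hexc : ∑ p ∈ (chenSet x z y h c (· + h)).filter (fun p => ¬ ((h < p ∧ p + h < x) ∧
        ¬ ∃ q ∈ middlePrimes z y h, p ≡ q ^ 2 * h - h [MOD q ^ 2])), Real.log p ≤
          δ * x / Real.log x by linarith [hth, hexc]
    refine le_trans ?_ herr
    refine le_trans (sum_le_sum_of_subset_of_nonneg (t := (Icc 1 h ∪ Icc (max 1 (x - h)) x) ∪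
      (Icc 1 x).filter (fun p : ℕ => ∃ q ∈ middlePrimes z y h, p ≡ q ^ 2 * h - h [MOD q ^ 2]))
      (fun p hp => ?_) fun p _ _ => Real.log_natCast_nonneg p) ?_
    · simp only [mem_filter, chenSet, weightedSet, not_and_or, not_not, not_lt] at hp
      rw [mem_union, mem_union]
      have h0 := mem_Icc.1 hp.1.1.1
      rcases hp.2 with (h1 | h1) | h1
      · exact Or.inl (Or.inl (mem_Icc.2 ⟨h0.1, h1⟩))
      · exact Or.inl (Or.inr (mem_Icc.2 ⟨by omega, h0.2⟩))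
      · exact Or.inr (mem_filter.2 ⟨hp.1.1.1, h1⟩)
    · refine (sum_log_union_le _ _).trans (add_le_add ((sum_log_union_le _ _).trans ?_)
        (square_exceptions_le (by linarith) (by linarith) _))
      have hb : ∀ A : Finset ℕ, A ⊆ Icc 1 x → ∑ p ∈ A, Real.log p ≤ #A * Real.log x := by
        intro A hA
        refine (sum_le_card_nsmul _ _ (Real.log x) fun p hp => ?_).trans
          (le_of_eq (by rw [nsmul_eq_mul]))
        have h1 := mem_Icc.1 (hA hp)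
        exact Real.log_le_log (Nat.cast_pos.2 h1.1) (Nat.cast_le.2 h1.2)
      refine (add_le_add (hb _ (Icc_subset_Icc_right hhx))
        (hb _ (Icc_subset_Icc_left (le_max_left _ _)))).trans ?_
      rw [← add_mul]
      refine mul_le_mul_of_nonneg_right ?_ (Real.log_natCast_nonneg x)
      rw [← Nat.cast_add, Nat.cast_le, Nat.card_Icc, Nat.card_Icc]
      omega

/-- **Chen's theorem**: every large even number is a prime plus a `P₂`. -/
theorem exists_goldbach_two : ∃ η : ℝ, 0 < η ∧ ∀ᶠ N : ℕ in atTop, Even N →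
    η * N / Real.log N ^ 2 ≤ (((range N).filter fun p => p.Prime ∧ 1 < N - p ∧ Ω (N - p) ≤ 2 ∧
      ∀ q ∈ (N - p).primeFactors, N ≤ q ^ 8).card : ℝ) := by
  obtain ⟨η, hη, h⟩ := exists_chenSet_ge
  refine ⟨η / 2, by positivity, ?_⟩
  filter_upwards [h, eventually_goldbach_two_of (show 0 < η / 2 by linarith),
    eventually_gt_atTop 0] with N hN hof hN0 heven
  have hW : ∀ {z y : ℝ} {p : ℕ}, p ∈ weightedSet N z y N N → p ≤ N := fun hp => by
    rw [weightedSet, mem_filter, mem_Icc] at hp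
    exact hp.1.2
  refine hof heven (η / 2) ?_
  rw [add_halves]
  exact hN N N (N - ·) heven.two_dvd hN0 le_rfl (fun q _ _ hq => hq)
    (fun p hp p' hp' e => by
      have h1 := hW hp
      have h2 := hW hp'
      dsimp only at e
      omega)
    fun p hp q _ _ hmod => by
      have h1 := (Nat.modEq_iff_dvd' (Nat.sub_le N p)).1 hmod
      rwa [Nat.sub_sub_self (hW hp)] at h1

/-- **Infinitely many primes have a `P₂` at a given even distance.** -/
theorem exists_shift_two {h : ℕ} (hh : Even h) (hh0 : 0 < h) : ∃ η : ℝ, 0 < η ∧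
    ∀ᶠ x : ℕ in atTop, η * x / Real.log x ^ 2 ≤
      (((Icc 1 x).filter fun p => p.Prime ∧ Ω (p + h) ≤ 2 ∧
        ∀ q ∈ (p + h).primeFactors, x ≤ q ^ 8).card : ℝ) := by
  obtain ⟨η, hη, hev⟩ := exists_chenSet_ge
  refine ⟨η / 2, by positivity, ?_⟩
  filter_upwards [hev, eventually_shift_two_of (show 0 < η / 2 by linarith) hh0,
    eventually_ge_atTop h] with x hx hof hhx
  refine hof (η / 2) ?_
  rw [add_halves]
  exact hx h (shiftClass x h) (· + h) hh.two_dvd hh0 hhx (fun _ => shiftClass_not_dvd)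
    (fun p _ p' _ e => Nat.add_right_cancel e) fun p _ => shift_class_spec h p

end FA.Chen
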