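import Fermat.Agent.Chen.PrimeSums

/-!
# A bilinear theorem of Bombieri and Vinogradov

For `|a m| ≤ 1` supported in `[x ^ δ, x ^ (1 - δ)]` and the primes `n ≥ y ≥ x ^ δ`, the sum over
`q ≤ √x / (log x) ^ B` of the discrepancy of `a m` in the classes `m n ≡ c [MOD q]`, `m n ≤ x`,
is `O (x / (log x) ^ A)`: the characters reduce to primitive ones, the small conductors come from
the theorem of Siegel and Walfisz, the others from the bilinear large sieve.
-/

set_option autoImplicit false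

noncomputable section

namespace FA.Chen

open Finset Filter
open FA.BombieriVinogradov (primChars mem_primChars sieveConst)
open FA.ThreePrimes (logOne)
open scoped Topology

/-- The bilinear sum of a character. -/
def pairSum {q : ℕ} (χ : DirichletCharacter ℂ q) (a b : ℕ → ℂ) (x : ℕ) : ℂ :=
  ∑ m ∈ Ioc 0 x, ∑ n ∈ Ioc 0 x, if m * n ≤ x then a m * χ m * (b n * χ n) else 0

/-- The coefficients at the numbers prime to `k`. -/
def coprimePart (a : ℕ → ℂ) (k m : ℕ) : ℂ := if m.Coprime k then a m else 0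

theorem norm_coprimePart_le {a : ℕ → ℂ} (ha : ∀ m, ‖a m‖ ≤ 1) (k m : ℕ) :
    ‖coprimePart a k m‖ ≤ 1 := by
  unfold coprimePart
  split_ifs
  · exact ha m
  · simp

/-- The discrepancy of the products in a class. -/
def pairDisc (a b : ℕ → ℂ) (x q c : ℕ) : ℂ :=
  (∑ m ∈ Ioc 0 x, ∑ n ∈ Ioc 0 x, if m * n ≤ x ∧ m * n ≡ c [MOD q] then a m * b n else 0) -
    (∑ m ∈ Ioc 0 x, ∑ n ∈ Ioc 0 x, if m * n ≤ x ∧ (m * n).Coprime q then a m * b n else 0) /
      q.totient

theorem changeLevel_apply_nat {d q : ℕ} [NeZero q] (h : d ∣ q) (ψ : DirichletCharacter ℂ d)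
    (n : ℕ) : DirichletCharacter.changeLevel h ψ (n : ZMod q) =
      if n.Coprime (q / d) then ψ (n : ZMod d) else 0 := by
  by_cases hn : n.Coprime q
  · have hu : IsCoprime (n : ℤ) q := Nat.isCoprime_iff_coprime.2 hn
    have h1 := DirichletCharacter.changeLevel_eq_cast_of_dvd' ψ h hu
    push_cast at h1
    rw [h1, if_pos (hn.coprime_dvd_right (Nat.div_dvd_of_dvd h))]
  · rw [MulChar.map_nonunit _ fun hu => hn ((ZMod.isUnit_iff_coprime n q).1 hu)]
    split_ifs with hk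
    · rw [MulChar.map_nonunit]
      intro hu
      refine hn ?_
      rw [← Nat.div_mul_cancel h]
      exact Nat.Coprime.mul_right hk ((ZMod.isUnit_iff_coprime n d).1 hu)
    · rfl

theorem pairSum_changeLevel {d q : ℕ} [NeZero q] (h : d ∣ q) (ψ : DirichletCharacter ℂ d)
    (a b : ℕ → ℂ) (x : ℕ) : pairSum (DirichletCharacter.changeLevel h ψ) a b x =
      pairSum ψ (coprimePart a (q / d)) (coprimePart b (q / d)) x := by
  simp only [pairSum, changeLevel_apply_nat h, coprimePart]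
  refine sum_congr rfl fun m _ => sum_congr rfl fun n _ => ?_
  split_ifs <;> simp

theorem pairSum_one {q : ℕ} [NeZero q] (a b : ℕ → ℂ) (x : ℕ) :
    pairSum (1 : DirichletCharacter ℂ q) a b x =
      ∑ m ∈ Ioc 0 x, ∑ n ∈ Ioc 0 x, if m * n ≤ x ∧ (m * n).Coprime q then a m * b n else 0 := by
  refine sum_congr rfl fun m _ => sum_congr rfl fun n _ => ?_
  by_cases hc : (m * n).Coprime q
  · rw [MulChar.one_apply ((ZMod.isUnit_iff_coprime m q).2 hc.coprime_mul_right),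
      MulChar.one_apply ((ZMod.isUnit_iff_coprime n q).2 hc.coprime_mul_left), mul_one, mul_one]
    exact if_congr ⟨fun h => ⟨h, hc⟩, fun h => h.1⟩ rfl rfl
  · rw [if_neg fun h : m * n ≤ x ∧ _ => hc h.2]
    rcases not_and_or.1 (mt (fun h => Nat.coprime_mul_iff_left.2 h) hc) with h | h
    · rw [MulChar.map_nonunit _ fun hu => h ((ZMod.isUnit_iff_coprime m q).1 hu)]
      simp
    · rw [MulChar.map_nonunit _ fun hu => h ((ZMod.isUnit_iff_coprime n q).1 hu)]
      simp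

theorem totient_mul_pairDisc {q c : ℕ} [NeZero q] (hc : c.Coprime q) (a b : ℕ → ℂ) (x : ℕ) :
    (q.totient : ℂ) * pairDisc a b x q c =
      ∑ χ ∈ (univ : Finset (DirichletCharacter ℂ q)).erase 1,
        χ ((c : ZMod q)⁻¹) * pairSum χ a b x := by
  classical
  have hu : IsUnit (c : ZMod q) := (ZMod.isUnit_iff_coprime c q).2 hc
  have hone : (1 : DirichletCharacter ℂ q) (c : ZMod q)⁻¹ = 1 := by
    obtain ⟨u, hu'⟩ := hu
    rw [← hu', ZMod.inv_coe_unit, MulChar.one_apply_coe]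
  have hφ : (q.totient : ℂ) ≠ 0 := Nat.cast_ne_zero.2 (Nat.totient_pos.2 (NeZero.pos q)).ne'
  rw [pairDisc, mul_sub, mul_div_cancel₀ _ hφ, sub_eq_iff_eq_add']
  have hall := add_sum_erase univ (fun χ : DirichletCharacter ℂ q =>
    χ ((c : ZMod q)⁻¹) * pairSum χ a b x) (mem_univ (1 : DirichletCharacter ℂ q))
  simp only [hone, one_mul, pairSum_one] at hall
  rw [hall]
  simp only [pairSum, mul_sum]
  rw [sum_comm (s := (univ : Finset (DirichletCharacter ℂ q)))]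
  refine sum_congr rfl fun m _ => ?_
  rw [sum_comm (s := (univ : Finset (DirichletCharacter ℂ q)))]
  refine sum_congr rfl fun n _ => ?_
  by_cases hle : m * n ≤ x
  · have e : ∀ χ : DirichletCharacter ℂ q,
        χ ((c : ZMod q)⁻¹) * (if m * n ≤ x then a m * χ m * (b n * χ n) else 0) =
          a m * b n * (χ ((c : ZMod q)⁻¹) * χ ((m * n : ℕ) : ZMod q)) := fun χ => by
      rw [if_pos hle, Nat.cast_mul, map_mul]
      ring
    simp only [e, ← mul_sum]
    rw [DirichletCharacter.sum_char_inv_mul_char_eq ℂ hu]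
    by_cases hm : m * n ≡ c [MOD q]
    · rw [if_pos ⟨hle, hm⟩, if_pos ((ZMod.natCast_eq_natCast_iff _ _ _).2 hm.symm)]
      ring
    · rw [if_neg fun h : _ ∧ _ => hm h.2,
        if_neg fun h => hm ((ZMod.natCast_eq_natCast_iff _ _ _).1 h).symm]
      simp
  · rw [if_neg fun h : _ ∧ _ => hle h.1, mul_zero, sum_eq_zero]
    exact fun χ _ => by rw [if_neg hle, mul_zero]

/-- **One modulus.** -/
theorem norm_pairDisc_le {q c : ℕ} [NeZero q] (hc : c.Coprime q) (a b : ℕ → ℂ) (x : ℕ) :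
    ‖pairDisc a b x q c‖ ≤ (∑ z ∈ BombieriVinogradov.inducing q,
      ‖pairSum z.2 (coprimePart a (q / z.1)) (coprimePart b (q / z.1)) x‖) / q.totient := by
  classical
  rw [le_div_iff₀ (Nat.cast_pos.2 (Nat.totient_pos.2 (NeZero.pos q))), mul_comm,
    ← Complex.norm_natCast q.totient, ← norm_mul, totient_mul_pairDisc hc]
  refine (norm_sum_le _ _).trans
    ((sum_le_sum (g := fun χ : DirichletCharacter ℂ q => ‖pairSum χ a b x‖) fun χ _ => ?_).trans ?_)
  · rw [norm_mul]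
    exact mul_le_of_le_one_left (norm_nonneg _) (DirichletCharacter.norm_le_one χ _)
  obtain ⟨G, hG⟩ : ∃ G : (Σ d : ℕ, DirichletCharacter ℂ d) → DirichletCharacter ℂ q,
      G = fun z => if h : z.1 ∣ q then DirichletCharacter.changeLevel h z.2 else 1 := ⟨_, rfl⟩
  have hGJ : ∀ χ : DirichletCharacter ℂ q, G ⟨χ.conductor, χ.primitiveCharacter⟩ = χ := fun χ => by
    rw [hG]
    simp only
    rw [dif_pos χ.conductor_dvd_level]
    exact DirichletCharacter.changeLevel_primitiveCharacter χ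
  have hinj : Set.InjOn (fun χ : DirichletCharacter ℂ q =>
      (⟨χ.conductor, χ.primitiveCharacter⟩ : Σ d : ℕ, DirichletCharacter ℂ d))
      ((univ : Finset (DirichletCharacter ℂ q)).erase 1 : Finset _) := fun χ _ χ' _ h => by
    rw [← hGJ χ, ← hGJ χ']
    exact congrArg G h
  have hstep : ∀ χ : DirichletCharacter ℂ q, pairSum χ a b x = pairSum χ.primitiveCharacter
      (coprimePart a (q / χ.conductor)) (coprimePart b (q / χ.conductor)) x := fun χ => by
    conv_lhs => rw [← DirichletCharacter.changeLevel_primitiveCharacter χ]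
    exact pairSum_changeLevel _ _ a b x
  simp only [hstep]
  rw [← sum_image (f := fun z : Σ d : ℕ, DirichletCharacter ℂ d =>
    ‖pairSum z.2 (coprimePart a (q / z.1)) (coprimePart b (q / z.1)) x‖) hinj]
  refine sum_le_sum_of_subset_of_nonneg (fun z hz => ?_) fun _ _ _ => norm_nonneg _
  rw [mem_image] at hz
  obtain ⟨χ, hχ, rfl⟩ := hz
  rw [mem_erase] at hχ
  rw [BombieriVinogradov.inducing, mem_sigma, mem_filter, Nat.mem_divisors]
  have h0 := χ.conductor_ne_zero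
  have h1 : χ.conductor ≠ 1 := fun h => hχ.1 (χ.eq_one_iff_conductor_eq_one.2 h)
  have : NeZero χ.conductor := ⟨h0⟩
  exact ⟨⟨⟨χ.conductor_dvd_level, NeZero.ne q⟩, show 2 ≤ χ.conductor by omega⟩,
    mem_primChars.2 χ.primitiveCharacter_isPrimitive⟩

/-- The pairs `(q, d)`, `d ∣ q`, by the cofactor. -/
theorem sum_cofactor_le (Q : ℕ) {S : ℕ → ℕ → ℝ} (hS : ∀ d k, 0 ≤ S d k) :
    ∑ q ∈ Icc 1 Q, (∑ d ∈ q.divisors.filter (2 ≤ ·), S d (q / d)) / q.totient ≤
      ∑ k ∈ Icc 1 Q, 1 / (k.totient : ℝ) * ∑ d ∈ Icc 2 Q, 1 / (d.totient : ℝ) * S d k := by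
  have e : ∀ q ∈ Icc 1 Q, (∑ d ∈ q.divisors.filter (2 ≤ ·), S d (q / d)) / q.totient ≤
      ∑ d ∈ Icc 2 Q, if d ∣ q then S d (q / d) / q.totient else 0 := by
    intro q hq
    rw [mem_Icc] at hq
    rw [sum_div, ← sum_filter]
    refine sum_le_sum_of_subset_of_nonneg (fun d hd => ?_)
      fun d _ _ => div_nonneg (hS _ _) (Nat.cast_nonneg _)
    rw [mem_filter, Nat.mem_divisors] at hd
    exact mem_filter.2 ⟨mem_Icc.2 ⟨hd.2, (Nat.le_of_dvd hq.1 hd.1.1).trans hq.2⟩, hd.1.1⟩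
  refine (sum_le_sum e).trans ?_
  simp only [mul_sum]
  rw [sum_comm, sum_comm (s := Icc 1 Q)]
  refine sum_le_sum fun d hd => ?_
  rw [mem_Icc] at hd
  rw [← sum_filter]
  have hd0 : 0 < d := by omega
  refine (sum_le_sum_of_subset_of_nonneg (t := (Icc 1 Q).image (d * ·)) (fun q hq => ?_)
    fun q _ _ => div_nonneg (hS _ _) (Nat.cast_nonneg _)).trans ?_
  · rw [mem_filter, mem_Icc] at hq
    obtain ⟨j, rfl⟩ := hq.2
    refine mem_image.2 ⟨j, mem_Icc.2 ⟨Nat.pos_of_mul_pos_left hq.1.1, ?_⟩, rfl⟩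
    exact (Nat.le_mul_of_pos_left j hd0).trans hq.1.2
  rw [sum_image fun u _ v _ h => Nat.eq_of_mul_eq_mul_left hd0 h]
  refine sum_le_sum fun k hk => ?_
  rw [mem_Icc] at hk
  rw [Nat.mul_div_cancel_left k hd0, ← mul_assoc, one_div, one_div, ← mul_inv, inv_mul_eq_div]
  refine div_le_div_of_nonneg_left (hS d k) ?_ ?_
  · exact mul_pos (Nat.cast_pos.2 (Nat.totient_pos.2 hk.1))
      (Nat.cast_pos.2 (Nat.totient_pos.2 hd0))
  · rw [mul_comm (k.totient : ℝ)]
    exact_mod_cast Nat.totient_super_multiplicative d k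

/-- **A block of the large conductors.** -/
theorem block_bilinear_le {R M x : ℕ} {δ : ℝ} {a b : ℕ → ℂ} (ha : ∀ m, ‖a m‖ ≤ 1)
    (hb : ∀ n, ‖b n‖ ≤ 1) (hRx : R ≤ x) (hM : 0 < M) (hMx : M ≤ x)
    (hMlo : (x : ℝ) ^ δ ≤ 2 * M) (hMhi : (M : ℝ) ≤ (x : ℝ) ^ (1 - δ)) :
    ∑ d ∈ Icc 1 (2 * R), (d : ℝ) / d.totient * ∑ χ ∈ primChars d,
      ‖∑ m ∈ Ioc M (2 * M), ∑ n ∈ Ioc 0 x, if m * n ≤ x then a m * χ m * (b n * χ n) else 0‖ ≤
        168 * logOne x ^ 2 *
          (2 * x + 8 * R * (x : ℝ) ^ (1 - δ / 2) + 4 * (R : ℝ) ^ 2 * √(x : ℝ)) := by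
  obtain ⟨a', ha'⟩ : ∃ a' : ℕ → ℂ, a' = fun m => if M < m then a m else 0 := ⟨_, rfl⟩
  obtain ⟨N, hN⟩ : ∃ N, N = x / M := ⟨_, rfl⟩
  have hx : 0 < x := hM.trans_le hMx
  have hx0 : (0 : ℝ) < x := Nat.cast_pos.2 hx
  have hM0 : (0 : ℝ) < M := Nat.cast_pos.2 hM
  have heq : ∀ (d : ℕ) (χ : DirichletCharacter ℂ d),
      (∑ m ∈ Ioc M (2 * M), ∑ n ∈ Ioc 0 x, if m * n ≤ x then a m * χ m * (b n * χ n) else 0) =
        ∑ m ∈ Ioc 0 (2 * M), ∑ n ∈ Ioc 0 N,
          if m * n ≤ x then a' m * χ m * (b n * χ n) else 0 := by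
    intro d χ
    rw [← sum_Ioc_consecutive _ (Nat.zero_le M) (show M ≤ 2 * M by omega),
      sum_eq_zero (s := Ioc 0 M) fun m hm => sum_eq_zero fun n _ => ?_, zero_add]
    · refine sum_congr rfl fun m hm => ?_
      rw [mem_Ioc] at hm
      rw [sum_subset (show Ioc 0 N ⊆ Ioc 0 x from Ioc_subset_Ioc le_rfl (hN ▸ Nat.div_le_self x M))
        fun n hn hn' => ?_]
      · simp only [ha', if_pos hm.1]
      rw [if_neg]
      intro h
      rw [mem_Ioc, not_and] at hn'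
      rw [mem_Ioc] at hn
      refine hn' hn.1 ?_
      rw [hN, Nat.le_div_iff_mul_le hM, mul_comm]
      exact (Nat.mul_le_mul_right n hm.1.le).trans h
    · rw [mem_Ioc] at hm
      simp [ha', not_lt.2 hm.2]
  simp only [heq]
  refine (BombieriVinogradov.largeSieve_bilinear (2 * R) (2 * M) N x (by omega) a' b).trans ?_
  have ha1 : ∀ m, ‖a' m‖ ≤ 1 := fun m => by
    rw [ha']
    dsimp only
    split_ifs
    · exact ha m
    · simp
  have hsq : ∀ (g : ℕ → ℂ), (∀ m, ‖g m‖ ≤ 1) → ∀ T : ℕ, ∑ m ∈ Ioc 0 T, ‖g m‖ ^ 2 ≤ T :=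
    fun g hg T => (sum_le_card_nsmul _ _ (1 : ℝ) fun m _ =>
      pow_le_one₀ (norm_nonneg _) (hg m)).trans (by simp)
  obtain ⟨L, hL⟩ : ∃ L, L = logOne x := ⟨_, rfl⟩
  rw [← hL]
  have hL1 : 1 ≤ L := hL ▸ ThreePrimes.one_le_logOne x
  obtain ⟨u, hu⟩ : ∃ u, u = (x : ℝ) ^ ((1 - δ) / 2) := ⟨_, rfl⟩
  have hu0 : 0 ≤ u := hu ▸ Real.rpow_nonneg hx0.le _
  have huu : u * u = (x : ℝ) ^ (1 - δ) := by rw [hu, ← Real.rpow_add hx0, add_halves]
  have hsu : √(x : ℝ) * u = (x : ℝ) ^ (1 - δ / 2) := by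
    rw [hu, Real.sqrt_eq_rpow, ← Real.rpow_add hx0]
    ring_nf
  have hlog : 1 + Real.log ((2 * M : ℕ) : ℝ) ≤ 2 * L := by
    rw [hL, logOne]
    push_cast
    rw [Real.log_mul two_ne_zero hM0.ne']
    linarith [Real.log_le_log hM0 (Nat.cast_le (α := ℝ).2 hMx), Real.log_two_lt_d9,
      Real.log_natCast_nonneg x]
  have hNr : (N : ℝ) ≤ x / M := hN ▸ Nat.cast_div_le
  have hMN : (M : ℝ) * N ≤ x := by
    rw [le_div_iff₀ hM0] at hNr
    linarith
  have hsM : √(M : ℝ) ≤ u := by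
    rw [Real.sqrt_le_iff, sq, huu]
    exact ⟨hu0, hMhi⟩
  have hsN : √(N : ℝ) ≤ 2 * u := by
    rw [Real.sqrt_le_iff]
    refine ⟨by linarith, hNr.trans ?_⟩
    rw [div_le_iff₀ hM0, mul_pow, sq u, huu]
    have h1 := mul_le_mul_of_nonneg_right hMlo (Real.rpow_nonneg hx0.le (1 - δ))
    rw [← Real.rpow_add hx0, show δ + (1 - δ) = 1 by ring, Real.rpow_one] at h1
    linarith
  have hs : √(sieveConst (2 * M) (2 * R) * ∑ m ∈ Ioc 0 (2 * M), ‖a' m‖ ^ 2) *
      √(sieveConst N (2 * R) * ∑ n ∈ Ioc 0 N, ‖b n‖ ^ 2) ≤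
      6 * L * (√((2 * M : ℕ) : ℝ) * √(N : ℝ) *
        ((√((2 * M : ℕ) : ℝ) + (2 * R : ℕ)) * (√(N : ℝ) + (2 * R : ℕ)))) := by
    have hone : ∀ (T : ℕ) (g : ℕ → ℂ), (∀ m, ‖g m‖ ≤ 1) →
        √(sieveConst T (2 * R) * ∑ m ∈ Ioc 0 T, ‖g m‖ ^ 2) ≤
          √(6 * L) * (√(T : ℝ) * (√(T : ℝ) + (2 * R : ℕ))) := by
      intro T g hg
      refine (Real.sqrt_le_sqrt (mul_le_mul (BombieriVinogradov.sieveConst_le (x := x) hx
        (by omega)) (hsq g hg T) (sum_nonneg fun _ _ => by positivity)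
        (by rw [← hL]; positivity))).trans ?_
      rw [← hL, mul_assoc, Real.sqrt_mul (by linarith),
        mul_comm ((T : ℝ) + _) (T : ℝ), Real.sqrt_mul (Nat.cast_nonneg T)]
      refine mul_le_mul_of_nonneg_left (mul_le_mul_of_nonneg_left ?_ (Real.sqrt_nonneg _))
        (Real.sqrt_nonneg _)
      rw [Real.sqrt_le_iff]
      refine ⟨by positivity, ?_⟩
      rw [add_sq, Real.sq_sqrt (Nat.cast_nonneg T)]
      have : 0 ≤ 2 * √(T : ℝ) * ((2 * R : ℕ) : ℝ) := by positivity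
      linarith
    refine (mul_le_mul (hone _ a' ha1) (hone _ b hb) (Real.sqrt_nonneg _) (by positivity)).trans
      (le_of_eq ?_)
    have h6 : √(6 * L) * √(6 * L) = 6 * L := Real.mul_self_sqrt (by linarith)
    linear_combination (√((2 * M : ℕ) : ℝ) * (√((2 * M : ℕ) : ℝ) + (2 * R : ℕ)) *
      (√(N : ℝ) * (√(N : ℝ) + (2 * R : ℕ)))) * h6
  have h2M : √((2 * M : ℕ) : ℝ) ≤ 2 * √(M : ℝ) := by
    rw [Real.sqrt_le_iff, mul_pow, Real.sq_sqrt hM0.le]
    refine ⟨by positivity, ?_⟩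
    push_cast
    linarith
  have hMNs : √((2 * M : ℕ) : ℝ) * √(N : ℝ) ≤ 2 * √(x : ℝ) := by
    rw [← Real.sqrt_mul (Nat.cast_nonneg _), Real.sqrt_le_iff, mul_pow, Real.sq_sqrt hx0.le]
    refine ⟨by positivity, ?_⟩
    push_cast
    linarith
  have hprod : (√((2 * M : ℕ) : ℝ) + (2 * R : ℕ)) * (√(N : ℝ) + (2 * R : ℕ)) ≤
      2 * √(x : ℝ) + 8 * R * u + 4 * (R : ℝ) ^ 2 := by
    push_cast at h2M hMNs ⊢
    have h3 := mul_le_mul_of_nonneg_left hsN (show (0 : ℝ) ≤ 2 * R by positivity)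
    have h4 := mul_le_mul_of_nonneg_left (h2M.trans (mul_le_mul_of_nonneg_left hsM two_pos.le))
      (show (0 : ℝ) ≤ 2 * R by positivity)
    linarith
  have hR0 : (0 : ℝ) ≤ 2 * √(x : ℝ) + 8 * R * u + 4 * (R : ℝ) ^ 2 := by positivity
  refine (mul_le_mul (mul_le_mul_of_nonneg_left hlog (by norm_num)) (hs.trans
    (mul_le_mul_of_nonneg_left (mul_le_mul hMNs hprod (by positivity) (by positivity))
      (by positivity))) (by positivity) (by positivity)).trans (le_of_eq ?_)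
  rw [← hsu]
  linear_combination (336 * L ^ 2) * Real.mul_self_sqrt hx0.le

/-- **The large conductors, one dyadic range.** -/
theorem dyadic_bilinear_le {R x K : ℕ} {δ l : ℝ} {a b : ℕ → ℂ} (hl : 1 ≤ l)
    (ha : ∀ m, ‖a m‖ ≤ 1) (hb : ∀ n, ‖b n‖ ≤ 1) (hδ : 0 < δ)
    (hsupp : ∀ m, a m ≠ 0 → (x : ℝ) ^ δ ≤ m ∧ (m : ℝ) ≤ (x : ℝ) ^ (1 - δ))
    (hx : 2 ≤ x) (hR : 0 < R) (hRl : l ^ K ≤ R) (hRx : (R : ℝ) ≤ √(x : ℝ) / l ^ K)
    (hxl : l ^ K ≤ (x : ℝ) ^ (δ / 2)) (hLl : logOne x ≤ 2 * l) :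
    ∑ d ∈ Ioc R (2 * R), 1 / (d.totient : ℝ) * ∑ χ ∈ primChars d, ‖pairSum χ a b x‖ ≤
      40000 * l ^ 3 * ((x : ℝ) / l ^ K) := by
  obtain ⟨W, hW⟩ : ∃ W, W = (x : ℝ) / l ^ K := ⟨_, rfl⟩
  rw [← hW]
  have hx0 : (0 : ℝ) < x := Nat.cast_pos.2 (by omega)
  have hW0 : 0 ≤ W := hW ▸ by positivity
  have hlK : (1 : ℝ) ≤ l ^ K := one_le_pow₀ hl
  have hRs : (R : ℝ) ≤ √(x : ℝ) := hRx.trans (div_le_self (Real.sqrt_nonneg _) hlK)
  have hRx' : R ≤ x := Nat.cast_le.1 (hRs.trans ((Real.sqrt_le_left hx0.le).2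
    (le_self_pow₀ (Nat.one_le_cast.2 (by omega)) two_ne_zero)))
  obtain ⟨G, hG⟩ : ∃ G : ∀ d : ℕ, DirichletCharacter ℂ d → ℕ → ℂ, G = fun _ χ m =>
      ∑ n ∈ Ioc 0 x, if m * n ≤ x then a m * χ m * (b n * χ n) else 0 := ⟨_, rfl⟩
  have hblock : ∀ M : ℕ, 0 < M → ∑ d ∈ Ioc R (2 * R), 1 / (d.totient : ℝ) *
      ∑ χ ∈ primChars d, ‖∑ m ∈ Ioc M (2 * M), G d χ m‖ ≤ 168 * logOne x ^ 2 * (14 * W) := by
    intro M hM
    by_cases hex : ∃ m ∈ Ioc M (2 * M), m ≤ x ∧ a m ≠ 0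
    swap
    · refine le_trans (le_of_eq (sum_eq_zero fun d _ => ?_)) (by positivity)
      rw [sum_eq_zero, mul_zero]
      intro χ _
      rw [sum_eq_zero, norm_zero]
      intro m hm
      rw [hG]
      refine sum_eq_zero fun n hn => ?_
      rw [mem_Ioc] at hn
      split_ifs with h
      · rw [show a m = 0 from not_not.1 fun h' =>
          hex ⟨m, hm, (Nat.le_mul_of_pos_right m hn.1).trans h, h'⟩, zero_mul, zero_mul]
      · rfl
    obtain ⟨m, hm, hmx, ham⟩ := hex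
    rw [mem_Ioc] at hm
    obtain ⟨h1, h2⟩ := hsupp m ham
    have h3 := block_bilinear_le (R := R) (M := M) (δ := δ) ha hb hRx' hM (by omega)
      (h1.trans (by exact_mod_cast hm.2)) ((Nat.cast_le.2 hm.1.le).trans h2)
    have hR0 : (0 : ℝ) < R := Nat.cast_pos.2 hR
    refine le_trans (le_trans ?_ (div_le_div_of_nonneg_right h3 hR0.le)) ?_
    · rw [le_div_iff₀ hR0, sum_mul, hG]
      refine le_trans (sum_le_sum fun d hd => ?_)
        (sum_le_sum_of_subset_of_nonneg (fun d hd => ?_) fun d _ _ => by positivity)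
      · rw [mem_Ioc] at hd
        rw [mul_comm (1 / (d.totient : ℝ)), mul_assoc, mul_comm ((d : ℝ) / d.totient)]
        refine mul_le_mul_of_nonneg_left ?_ (sum_nonneg fun χ _ => norm_nonneg _)
        rw [one_div_mul_eq_div]
        exact div_le_div_of_nonneg_right (Nat.cast_le.2 hd.1.le) (Nat.cast_nonneg _)
      · rw [mem_Ioc] at hd
        rw [mem_Icc]
        omega
    rw [mul_div_assoc]
    refine mul_le_mul_of_nonneg_left ?_ (by positivity)
    have t1 : (x : ℝ) / R ≤ W := hW ▸ div_le_div_of_nonneg_left hx0.le (by positivity) hRl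
    have t2 : (x : ℝ) ^ (1 - δ / 2) ≤ W := by
      rw [hW, le_div_iff₀ (by positivity)]
      refine (mul_le_mul_of_nonneg_left hxl (Real.rpow_nonneg hx0.le _)).trans (le_of_eq ?_)
      rw [← Real.rpow_add hx0, sub_add_cancel, Real.rpow_one]
    have t3 : (R : ℝ) * √(x : ℝ) ≤ W := by
      refine (mul_le_mul_of_nonneg_right hRx (Real.sqrt_nonneg _)).trans (le_of_eq ?_)
      rw [hW, div_mul_eq_mul_div, Real.mul_self_sqrt hx0.le]
    rw [show (2 * (x : ℝ) + 8 * R * (x : ℝ) ^ (1 - δ / 2) + 4 * (R : ℝ) ^ 2 * √(x : ℝ)) / R =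
      2 * ((x : ℝ) / R) + 8 * (x : ℝ) ^ (1 - δ / 2) + 4 * (R * √(x : ℝ)) by field_simp]
    linarith
  have key : ∀ J : ℕ, ∑ d ∈ Ioc R (2 * R), 1 / (d.totient : ℝ) *
      ∑ χ ∈ primChars d, ‖∑ m ∈ Ioc 1 (2 ^ J), G d χ m‖ ≤
        J * (168 * logOne x ^ 2 * (14 * W)) := by
    intro J
    induction J with
    | zero => simp
    | succ J ih =>
      have h1 : (1 : ℕ) ≤ 2 ^ J := Nat.one_le_two_pow
      rw [show 2 ^ (J + 1) = 2 * 2 ^ J by rw [pow_succ]; ring, Nat.cast_succ, add_mul _ (1 : ℝ),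
        one_mul]
      refine le_trans (le_trans (sum_le_sum fun d _ => mul_le_mul_of_nonneg_left
        (sum_le_sum (g := fun χ => ‖∑ m ∈ Ioc 1 (2 ^ J), G d χ m‖ +
          ‖∑ m ∈ Ioc (2 ^ J) (2 * 2 ^ J), G d χ m‖) fun χ _ => ?_) (by positivity)) ?_)
        (add_le_add ih (hblock (2 ^ J) (by positivity)))
      · rw [← sum_Ioc_consecutive _ h1 (by omega)]
        exact norm_add_le _ _
      · simp only [sum_add_distrib, mul_add]
        exact le_rfl
  obtain ⟨J, hJ⟩ : ∃ J, J = Nat.log 2 x + 1 := ⟨_, rfl⟩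
  have hxJ : x ≤ 2 ^ J := hJ ▸ (Nat.lt_pow_succ_log_self one_lt_two x).le
  have ha1 : a 1 = 0 := by
    by_contra h
    have h1 := (hsupp 1 h).1
    rw [Nat.cast_one] at h1
    have h2 := Real.one_lt_rpow (show (1 : ℝ) < x from Nat.one_lt_cast.2 (by omega)) hδ
    linarith
  have e : ∀ (d : ℕ) (χ : DirichletCharacter ℂ d),
      pairSum χ a b x = ∑ m ∈ Ioc 1 (2 ^ J), G d χ m := fun d χ => by
    rw [pairSum, hG]
    refine sum_congr_of_eq_on_inter (fun m hm hm' => ?_) (fun m hm hm' => ?_)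
      fun _ _ _ => rfl
    · rw [mem_Ioc] at hm hm'
      refine sum_eq_zero fun n _ => ?_
      rw [show m = 1 by omega, ha1]
      simp
    · rw [mem_Ioc] at hm hm'
      refine sum_eq_zero fun n hn => ?_
      rw [mem_Ioc] at hn
      rw [if_neg]
      intro h
      have := Nat.le_mul_of_pos_right m hn.1
      omega
  simp only [e]
  refine (key J).trans ?_
  have hJl : (J : ℝ) ≤ 4 * l := by
    have h3 : ((2 : ℝ) ^ Nat.log 2 x) ≤ x := by exact_mod_cast Nat.pow_log_le_self 2 (by omega)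
    have h4 := Real.log_le_log (by positivity) h3
    rw [Real.log_pow] at h4
    have h5 : (0 : ℝ) ≤ Nat.log 2 x := Nat.cast_nonneg _
    rw [logOne] at hLl
    rw [hJ]
    push_cast
    nlinarith [Real.log_two_gt_d9]
  have hL2 : logOne x ^ 2 ≤ 4 * l ^ 2 := by
    refine (pow_le_pow_left₀ (by linarith [ThreePrimes.one_le_logOne x]) hLl 2).trans (le_of_eq ?_)
    ring
  refine (mul_le_mul hJl (mul_le_mul_of_nonneg_right (mul_le_mul_of_nonneg_left hL2 (by norm_num))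
    (by positivity)) (by positivity) (by positivity)).trans ?_
  have : 0 ≤ l ^ 3 * W := by positivity
  linarith

/-- **The small conductors.** -/
theorem norm_pairSum_small_le {d x : ℕ} {ψ : DirichletCharacter ℂ d} {a b : ℕ → ℂ} {E : ℝ}
    (ha : ∀ m, ‖a m‖ ≤ 1) (hE0 : 0 ≤ E)
    (hE : ∀ t : ℕ, t ≤ x → ‖∑ n ∈ Ioc 0 t, b n * ψ n‖ ≤ E * t) :
    ‖pairSum ψ a b x‖ ≤ E * x * logOne x := by
  refine (norm_sum_le _ _).trans ((sum_le_sum (g := fun m : ℕ => E * x * (m : ℝ)⁻¹)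
    fun m hm => ?_).trans ?_)
  · rw [mem_Ioc] at hm
    have e : (∑ n ∈ Ioc 0 x, if m * n ≤ x then a m * ψ m * (b n * ψ n) else 0) =
        a m * ψ m * ∑ n ∈ Ioc 0 (x / m), b n * ψ n := by
      rw [mul_sum, ← sum_filter]
      refine sum_congr ?_ fun n _ => rfl
      ext n
      simp only [mem_filter, mem_Ioc, Nat.le_div_iff_mul_le hm.1, mul_comm n m]
      exact ⟨fun h => ⟨h.1.1, h.2⟩, fun h =>
        ⟨⟨h.1, (Nat.le_mul_of_pos_left n hm.1).trans h.2⟩, h.2⟩⟩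
    rw [e, norm_mul, norm_mul]
    refine (mul_le_mul (mul_le_one₀ (ha m) (norm_nonneg _) (DirichletCharacter.norm_le_one ψ _))
      (hE _ (Nat.div_le_self x m)) (norm_nonneg _) zero_le_one).trans ?_
    rw [one_mul, mul_assoc E, ← div_eq_mul_inv]
    exact mul_le_mul_of_nonneg_left Nat.cast_div_le hE0
  · rw [← mul_sum]
    refine mul_le_mul_of_nonneg_left ?_ (by positivity)
    have h := harmonic_le_one_add_log x
    rw [harmonic_eq_sum_Icc] at h
    push_cast at h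
    refine le_of_eq_of_le ?_ h
    exact sum_congr (by ext; simp [mem_Ioc, mem_Icc, Nat.one_le_iff_ne_zero, Nat.pos_iff_ne_zero])
      fun _ _ => rfl

theorem coprimePart_primeCoeff (y : ℝ) (k n : ℕ) :
    coprimePart (primeCoeff y 1) k n = primeCoeff y k n := by
  by_cases h : n.Coprime k <;> simp [coprimePart, primeCoeff, h]
  by_cases hp : n.Prime <;> by_cases hn : y ≤ n <;> simp [hp, hn]

/-- **The bilinear theorem of Bombieri and Vinogradov.** -/
theorem exists_bilinear_bombieri_vinogradov (A : ℕ) {δ : ℝ} (hδ : 0 < δ) :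
    ∃ (B : ℕ) (C : ℝ), 0 < C ∧ ∀ᶠ x : ℕ in atTop,
      ∀ (Q : ℕ) (y : ℝ) (a : ℕ → ℂ) (c : ℕ → ℕ), (Q : ℝ) ≤ √(x : ℝ) / Real.log x ^ B →
        (∀ m, ‖a m‖ ≤ 1) → (∀ m, a m ≠ 0 → (x : ℝ) ^ δ ≤ m ∧ (m : ℝ) ≤ (x : ℝ) ^ (1 - δ)) →
        (x : ℝ) ^ δ ≤ y → (∀ q ∈ Icc 1 Q, (c q).Coprime q) →
          ∑ q ∈ Icc 1 Q, ‖pairDisc a (primeCoeff y 1) x q (c q)‖ ≤
            C * ((x : ℝ) / Real.log x ^ A) := by
  obtain ⟨K, hK⟩ : ∃ K, K = A + 6 := ⟨_, rfl⟩
  obtain ⟨Cs, hCs, hs⟩ := exists_primeCoeff_char_le (3 * K) hδ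
  refine ⟨K, 4 * (4 * Cs + 160000), by positivity, ?_⟩
  filter_upwards [hs, BombieriVinogradov.eventually_log_ge 4,
    BombieriVinogradov.eventually_log_pow_le K (show (0 : ℝ) < δ / 2 by linarith),
    eventually_ge_atTop 2] with x hsx hl4 hxl hx2 Q y a c hQ ha hsupp hy hc
  obtain ⟨l, hl⟩ : ∃ l, l = Real.log x := ⟨_, rfl⟩
  rw [← hl] at hsx hl4 hxl hQ ⊢
  have hl0 : 0 < l := by linarith
  have hl1 : 1 ≤ l := by linarith
  have hx0 : (0 : ℝ) < x := Nat.cast_pos.2 (by omega)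
  have hlK : (1 : ℝ) ≤ l ^ K := one_le_pow₀ hl1
  have hQs : (Q : ℝ) ≤ √(x : ℝ) := hQ.trans (div_le_self (Real.sqrt_nonneg _) hlK)
  have hQx : Q ≤ x := Nat.cast_le.1 (hQs.trans ((Real.sqrt_le_left hx0.le).2
    (le_self_pow₀ (Nat.one_le_cast.2 (by omega)) two_ne_zero)))
  have hLl : logOne x ≤ 2 * l := by
    rw [logOne, hl]
    linarith
  obtain ⟨W, hW⟩ : ∃ W, W = (x : ℝ) / l ^ K := ⟨_, rfl⟩
  have hW0 : 0 ≤ W := hW ▸ by positivity
  obtain ⟨S, hS⟩ : ∃ S : ℕ → ℕ → ℝ, S = fun d k => ∑ χ ∈ primChars d,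
      ‖pairSum χ (coprimePart a k) (coprimePart (primeCoeff y 1) k) x‖ := ⟨_, rfl⟩
  have hS0 : ∀ d k, 0 ≤ S d k := fun d k => hS ▸ sum_nonneg fun _ _ => norm_nonneg _
  have hstep : ∀ q ∈ Icc 1 Q, ‖pairDisc a (primeCoeff y 1) x q (c q)‖ ≤
      (∑ d ∈ q.divisors.filter (2 ≤ ·), S d (q / d)) / q.totient := by
    intro q hq
    have : NeZero q := ⟨by rw [mem_Icc] at hq; omega⟩
    refine (norm_pairDisc_le (hc q hq) a (primeCoeff y 1) x).trans (le_of_eq ?_)
    rw [BombieriVinogradov.inducing, sum_sigma, hS]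
  refine (sum_le_sum hstep).trans ((sum_cofactor_le Q hS0).trans ?_)
  obtain ⟨D₁, hD⟩ : ∃ D₁, D₁ = ⌈l ^ K⌉₊ := ⟨_, rfl⟩
  have hDle : l ^ K ≤ D₁ := hD ▸ Nat.le_ceil _
  have hDge : (D₁ : ℝ) ≤ 2 * l ^ K := by
    have := Nat.ceil_lt_add_one (show 0 ≤ l ^ K by positivity)
    rw [← hD] at this
    linarith
  have hD0 : 0 < D₁ := Nat.cast_pos.1 (lt_of_lt_of_le (by positivity) hDle)
  have hk : ∀ k ∈ Icc 1 Q, ∑ d ∈ Icc 2 Q, 1 / (d.totient : ℝ) * S d k ≤
      (4 * Cs + 160000) * (l ^ 4 * W) := by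
    intro k hk
    rw [mem_Icc] at hk
    have hak : ∀ m, ‖coprimePart a k m‖ ≤ 1 := norm_coprimePart_le ha k
    obtain ⟨F, hF⟩ : ∃ F : ℕ → ℝ, F = fun d =>
        if d ≤ Q then 1 / (d.totient : ℝ) * S d k else 0 := ⟨_, rfl⟩
    have hF0 : ∀ d, 0 ≤ F d := fun d => by
      rw [hF]
      dsimp only
      split_ifs
      · exact mul_nonneg (by positivity) (hS0 d k)
      · exact le_rfl
    have hsm : ∑ d ∈ Icc 2 D₁, F d ≤ 4 * Cs * (l ^ 4 * W) := by
      have hB : ∀ d ∈ Icc 2 D₁, F d ≤ Cs / l ^ (3 * K) * x * logOne x := by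
        intro d hd
        rw [mem_Icc] at hd
        rw [hF]
        dsimp only
        have h0 : (0 : ℝ) ≤ Cs / l ^ (3 * K) * x * logOne x :=
          mul_nonneg (by positivity) (by linarith [ThreePrimes.one_le_logOne x])
        split_ifs
        swap
        · exact h0
        have hdl : (d : ℝ) ≤ l ^ (3 * K) := by
          refine (Nat.cast_le.2 hd.2).trans (hDge.trans ?_)
          refine le_trans ?_ (pow_le_pow_right₀ hl1 (show K + 1 ≤ 3 * K by omega))
          rw [pow_succ' l K]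
          exact mul_le_mul_of_nonneg_right (by linarith) (by positivity)
        rw [hS]
        dsimp only
        refine (mul_le_mul_of_nonneg_left (sum_le_card_nsmul _ _
          (Cs / l ^ (3 * K) * x * logOne x) fun χ hχ => ?_) (by positivity)).trans ?_
        · refine norm_pairSum_small_le hak (by positivity) fun t ht => ?_
          simp only [coprimePart_primeCoeff]
          refine (hsx y k t d hy hk.1 (hk.2.trans hQx) ht hd.1 hdl χ hχ).trans (le_of_eq ?_)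
          ring
        rw [nsmul_eq_mul, ← mul_assoc]
        refine mul_le_of_le_one_left h0 ?_
        rw [one_div_mul_eq_div]
        exact div_le_one_of_le₀ (Nat.cast_le.2 (BombieriVinogradov.card_primChars_le d))
          (Nat.cast_nonneg _)
      refine (sum_le_card_nsmul _ _ _ hB).trans ?_
      rw [nsmul_eq_mul]
      refine (mul_le_mul ((Nat.cast_le.2 (by simp : (Icc 2 D₁).card ≤ D₁)).trans hDge)
        (mul_le_mul_of_nonneg_left hLl (by positivity))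
        (mul_nonneg (by positivity) (by linarith [ThreePrimes.one_le_logOne x]))
        (by positivity)).trans ?_
      have e : 2 * l ^ K * (Cs / l ^ (3 * K) * x * (2 * l)) = 4 * Cs * (l / l ^ K * W) := by
        rw [hW, show 3 * K = K + K + K by ring, pow_add, pow_add]
        field_simp
        ring
      rw [e]
      refine mul_le_mul_of_nonneg_left (mul_le_mul_of_nonneg_right ?_ hW0) (by positivity)
      exact (div_le_self hl0.le hlK).trans (le_self_pow₀ hl1 (by norm_num))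
    have key : ∀ J : ℕ, ∑ d ∈ Ioc D₁ (D₁ * 2 ^ J), F d ≤ J * (40000 * l ^ 3 * W) := by
      intro J
      induction J with
      | zero => simp
      | succ J ih =>
        have h1 : D₁ ≤ D₁ * 2 ^ J := Nat.le_mul_of_pos_right D₁ (by positivity)
        have e : D₁ * 2 ^ (J + 1) = 2 * (D₁ * 2 ^ J) := by rw [pow_succ]; ring
        rw [e, ← sum_Ioc_consecutive F h1 (by omega), Nat.cast_succ, add_mul _ (1 : ℝ), one_mul]
        refine add_le_add ih ?_
        rcases le_or_gt Q (D₁ * 2 ^ J) with hle | hgt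
        · refine le_trans (le_of_eq (sum_eq_zero fun d hd => ?_)) (by positivity)
          rw [mem_Ioc] at hd
          rw [hF]
          simp only
          rw [if_neg (by omega)]
        · refine le_trans (sum_le_sum (g := fun d => 1 / (d.totient : ℝ) * S d k) fun d _ => ?_) ?_
          · rw [hF]
            dsimp only
            split_ifs
            · exact le_rfl
            · exact mul_nonneg (by positivity) (hS0 d k)
          rw [hS, hW]
          refine dyadic_bilinear_le (δ := δ) hl1 hak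
            (norm_coprimePart_le (norm_primeCoeff_le y 1) k) hδ (fun m hm => hsupp m fun h => hm ?_)
            hx2 (by positivity) (hDle.trans (Nat.cast_le.2 h1))
            ((Nat.cast_le.2 hgt.le).trans hQ) hxl hLl
          simp [coprimePart, h]
    obtain ⟨J, hJ⟩ : ∃ J, J = Nat.log 2 Q + 1 := ⟨_, rfl⟩
    have hQJ : Q ≤ D₁ * 2 ^ J := hJ ▸ (Nat.lt_pow_succ_log_self one_lt_two Q).le.trans
      (Nat.le_mul_of_pos_left _ hD0)
    have hJl : (J : ℝ) ≤ 4 * l := by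
      have h3 : ((2 : ℝ) ^ Nat.log 2 Q) ≤ x := by
        exact_mod_cast (Nat.pow_log_le_self 2 (by omega)).trans hQx
      have h4 := Real.log_le_log (by positivity) h3
      rw [Real.log_pow, ← hl] at h4
      have h5 : (0 : ℝ) ≤ Nat.log 2 Q := Nat.cast_nonneg _
      rw [hJ]
      push_cast
      nlinarith [Real.log_two_gt_d9]
    refine le_trans (le_of_eq_of_le (sum_congr rfl fun d hd => ?_)
      (sum_le_sum_of_subset_of_nonneg (t := Icc 2 D₁ ∪ Ioc D₁ (D₁ * 2 ^ J)) (fun d hd => ?_)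
        fun d _ _ => hF0 d)) ?_
    · rw [hF]
      simp only
      rw [if_pos (mem_Icc.1 hd).2]
    · rw [mem_Icc] at hd
      rw [mem_union, mem_Icc, mem_Ioc]
      omega
    · rw [sum_union (disjoint_left.2 fun d h1 h2 => by
        rw [mem_Icc] at h1
        rw [mem_Ioc] at h2
        omega), add_mul]
      refine add_le_add hsm ((key J).trans ?_)
      refine (mul_le_mul_of_nonneg_right hJl (by positivity)).trans (le_of_eq ?_)
      ring
  refine (sum_le_sum fun k hk' => mul_le_mul_of_nonneg_left (hk k hk') (by positivity)).trans ?_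
  rw [← sum_mul]
  have hLQ : logOne Q ≤ 2 * l := by
    refine le_trans ?_ hLl
    rw [logOne, logOne]
    rcases Nat.eq_zero_or_pos Q with rfl | h
    · simp [Real.log_natCast_nonneg]
    · linarith [Real.log_le_log (Nat.cast_pos.2 h) (Nat.cast_le (α := ℝ).2 hQx)]
  refine (mul_le_mul_of_nonneg_right ((BombieriVinogradov.sum_inv_totient_le Q).trans
    (pow_le_pow_left₀ (by linarith [ThreePrimes.one_le_logOne Q]) hLQ 2)) (by positivity)).trans
    (le_of_eq ?_)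
  rw [hW, hK, pow_add]
  field_simp
  ring

end FA.Chen
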