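import Fermat.Agent.LinearSieve.Weighted

/-!
# Sums over primes as integrals

`∑_{x ^ a ≤ p < x ^ b} G (log p / log x) / (p - 1) ≤ ∫_a^b G t / t + ε`, uniformly for the
Lipschitz functions `G` with given bounds.
-/

set_option autoImplicit false

noncomputable section

namespace FA.Chen

open Finset Filter
open FA.CombinatorialSieve
open scoped Topology

theorem continuousOn_of_lipschitz_bound {G : ℝ → ℝ} {L a b : ℝ}
    (hG : ∀ s ∈ Set.Icc a b, ∀ t ∈ Set.Icc a b, |G s - G t| ≤ L * |s - t|) :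
    ContinuousOn G (Set.Icc a b) := by
  refine (LipschitzOnWith.of_dist_le_mul (K := L.toNNReal) fun s hs t ht => ?_).continuousOn
  rw [Real.dist_eq, Real.dist_eq]
  exact (hG s hs t ht).trans
    (mul_le_mul_of_nonneg_right (Real.le_coe_toNNReal L) (abs_nonneg _))

theorem sum_split_at {T : Finset ℕ} (F : ℕ → ℝ) {u v : ℝ} (huv : u ≤ v) :
    ∑ p ∈ T.filter (fun p : ℕ => (p : ℝ) < v), F p =
      ∑ p ∈ T.filter (fun p : ℕ => (p : ℝ) < u), F p +
        ∑ p ∈ T.filter (fun p : ℕ => u ≤ p ∧ (p : ℝ) < v), F p := by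
  rw [← sum_union (disjoint_filter.2 fun p _ h1 h2 => not_lt.2 h2.1 h1)]
  refine sum_congr ?_ fun _ _ => rfl
  ext p
  simp only [mem_union, mem_filter]
  constructor
  · intro h
    rcases lt_or_ge (p : ℝ) u with h' | h'
    · exact Or.inl ⟨h.1, h'⟩
    · exact Or.inr ⟨h.1, h', h.2⟩
  · rintro (h | h)
    · exact ⟨h.1, h.2.trans_le huv⟩
    · exact ⟨h.1, h.2.2⟩

/-- **Sums over primes as integrals.** -/
theorem eventually_sum_primes_le_integral {a₀ L B ε : ℝ} (ha₀ : 0 < a₀) (hL : 0 ≤ L)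
    (hB : 0 ≤ B) (hε : 0 < ε) : ∀ᶠ x : ℕ in atTop, ∀ (a b : ℝ) (G : ℝ → ℝ),
      a₀ ≤ a → a ≤ b → b ≤ 1 → (∀ t ∈ Set.Icc a b, 0 ≤ G t ∧ G t ≤ B) →
      (∀ s ∈ Set.Icc a b, ∀ t ∈ Set.Icc a b, |G s - G t| ≤ L * |s - t|) →
      ∀ T : Finset ℕ, (∀ p ∈ T, p.Prime ∧ (x : ℝ) ^ a ≤ p ∧ (p : ℝ) < (x : ℝ) ^ b) →
        ∑ p ∈ T, invPhi p * G (Real.log p / Real.log x) ≤ (∫ t in a..b, G t / t) + ε := by
  obtain ⟨Cm, hCm, hM⟩ := LinearSieve.exists_sum_invPhi_le
  obtain ⟨r, hr⟩ : ∃ r, r = |Real.log a₀| := ⟨_, rfl⟩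
  obtain ⟨n, hn⟩ := exists_nat_gt (4 * L * r / ε)
  have hn0 : (0 : ℝ) < n := lt_of_le_of_lt (by rw [hr]; positivity) hn
  have hnN : 0 < n := Nat.cast_pos.1 hn0
  obtain ⟨P, hP⟩ : ∃ P, P = 2 * (n : ℝ) * (B + L) * Cm / (a₀ * ε) := ⟨_, rfl⟩
  filter_upwards [BombieriVinogradov.eventually_log_ge (max 1 P),
    ((tendsto_rpow_atTop ha₀).comp
      (tendsto_natCast_atTop_atTop (R := ℝ))).eventually_ge_atTop 4]
    with x hlx hx4 a b G haa hab hb1 hGB hGL T hT
  simp only [Function.comp_apply] at hx4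
  obtain ⟨l, hl⟩ : ∃ l, l = Real.log x := ⟨_, rfl⟩
  rw [← hl] at hlx ⊢
  have hl1 : 1 ≤ l := le_of_max_le_left hlx
  have hl0 : 0 < l := by linarith
  have hx0 : (0 : ℝ) < x := by
    rcases Nat.eq_zero_or_pos x with rfl | h
    · simp at hl
      linarith
    · exact Nat.cast_pos.2 h
  have hx1 : (1 : ℝ) ≤ x := Nat.one_le_cast.2 (Nat.cast_pos.1 hx0)
  have ha0 : 0 < a := lt_of_lt_of_le ha₀ haa
  have hlr : ∀ e : ℝ, Real.log ((x : ℝ) ^ e) = e * l := fun e => by rw [Real.log_rpow hx0, hl]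
  obtain ⟨t, ht⟩ : ∃ t : ℕ → ℝ, t = fun i : ℕ => a + (b - a) * ((i : ℝ) / n) := ⟨_, rfl⟩
  have htmono : ∀ i j : ℕ, i ≤ j → t i ≤ t j := fun i j h => by
    rw [ht]
    have := Nat.cast_le (α := ℝ).2 h
    dsimp only
    gcongr
  have htI : ∀ i : ℕ, i ≤ n → t i ∈ Set.Icc a b := fun i hi => by
    have h1 : (i : ℝ) / n ≤ 1 := (div_le_one hn0).2 (Nat.cast_le.2 hi)
    have h2 : 0 ≤ (i : ℝ) / n := by positivity
    rw [ht]
    constructor
    · nlinarith
    · nlinarith
  obtain ⟨e, he⟩ : ∃ e, e = (B + L) * Cm / (a₀ * l) := ⟨_, rfl⟩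
  have he0 : 0 ≤ e := by rw [he]; positivity
  have hcont : ContinuousOn (fun u => G u / u) (Set.Icc a b) :=
    (continuousOn_of_lipschitz_bound hGL).div continuousOn_id fun u hu => by linarith [hu.1]
  have hint : ∀ u v : ℝ, u ∈ Set.Icc a b → v ∈ Set.Icc a b →
      IntervalIntegrable (fun s => G s / s) MeasureTheory.volume u v := fun u v hu hv =>
    (hcont.mono (Set.uIcc_subset_Icc hu hv)).intervalIntegrable
  have key : ∀ i : ℕ, i ≤ n →
      ∑ p ∈ T.filter (fun p : ℕ => (p : ℝ) < (x : ℝ) ^ t i), invPhi p * G (Real.log p / l) ≤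
        (∫ u in a..(t i), G u / u) + 2 * L / n * (Real.log (t i) - Real.log a) + i * e := by
    intro i hi
    induction i with
    | zero =>
      have h0 : t 0 = a := by rw [ht]; simp
      rw [h0, intervalIntegral.integral_same]
      simp only [sub_self, mul_zero, add_zero, Nat.cast_zero, zero_mul]
      refine le_of_eq (sum_eq_zero fun p hp => ?_)
      rw [mem_filter] at hp
      exact absurd hp.2 (not_lt.2 (hT p hp.1).2.1)
    | succ i ih =>
      have hiI := htI i (by omega)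
      have hjI := htI (i + 1) hi
      have hij := htmono i (i + 1) (Nat.le_succ i)
      have hti : 0 < t i := lt_of_lt_of_le ha0 hiI.1
      have hpow : (x : ℝ) ^ t i ≤ (x : ℝ) ^ t (i + 1) := Real.rpow_le_rpow_of_exponent_le hx1 hij
      rw [sum_split_at _ hpow, ← intervalIntegral.integral_add_adjacent_intervals
        (hint a (t i) ⟨le_rfl, hab⟩ hiI) (hint (t i) (t (i + 1)) hiI hjI)]
      have hh : t (i + 1) - t i ≤ 1 / n := by
        rw [ht]
        dsimp only
        push_cast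
        rw [show a + (b - a) * (((i : ℝ) + 1) / n) - (a + (b - a) * ((i : ℝ) / n)) =
          (b - a) / n by ring]
        gcongr
        linarith
      obtain ⟨g, hg⟩ : ∃ g, g = G (t i) := ⟨_, rfl⟩
      have hgB : 0 ≤ g ∧ g ≤ B := hg ▸ hGB _ hiI
      have hclose : ∀ u ∈ Set.Icc (t i) (t (i + 1)), |G u - g| ≤ L / n := by
        intro u hu
        refine (hg ▸ hGL u ⟨hiI.1.trans hu.1, hu.2.trans hjI.2⟩ (t i) hiI).trans ?_
        rw [abs_of_nonneg (by linarith [hu.1]), div_eq_mul_one_div L]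
        exact mul_le_mul_of_nonneg_left (by linarith [hu.2]) hL
      obtain ⟨Λ₁, hΛ⟩ : ∃ Λ₁, Λ₁ = Real.log (t (i + 1)) - Real.log (t i) := ⟨_, rfl⟩
      have hΛ0 : 0 ≤ Λ₁ := hΛ ▸ sub_nonneg.2 (Real.log_le_log hti hij)
      have hlow : (g - L / n) * Λ₁ ≤ ∫ u in (t i)..(t (i + 1)), G u / u := by
        refine le_of_eq_of_le ?_ (intervalIntegral.integral_mono_on
          (f := fun u => (g - L / n) * u⁻¹) hij
          (ContinuousOn.intervalIntegrable (continuousOn_const.mul
            (continuousOn_id.inv₀ fun u hu => ?_)))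
          (hint _ _ hiI hjI) fun u hu => ?_)
        · rw [intervalIntegral.integral_const_mul, integral_inv_of_pos hti (by linarith),
            Real.log_div (by linarith) hti.ne', hΛ]
        · rw [Set.uIcc_of_le hij] at hu
          show u ≠ 0
          linarith [hu.1]
        · rw [← div_eq_mul_inv]
          refine div_le_div_of_nonneg_right ?_ (by linarith [hu.1])
          linarith [(abs_le.1 (hclose u hu)).1]
      have hup : ∑ p ∈ T.filter (fun p : ℕ => (x : ℝ) ^ t i ≤ p ∧ (p : ℝ) < (x : ℝ) ^ t (i + 1)),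
          invPhi p * G (Real.log p / l) ≤ (g + L / n) * Λ₁ + e := by
        refine (sum_le_sum (g := fun p => invPhi p * (g + L / n)) fun p hp => ?_).trans ?_
        · rw [mem_filter] at hp
          have hp0 : (0 : ℝ) < p := Nat.cast_pos.2 (hT p hp.1).1.pos
          have h1 := Real.log_le_log (Real.rpow_pos_of_pos hx0 _) hp.2.1
          have h2 := Real.log_le_log hp0 hp.2.2.le
          rw [hlr] at h1 h2
          refine mul_le_mul_of_nonneg_left ?_ (by rw [invPhi_apply]; positivity)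
          linarith [(abs_le.1 (hclose (Real.log p / l)
            ⟨(le_div_iff₀ hl0).2 h1, (div_le_iff₀ hl0).2 h2⟩)).2]
        rw [← sum_mul]
        have hLn : L / n ≤ L := div_le_self hL (Nat.one_le_cast.2 hnN)
        refine (mul_le_mul_of_nonneg_right (hM _ ((x : ℝ) ^ t i) ((x : ℝ) ^ t (i + 1))
          (hx4.trans (Real.rpow_le_rpow_of_exponent_le hx1 (haa.trans hiI.1))) hpow fun p hp =>
            ⟨(hT p (mem_filter.1 hp).1).1, (mem_filter.1 hp).2⟩)
          (add_nonneg hgB.1 (by positivity))).trans ?_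
        rw [hlr, hlr, Real.log_mul (by linarith) hl0.ne', Real.log_mul hti.ne' hl0.ne']
        have h3 : Cm / (t i * l) ≤ Cm / (a₀ * l) :=
          div_le_div_of_nonneg_left hCm (by positivity)
            (mul_le_mul_of_nonneg_right (haa.trans hiI.1) hl0.le)
        have h4 := mul_le_mul h3 (show g + L / n ≤ B + L by linarith [hgB.2])
          (add_nonneg hgB.1 (by positivity)) (by positivity)
        rw [he, hΛ, mul_div_assoc]
        linarith
      have hih := ih (by omega)
      have hsplit : Real.log (t (i + 1)) - Real.log a = (Real.log (t i) - Real.log a) + Λ₁ := by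
        rw [hΛ]
        ring
      rw [hsplit]
      push_cast
      linarith [show 2 * L / n * (Real.log (t i) - Real.log a + Λ₁) =
        2 * L / n * (Real.log (t i) - Real.log a) + 2 * (L / n) * Λ₁ by ring]
  have htn : t n = b := by
    rw [ht]
    dsimp only
    rw [div_self hn0.ne']
    ring
  have h := key n le_rfl
  rw [htn, filter_true_of_mem fun p hp => (hT p hp).2.2] at h
  refine h.trans ?_
  have h1 : Real.log b - Real.log a ≤ r := by
    rw [hr]
    have h2 := Real.log_nonpos (by linarith) hb1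
    have h3 := Real.log_le_log ha₀ haa
    linarith [neg_abs_le (Real.log a₀)]
  have h4 : 2 * L / n * (Real.log b - Real.log a) ≤ ε / 2 := by
    refine (mul_le_mul_of_nonneg_left h1 (by positivity)).trans ?_
    rw [div_mul_eq_mul_div, div_le_iff₀ hn0]
    rw [div_lt_iff₀ hε] at hn
    linarith
  have h5 : (n : ℝ) * e ≤ ε / 2 := by
    have h6 : P ≤ l := le_of_max_le_right hlx
    rw [hP, div_le_iff₀ (by positivity)] at h6
    rw [he, mul_div_assoc', div_le_iff₀ (by positivity)]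
    linarith
  linarith

end FA.Chen
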