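import Fermat.Agent.BombieriVinogradov.Main
import Fermat.Agent.CombinatorialSieve.ShiftedPrimes

/-!
# The theorem of Siegel and Walfisz for sums of characters over primes

`|∑_{y ≤ p ≤ t, (p, k) = 1} χ p| = O (t / (log x) ^ K)` for the primitive `χ` of conductor
`2 ≤ d ≤ (log x) ^ K`, `x ^ δ ≤ y` and `t ≤ x`.
-/

set_option autoImplicit false

noncomputable section

namespace FA.Chen

open Finset Filter
open FA.BombieriVinogradov (primChars charSum)
open scoped Topology ArithmeticFunction.vonMangoldt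

/-- The indicator of the primes `≥ y` prime to `k`. -/
def primeCoeff (y : ℝ) (k n : ℕ) : ℂ := if n.Prime ∧ y ≤ n ∧ n.Coprime k then 1 else 0

theorem norm_primeCoeff_le (y : ℝ) (k n : ℕ) : ‖primeCoeff y k n‖ ≤ 1 := by
  unfold primeCoeff
  split_ifs <;> simp

/-- Abel's inequality. -/
theorem norm_sum_mul_antitone_le {g : ℕ → ℂ} {v : ℕ → ℝ} {E : ℝ} {m n : ℕ} (hmn : m < n)
    (hE : ∀ i, m < i → i ≤ n → ‖∑ j ∈ Ioc m i, g j‖ ≤ E)
    (hv : ∀ i, m < i → i < n → v (i + 1) ≤ v i) (hv0 : 0 ≤ v n) :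
    ‖∑ j ∈ Ioc m n, g j * (v j : ℂ)‖ ≤ E * v (m + 1) := by
  obtain ⟨G, hG⟩ : ∃ G : ℕ → ℂ, G = fun i => ∑ j ∈ Ioc m i, g j := ⟨_, rfl⟩
  have key : ∀ i, m < i → i ≤ n →
      ‖(∑ j ∈ Ioc m i, g j * (v j : ℂ)) - G i * (v i : ℂ)‖ ≤ E * (v (m + 1) - v i) := by
    intro i hi
    induction i, (Nat.succ_le_of_lt hi) using Nat.le_induction with
    | base =>
      intro _
      simp [hG, sum_Ioc_succ_top]
    | succ k hk ih =>
      intro hkn
      have h1 := ih (by omega) (by omega)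
      have hd := hv k (by omega) (by omega)
      have hmk : m ≤ k := by omega
      have hE' : ‖G k‖ ≤ E := by
        rw [hG]
        exact hE k (by omega) (by omega)
      have e : (∑ j ∈ Ioc m (k + 1), g j * (v j : ℂ)) - G (k + 1) * (v (k + 1) : ℂ) =
          ((∑ j ∈ Ioc m k, g j * (v j : ℂ)) - G k * (v k : ℂ)) +
            G k * ((v k - v (k + 1) : ℝ) : ℂ) := by
        simp only [hG, sum_Ioc_succ_top hmk]
        push_cast
        ring
      rw [e]
      refine (norm_add_le _ _).trans ?_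
      rw [norm_mul, Complex.norm_real, Real.norm_eq_abs, abs_of_nonneg (sub_nonneg.2 hd)]
      linarith [mul_le_mul_of_nonneg_right hE' (sub_nonneg.2 hd)]
  have h2 : ‖G n * (v n : ℂ)‖ ≤ E * v n := by
    rw [norm_mul, Complex.norm_real, Real.norm_eq_abs, abs_of_nonneg hv0, hG]
    exact mul_le_mul_of_nonneg_right (hE n hmn le_rfl) hv0
  have h3 := norm_add_le ((∑ j ∈ Ioc m n, g j * (v j : ℂ)) - G n * (v n : ℂ)) (G n * (v n : ℂ))
  rw [sub_add_cancel] at h3
  have h4 := key n hmn le_rfl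
  linarith

/-- The primes dividing `k` among those `≥ y`. -/
theorem card_dvd_ge_le {y : ℝ} {k : ℕ} (hk : 0 < k) (hy : 1 < y) :
    (#(k.primeFactors.filter fun p : ℕ => y ≤ p) : ℝ) ≤ Real.log k / Real.log y := by
  rw [le_div_iff₀ (Real.log_pos hy), ← nsmul_eq_mul]
  refine (card_nsmul_le_sum _ _ _ fun p hp => ?_).trans (CombinatorialSieve.sum_log_dvd_le
    (S := k.primeFactors.filter fun p : ℕ => y ≤ p) hk.ne' fun p hp => ?_)
  · exact Real.log_le_log (by linarith) (mem_filter.1 hp).2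
  · exact ⟨Nat.prime_of_mem_primeFactors (mem_filter.1 hp).1,
      Nat.dvd_of_mem_primeFactors (mem_filter.1 hp).1⟩

/-- **The primes weighted by `log p`.** -/
theorem exists_thetaChar_le (K : ℕ) {δ : ℝ} (hδ : 0 < δ) : ∃ C : ℝ, 0 < C ∧
    ∀ᶠ x : ℕ in atTop, ∀ (m t d : ℕ), (x : ℝ) ^ (δ / 2) ≤ m → m < t → t ≤ x → 2 ≤ d →
      (d : ℝ) ≤ Real.log x ^ K → ∀ χ ∈ primChars d,
        ‖∑ n ∈ Ioc m t, (if n.Prime then (Real.log n : ℂ) else 0) * χ n‖ ≤
          C * t / Real.log x ^ K := by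
  obtain ⟨C₀, hC₀, hsmall⟩ := BombieriVinogradov.exists_small_le K (2 * K)
  refine ⟨2 * C₀ * (2 / δ) ^ (2 * K) + 1, by positivity, ?_⟩
  filter_upwards [BombieriVinogradov.eventually_log_pow_le (K + 1)
      (show (0 : ℝ) < δ / 8 by linarith),
    BombieriVinogradov.eventually_log_ge (max 4 ((2 / δ) ^ (K + 1))),
    ((tendsto_rpow_atTop (show (0 : ℝ) < δ / 2 by linarith)).comp
      (tendsto_natCast_atTop_atTop (R := ℝ))).eventually_ge_atTop 3]
    with x hx8 hlx hx3 m t d hm hmt htx hd hdK χ hχ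
  simp only [Function.comp_apply] at hx3
  obtain ⟨l, hl⟩ : ∃ l, l = Real.log x := ⟨_, rfl⟩
  rw [← hl] at hx8 hlx hdK ⊢
  have hl4 : 4 ≤ l := le_of_max_le_left hlx
  have hl0 : 0 < l := by linarith
  have hx0 : (0 : ℝ) < x := by
    rcases Nat.eq_zero_or_pos x with rfl | h
    · simp at hl
      linarith
    · exact Nat.cast_pos.2 h
  have hx1 : (1 : ℝ) ≤ x := Nat.one_le_cast.2 (Nat.cast_pos.1 hx0)
  have hm3 : 3 ≤ m := by exact_mod_cast hx3.trans hm
  have hbound : ∀ i : ℕ, m ≤ i → i ≤ t →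
      ‖charSum χ Λ i‖ ≤ C₀ * (2 / δ) ^ (2 * K) * ((t : ℝ) / l ^ K) := by
    intro i hmi hit
    have hli : δ / 2 * l ≤ Real.log i := by
      rw [hl, ← Real.log_rpow hx0]
      exact Real.log_le_log (Real.rpow_pos_of_pos hx0 _) (hm.trans (Nat.cast_le.2 hmi))
    have hdi : (d : ℝ) ≤ Real.log i ^ (K + 1) := by
      refine hdK.trans (le_trans ?_ (pow_le_pow_left₀ (by positivity) hli _))
      have h1 := le_of_max_le_right hlx
      rw [div_pow, div_le_iff₀ (by positivity)] at h1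
      rw [mul_pow, div_pow, div_mul_eq_mul_div, le_div_iff₀ (by positivity), pow_succ l K]
      linarith [mul_le_mul_of_nonneg_left h1 (show 0 ≤ l ^ K by positivity)]
    refine ((hsmall i (hm3.trans hmi)).2 d hd hdi χ hχ).trans ?_
    have h2 : (δ / 2 * l) ^ (2 * K) ≤ Real.log i ^ (2 * K) :=
      pow_le_pow_left₀ (by positivity) hli _
    calc (d : ℝ) * (C₀ * i / Real.log i ^ (2 * K))
        ≤ l ^ K * (C₀ * t / (δ / 2 * l) ^ (2 * K)) :=
          mul_le_mul hdK (div_le_div₀ (by positivity)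
            (mul_le_mul_of_nonneg_left (Nat.cast_le.2 hit) hC₀.le) (by positivity) h2)
            (by positivity) (by positivity)
      _ = _ := by
        simp only [mul_pow, div_pow, two_mul K, pow_add]
        field_simp
  have e : ∑ n ∈ Ioc m t, (if n.Prime then (Real.log n : ℂ) else 0) * χ n =
      (charSum χ Λ t - charSum χ Λ m) -
        ∑ n ∈ Ioc m t, (ThreePrimes.powerPart n : ℂ) * χ n := by
    rw [charSum, charSum, ← sum_Ioc_consecutive _ (Nat.zero_le m) hmt.le, add_sub_cancel_left,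
      ← sum_sub_distrib]
    refine sum_congr rfl fun n _ => ?_
    rw [ThreePrimes.powerPart]
    split_ifs with h
    · rw [ArithmeticFunction.vonMangoldt_apply_prime h]
      simp
    · simp
  rw [e]
  have hp : ‖∑ n ∈ Ioc m t, (ThreePrimes.powerPart n : ℂ) * χ n‖ ≤ (t : ℝ) / l ^ K := by
    refine (norm_sum_le _ _).trans ?_
    refine le_trans (sum_le_sum (g := fun n => ThreePrimes.powerPart n) fun n _ => ?_) ?_
    · rw [norm_mul, Complex.norm_real, Real.norm_eq_abs,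
        abs_of_nonneg (ThreePrimes.powerPart_nonneg n)]
      exact mul_le_of_le_one_right (ThreePrimes.powerPart_nonneg n)
        (DirichletCharacter.norm_le_one χ _)
    refine (sum_le_sum_of_subset_of_nonneg (fun n hn => ?_)
      fun n _ _ => ThreePrimes.powerPart_nonneg n).trans
      ((ThreePrimes.sum_powerPart_le (N := t) (by omega)).trans ?_)
    · rw [mem_Ioc] at hn
      rw [mem_Icc]
      omega
    have ht0 : (0 : ℝ) < t := Nat.cast_pos.2 (by omega)
    have hlt : Real.log t ≤ l := hl ▸ Real.log_le_log ht0 (Nat.cast_le.2 htx)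
    have h1 : 2 * l ^ (K + 1) ≤ √(t : ℝ) := by
      have h8 : 4 ≤ (x : ℝ) ^ (δ / 8) := le_trans (le_trans (by linarith)
        (le_self_pow₀ (by linarith) (Nat.succ_ne_zero K))) hx8
      rw [Real.le_sqrt (by positivity) ht0.le]
      refine le_trans ?_ (hm.trans (Nat.cast_le.2 hmt.le))
      rw [mul_pow, show δ / 2 = δ / 8 + δ / 8 + (δ / 8 + δ / 8) by ring, Real.rpow_add hx0,
        Real.rpow_add hx0]
      refine mul_le_mul ?_ ((sq (l ^ (K + 1))).le.trans
        (mul_le_mul hx8 hx8 (by positivity) (by positivity))) (by positivity) (by positivity)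
      calc (2 : ℝ) ^ 2 ≤ (x : ℝ) ^ (δ / 8) * 1 := by norm_num; linarith
        _ ≤ _ := mul_le_mul_of_nonneg_left (by linarith) (by linarith)
    rw [le_div_iff₀ (by positivity)]
    calc 2 * √(t : ℝ) * Real.log t * l ^ K ≤ 2 * √(t : ℝ) * l * l ^ K := by gcongr
      _ = √(t : ℝ) * (2 * l ^ (K + 1)) := by ring
      _ ≤ √(t : ℝ) * √(t : ℝ) := mul_le_mul_of_nonneg_left h1 (Real.sqrt_nonneg _)
      _ = t := Real.mul_self_sqrt ht0.le
  refine (norm_sub_le _ _).trans ((add_le_add ((norm_sub_le _ _).trans (add_le_add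
    (hbound t hmt.le le_rfl) (hbound m le_rfl hmt.le))) hp).trans (le_of_eq ?_))
  ring

/-- **The primes `≥ y` prime to `k`.** -/
theorem exists_primeCoeff_char_le (K : ℕ) {δ : ℝ} (hδ : 0 < δ) : ∃ C : ℝ, 0 < C ∧
    ∀ᶠ x : ℕ in atTop, ∀ (y : ℝ) (k t d : ℕ), (x : ℝ) ^ δ ≤ y → 0 < k → k ≤ x → t ≤ x → 2 ≤ d →
      (d : ℝ) ≤ Real.log x ^ K → ∀ χ ∈ primChars d,
        ‖∑ n ∈ Ioc 0 t, primeCoeff y k n * χ n‖ ≤ C * t / Real.log x ^ K := by
  obtain ⟨C, hC, h⟩ := exists_thetaChar_le K hδ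
  refine ⟨C + 1 / δ, by positivity, ?_⟩
  filter_upwards [h, BombieriVinogradov.eventually_log_ge 4,
    BombieriVinogradov.eventually_log_pow_le K hδ,
    ((tendsto_rpow_atTop (show (0 : ℝ) < δ / 2 by linarith)).comp
      (tendsto_natCast_atTop_atTop (R := ℝ))).eventually_ge_atTop 4]
    with x hth hl4 hlK hx4 y k t d hy hk hkx htx hd hdK χ hχ
  simp only [Function.comp_apply] at hx4
  obtain ⟨l, hl⟩ : ∃ l, l = Real.log x := ⟨_, rfl⟩
  rw [← hl] at hl4 hlK hdK hth ⊢
  have hl0 : 0 < l := by linarith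
  have hx0 : (0 : ℝ) < x := Nat.cast_pos.2 (by omega)
  obtain ⟨u, hu⟩ : ∃ u, u = (x : ℝ) ^ (δ / 2) := ⟨_, rfl⟩
  rw [← hu] at hx4
  have huy : u * u ≤ y := by
    rw [hu, ← Real.rpow_add hx0, add_halves]
    exact hy
  have hy16 : 16 ≤ y := le_trans (by nlinarith) huy
  obtain ⟨m, hm⟩ : ∃ m, m = ⌈y⌉₊ - 1 := ⟨_, rfl⟩
  have hc1 : 1 ≤ ⌈y⌉₊ := Nat.one_le_cast.1 (le_trans (by linarith) (Nat.le_ceil y))
  rcases le_or_gt t m with htm | hmt
  · rw [sum_eq_zero fun n hn => ?_, norm_zero]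
    · positivity
    rw [primeCoeff, if_neg, zero_mul]
    rintro ⟨-, h1, -⟩
    rw [mem_Ioc] at hn
    have h2 := Nat.ceil_le.2 h1
    omega
  have hmu : u ≤ m := by
    have h1 : y - 1 ≤ m := by
      rw [hm, Nat.cast_sub hc1, Nat.cast_one]
      linarith [Nat.le_ceil y]
    nlinarith
  have hge : ∀ n ∈ Ioc m t, y ≤ (n : ℝ) := fun n hn =>
    (Nat.le_ceil y).trans (Nat.cast_le.2 (by rw [mem_Ioc] at hn; omega))
  have hvl : δ * l ≤ Real.log (m + 1 : ℕ) := by
    rw [hl, ← Real.log_rpow hx0]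
    refine Real.log_le_log (Real.rpow_pos_of_pos hx0 _) (hy.trans ?_)
    exact hge (m + 1) (mem_Ioc.2 ⟨by omega, hmt⟩)
  have habel := norm_sum_mul_antitone_le (g := fun n => (if n.Prime then (Real.log n : ℂ) else 0) *
      χ n) (v := fun n : ℕ => (Real.log n)⁻¹) (E := C * t / l ^ K) (m := m) (n := t) hmt
    (fun i hi hit => (hth m i d (hu ▸ hmu) hi (hit.trans htx) hd hdK χ hχ).trans
      (div_le_div_of_nonneg_right (mul_le_mul_of_nonneg_left (Nat.cast_le.2 hit) hC.le)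
        (by positivity)))
    (fun i hi _ => by
      have hi2 : (2 : ℝ) ≤ i := by
        have : (4 : ℝ) ≤ m := hx4.trans hmu
        linarith [Nat.cast_lt (α := ℝ).2 hi]
      exact inv_anti₀ (Real.log_pos (by linarith))
        (Real.log_le_log (by linarith) (Nat.cast_le.2 (Nat.le_succ i))))
    (inv_nonneg.2 (Real.log_natCast_nonneg t))
  obtain ⟨T, hT⟩ : ∃ T, T = ∑ n ∈ Ioc m t, (if n.Prime then (1 : ℂ) else 0) * χ n := ⟨_, rfl⟩
  have hTb : ‖T‖ ≤ C * t / l ^ K := by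
    refine le_trans (le_of_eq ?_) (habel.trans ?_)
    · rw [hT]
      congr 1
      refine sum_congr rfl fun n _ => ?_
      split_ifs with hp
      · have : (Real.log n : ℂ) ≠ 0 :=
          Complex.ofReal_ne_zero.2 (Real.log_pos (Nat.one_lt_cast.2 hp.one_lt)).ne'
        rw [Complex.ofReal_inv]
        field_simp
      · simp
    · refine mul_le_of_le_one_right (by positivity) ?_
      refine inv_le_one_of_one_le₀ ?_
      have : (5 : ℝ) ≤ (m + 1 : ℕ) := by
        push_cast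
        linarith
      rw [Real.le_log_iff_exp_le (by linarith)]
      linarith [Real.exp_one_lt_d9]
  have hsplit : ∑ n ∈ Ioc 0 t, primeCoeff y k n * χ n =
      T - ∑ n ∈ (Ioc m t).filter (fun n : ℕ => n.Prime ∧ ¬ n.Coprime k), χ n := by
    rw [← sum_Ioc_consecutive _ (Nat.zero_le m) hmt.le, sum_eq_zero (s := Ioc 0 m) fun n hn => ?_,
      zero_add, hT, sum_filter, ← sum_sub_distrib]
    · refine sum_congr rfl fun n hn => ?_
      by_cases hp : n.Prime <;> by_cases hc : n.Coprime k <;>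
        simp [primeCoeff, hp, hc, hge n hn]
    · rw [primeCoeff, if_neg, zero_mul]
      rintro ⟨-, h1, -⟩
      rw [mem_Ioc] at hn
      have h2 := Nat.ceil_le.2 h1
      omega
  rw [hsplit]
  refine (norm_sub_le _ _).trans ((add_le_add hTb ((norm_sum_le _ _).trans
    ((sum_le_card_nsmul _ _ (1 : ℝ) fun n _ => DirichletCharacter.norm_le_one χ _).trans
      (le_of_eq (by rw [nsmul_eq_mul, mul_one]))))).trans ?_)
  have h1 : (#((Ioc m t).filter fun n : ℕ => n.Prime ∧ ¬ n.Coprime k) : ℝ) ≤ 1 / δ := by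
    refine (Nat.cast_le.2 (card_le_card (t := k.primeFactors.filter fun p : ℕ => y ≤ p)
      fun n hn => ?_)).trans ((card_dvd_ge_le hk (by linarith)).trans ?_)
    · rw [mem_filter] at hn
      exact mem_filter.2 ⟨Nat.mem_primeFactors.2 ⟨hn.2.1,
        (hn.2.1.coprime_iff_not_dvd).not_left.1 hn.2.2, hk.ne'⟩, hge n hn.1⟩
    · have hly : δ * l ≤ Real.log y := by
        rw [hl, ← Real.log_rpow hx0]
        exact Real.log_le_log (Real.rpow_pos_of_pos hx0 _) hy
      refine (div_le_div₀ hl0.le (hl ▸ Real.log_le_log (Nat.cast_pos.2 hk) (Nat.cast_le.2 hkx))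
        (by positivity) hly).trans (le_of_eq ?_)
      field_simp
  have h2 : (1 : ℝ) ≤ (t : ℝ) / l ^ K := by
    rw [le_div_iff₀ (by positivity), one_mul]
    exact hlK.trans (hy.trans (hge t (mem_Ioc.2 ⟨hmt, le_rfl⟩)))
  have h3 := mul_le_mul_of_nonneg_left h2 (show (0 : ℝ) ≤ 1 / δ by positivity)
  rw [mul_one] at h3
  rw [add_mul, add_div, mul_div_assoc (1 / δ)]
  linarith

end FA.Chen
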