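import Fermat.Agent.Chen.PrimeIntegral
import Fermat.Agent.Root.SummaryPrimeNumberTheorem
import Mathlib.Analysis.SpecialFunctions.Arsinh

/-!
# Chen's products of three primes

The ordered triples `z ≤ p₁ < y ≤ p₂, p₃` with `p₁ p₂ p₃ ≤ x`, `z = x ^ (1/8)`, `y = x ^ (1/3)`,
are at most `(3/4 + ε) x / log x`.
-/

set_option autoImplicit false

noncomputable section

namespace FA.Chen

open Finset Filter
open FA.CombinatorialSieve
open scoped Topology

/-- The primes in `[z, y)`. -/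
def firstPrimes (x : ℕ) (z y : ℝ) : Finset ℕ :=
  (Icc 1 x).filter fun p : ℕ => p.Prime ∧ z ≤ p ∧ (p : ℝ) < y

/-- The primes `≥ y`. -/
def bigPrimes (x : ℕ) (y : ℝ) : Finset ℕ :=
  (Icc 1 x).filter fun p : ℕ => p.Prime ∧ y ≤ p

/-- The products `p₁ p₂ < x / y`. -/
def semiprimeSet (x : ℕ) (z y : ℝ) : Finset ℕ :=
  ((firstPrimes x z y ×ˢ bigPrimes x y).filter
    fun u : ℕ × ℕ => ((u.1 * u.2 : ℕ) : ℝ) * y < x).image fun u => u.1 * u.2

/-- The pairs `(p₁ p₂, p₃)`. -/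
def triplePairs (x : ℕ) (z y : ℝ) : Finset (ℕ × ℕ) :=
  (semiprimeSet x z y ×ˢ bigPrimes x y).filter fun u : ℕ × ℕ => u.1 * u.2 ≤ x

open Classical in
/-- The numbers `p₁ p₂ p₃ < x`. -/
def tripleProducts (x : ℕ) (z y : ℝ) : Finset ℕ :=
  (range x).filter fun k => ∃ p₁ p₂ p₃ : ℕ, p₁.Prime ∧ p₂.Prime ∧ p₃.Prime ∧
    z ≤ p₁ ∧ (p₁ : ℝ) < y ∧ y ≤ p₂ ∧ y ≤ p₃ ∧ k = p₁ * p₂ * p₃

theorem mem_semiprimeSet {x : ℕ} {z y : ℝ} {m : ℕ} (h : m ∈ semiprimeSet x z y) :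
    ∃ p₁ p₂ : ℕ, p₁.Prime ∧ p₂.Prime ∧ z ≤ p₁ ∧ (p₁ : ℝ) < y ∧ y ≤ p₂ ∧ m = p₁ * p₂ ∧
      (m : ℝ) * y < x := by
  simp only [semiprimeSet, mem_image, mem_filter, mem_product, firstPrimes, bigPrimes] at h
  obtain ⟨u, ⟨⟨⟨-, h1, h2, h3⟩, -, h4, h5⟩, h6⟩, rfl⟩ := h
  exact ⟨u.1, u.2, h1, h4, h2, h3, h5, rfl, h6⟩

theorem mk_mem_triplePairs {x : ℕ} {z y : ℝ} {p₁ p₂ p₃ : ℕ} (h1 : p₁.Prime) (h2 : p₂.Prime)
    (h3 : p₃.Prime) (hz : z ≤ p₁) (hy1 : (p₁ : ℝ) < y) (hy2 : y ≤ p₂) (hy3 : y ≤ p₃)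
    (hk : p₁ * p₂ * p₃ < x) : (p₁ * p₂, p₃) ∈ triplePairs x z y := by
  have h12 : p₁ * p₂ < x := lt_of_le_of_lt (Nat.le_mul_of_pos_right _ h3.pos) hk
  have hp3 : p₃ < x := lt_of_le_of_lt (Nat.le_mul_of_pos_left _ (Nat.mul_pos h1.pos h2.pos)) hk
  have hp1 : p₁ < x := lt_of_le_of_lt (Nat.le_mul_of_pos_right _ h2.pos) h12
  have hp2 : p₂ < x := lt_of_le_of_lt (Nat.le_mul_of_pos_left _ h1.pos) h12
  simp only [triplePairs, semiprimeSet, mem_filter, mem_product, mem_image, firstPrimes,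
    bigPrimes, mem_Icc]
  refine ⟨⟨⟨(p₁, p₂), ⟨⟨⟨⟨h1.one_le, hp1.le⟩, h1, hz, hy1⟩, ⟨h2.one_le, hp2.le⟩, h2, hy2⟩,
    ?_⟩, rfl⟩, ⟨h3.one_le, hp3.le⟩, h3, hy3⟩, hk.le⟩
  refine lt_of_le_of_lt ?_ (Nat.cast_lt.2 hk)
  rw [Nat.cast_mul (p₁ * p₂) p₃]
  exact mul_le_mul_of_nonneg_left hy3 (Nat.cast_nonneg _)

/-- **Ordered and unordered triples.** -/
theorem two_mul_card_tripleProducts_le (x : ℕ) {z y : ℝ} (P : ℕ → Prop) [DecidablePred P] :
    2 * #((tripleProducts x z y).filter P) ≤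
      #((triplePairs x z y).filter fun u => P (u.1 * u.2)) +
        #((firstPrimes x z y ×ˢ bigPrimes x y).filter fun u : ℕ × ℕ => u.1 * u.2 * u.2 < x) := by
  classical
  obtain ⟨U, hU⟩ : ∃ U, U = (triplePairs x z y).filter fun u => P (u.1 * u.2) := ⟨_, rfl⟩
  obtain ⟨D, hD⟩ : ∃ D, D = ((firstPrimes x z y ×ˢ bigPrimes x y).filter
      fun u : ℕ × ℕ => u.1 * u.2 * u.2 < x).image (fun u => u.1 * u.2 * u.2) := ⟨_, rfl⟩
  obtain ⟨K, hK⟩ : ∃ K, K = (tripleProducts x z y).filter P := ⟨_, rfl⟩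
  rw [← hK, ← hU]
  refine le_trans ?_ (add_le_add (le_refl #U) (hD ▸ card_image_le))
  have hone : ∀ k ∈ K,
      2 ≤ #(U.filter fun u => u.1 * u.2 = k) + if k ∈ D then 1 else 0 := by
    intro k hk
    simp only [hK, tripleProducts, mem_filter, mem_range] at hk
    obtain ⟨⟨hkx, p₁, p₂, p₃, h1, h2, h3, hz, hy1, hy2, hy3, rfl⟩, hPk⟩ := hk
    have hu : (p₁ * p₂, p₃) ∈ U.filter fun u => u.1 * u.2 = p₁ * p₂ * p₃ := by
      rw [mem_filter, hU, mem_filter]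
      exact ⟨⟨mk_mem_triplePairs h1 h2 h3 hz hy1 hy2 hy3 hkx, hPk⟩, rfl⟩
    rcases eq_or_ne p₂ p₃ with rfl | hne
    · rw [if_pos (show p₁ * p₂ * p₂ ∈ D from ?_)]
      · have := card_pos.2 ⟨_, hu⟩
        omega
      have h12 : p₁ * p₂ < x := lt_of_le_of_lt (Nat.le_mul_of_pos_right _ h3.pos) hkx
      rw [hD, mem_image]
      refine ⟨(p₁, p₂), ?_, rfl⟩
      simp only [mem_filter, mem_product, firstPrimes, bigPrimes, mem_Icc]
      exact ⟨⟨⟨⟨h1.one_le, (lt_of_le_of_lt (Nat.le_mul_of_pos_right _ h2.pos) h12).le⟩, h1, hz,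
        hy1⟩, ⟨h2.one_le, (lt_of_le_of_lt (Nat.le_mul_of_pos_left _ h1.pos) h12).le⟩, h2, hy2⟩,
        hkx⟩
    · have hv : (p₁ * p₃, p₂) ∈ U.filter fun u => u.1 * u.2 = p₁ * p₂ * p₃ := by
        rw [mem_filter, hU, mem_filter]
        have e : p₁ * p₃ * p₂ = p₁ * p₂ * p₃ := by ring
        exact ⟨⟨mk_mem_triplePairs h1 h3 h2 hz hy1 hy3 hy2 (e ▸ hkx), by
          dsimp only
          rw [e]
          exact hPk⟩, e⟩
      have h4 : 1 < #(U.filter fun u => u.1 * u.2 = p₁ * p₂ * p₃) :=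
        one_lt_card.2 ⟨_, hu, _, hv, fun h => hne (congrArg Prod.snd h).symm⟩
      omega
  have h5 := sum_le_sum hone
  rw [sum_const, smul_eq_mul, sum_add_distrib, sum_boole, Nat.cast_id, mul_comm] at h5
  refine h5.trans (add_le_add ?_ (card_le_card fun k hk => (mem_filter.1 hk).2))
  rw [← card_biUnion fun i _ j _ hij => disjoint_filter.2 fun u _ h h' => hij (h.symm.trans h')]
  exact card_le_card (biUnion_subset.2 fun k _ => filter_subset _ _)

/-- The diagonal is negligible. -/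
theorem card_diagonal_le {x : ℕ} {z y : ℝ} (hz : 1 ≤ z) (hy : 1 ≤ y) :
    (#((firstPrimes x z y ×ˢ bigPrimes x y).filter fun u : ℕ × ℕ => u.1 * u.2 * u.2 < x) : ℝ) ≤
      2 * y * √((x : ℝ) / z) := by
  obtain ⟨q, hq⟩ : ∃ q, q = ⌊√((x : ℝ) / z)⌋₊ := ⟨_, rfl⟩
  refine (Nat.cast_le.2 (card_le_card (t := (range ⌈y⌉₊) ×ˢ (Icc 1 q)) fun u hu => ?_)).trans ?_
  · simp only [mem_filter, mem_product, firstPrimes, bigPrimes] at hu
    obtain ⟨⟨⟨-, -, hz1, hy1⟩, -, h2, -⟩, hlt⟩ := hu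
    rw [mem_product, mem_range, Nat.lt_ceil, mem_Icc]
    refine ⟨hy1, h2.one_le, hq ▸ Nat.le_floor ?_⟩
    rw [Real.le_sqrt (Nat.cast_nonneg _) (by positivity), le_div_iff₀ (by linarith)]
    have h3 : ((u.1 * u.2 * u.2 : ℕ) : ℝ) ≤ x := Nat.cast_le.2 hlt.le
    push_cast at h3
    nlinarith [mul_le_mul_of_nonneg_left hz1 (sq_nonneg (u.2 : ℝ))]
  · rw [card_product, card_range, Nat.card_Icc, Nat.add_sub_cancel, Nat.cast_mul]
    refine mul_le_mul ?_ (hq ▸ Nat.floor_le (Real.sqrt_nonneg _)) (Nat.cast_nonneg _) (by linarith)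
    linarith [(Nat.ceil_lt_add_one (show 0 ≤ y by linarith)).le]

/-- `log t ≤ (t - 1 / t) / 2`. -/
theorem log_le_half_sub_inv {t : ℝ} (ht : 1 ≤ t) : Real.log t ≤ (t - t⁻¹) / 2 := by
  rw [← Real.sinh_log (by linarith)]
  exact Real.self_le_sinh_iff.2 (Real.log_nonneg ht)

theorem hasDerivAt_inner {α u : ℝ} (hα : α ≠ 1) (hu : 0 < u) (hu1 : 0 < 1 - α - u) :
    HasDerivAt (fun s => (Real.log s - Real.log (1 - α - s)) / (1 - α))
      ((1 / (1 - α - u)) / u) u := by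
  have d := (((hasDerivAt_id u).log hu.ne').sub
    (((hasDerivAt_id u).const_sub (1 - α)).log (show (1 - α) - id u ≠ 0 from hu1.ne'))).div_const
      (1 - α)
  refine d.congr_deriv ?_
  simp only [id]
  have : (1 : ℝ) - α ≠ 0 := sub_ne_zero.2 hα.symm
  field_simp
  ring

theorem integral_inner_le {α : ℝ} (h3 : α ≤ 1 / 3) :
    ∫ u in (1 / 3 : ℝ)..(2 / 3 - α), (1 / (1 - α - u)) / u ≤ 3 * (1 - 3 * α) / (2 - 3 * α) := by
  have hle : (1 / 3 : ℝ) ≤ 2 / 3 - α := by linarith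
  rw [intervalIntegral.integral_eq_sub_of_hasDerivAt
    (f := fun s => (Real.log s - Real.log (1 - α - s)) / (1 - α))
    (fun u hu => ?_) (ContinuousOn.intervalIntegrable ?_)]
  · rw [show 1 - α - (2 / 3 - α) = (1 / 3 : ℝ) by ring, show 1 - α - 1 / 3 = 2 / 3 - α by ring,
      ← sub_div, show 2 / 3 - α = (2 - 3 * α) * (1 / 3) by ring,
      Real.log_mul (by linarith) (by norm_num), div_le_div_iff₀ (by linarith) (by linarith)]
    have h := log_le_half_sub_inv (show (1 : ℝ) ≤ 2 - 3 * α by linarith)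
    have h2 := mul_le_mul_of_nonneg_right h (show (0 : ℝ) ≤ 2 * (2 - 3 * α) by linarith)
    rw [show ((2 - 3 * α) - (2 - 3 * α)⁻¹) / 2 * (2 * (2 - 3 * α)) =
      3 * (1 - 3 * α) * (1 - α) by
        have : (2 : ℝ) - 3 * α ≠ 0 := by linarith
        field_simp
        ring] at h2
    linarith
  · rw [Set.uIcc_of_le hle]
    refine ContinuousOn.div (ContinuousOn.div continuousOn_const (by fun_prop) fun u hu => ?_)
      continuousOn_id fun u hu => ?_
    · linarith [hu.2]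
    · show u ≠ 0
      linarith [hu.1]
  · rw [Set.uIcc_of_le hle] at hu
    exact hasDerivAt_inner (by linarith) (by linarith [hu.1]) (by linarith [hu.2])

theorem integral_outer_le :
    ∫ u in (1 / 8 : ℝ)..(1 / 3), (3 * (1 - 3 * u) / (2 - 3 * u)) / u ≤ 3 / 4 := by
  rw [intervalIntegral.integral_eq_sub_of_hasDerivAt
    (f := fun s => 3 / 2 * (Real.log s + Real.log (2 - 3 * s)))
    (fun u hu => ?_) (ContinuousOn.intervalIntegrable ?_)]
  · norm_num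
    rw [Real.log_div (by norm_num) (by norm_num), Real.log_div (by norm_num) (by norm_num),
      Real.log_div (by norm_num) (by norm_num)]
    have h := Real.log_le_log (show (0 : ℝ) < (64 / 39) ^ 2 by norm_num)
      (show ((64 : ℝ) / 39) ^ 2 ≤ Real.exp 1 by norm_num; linarith [Real.exp_one_gt_d9])
    rw [Real.log_exp, Real.log_pow, Real.log_div (by norm_num) (by norm_num),
      show (64 : ℝ) = 8 * 8 by norm_num, show (39 : ℝ) = 3 * 13 by norm_num,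
      Real.log_mul (by norm_num) (by norm_num), Real.log_mul (by norm_num) (by norm_num)] at h
    push_cast at h
    norm_num at h ⊢
    linarith
  · rw [Set.uIcc_of_le (by norm_num)]
    refine ContinuousOn.div (ContinuousOn.div (by fun_prop) (by fun_prop) fun u hu => ?_)
      continuousOn_id fun u hu => ?_
    · linarith [hu.2]
    · show u ≠ 0
      linarith [hu.1]
  · rw [Set.uIcc_of_le (by norm_num)] at hu
    have h1 : (0 : ℝ) < u := by linarith [hu.1]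
    have h2 : (0 : ℝ) < 2 - 3 * u := by linarith [hu.2]
    have d := (((hasDerivAt_id u).log h1.ne').add
      ((((hasDerivAt_id u).const_mul 3).const_sub 2).log
        (show (2 : ℝ) - 3 * id u ≠ 0 from h2.ne'))).const_mul (3 / 2 : ℝ)
    refine d.congr_deriv ?_
    simp only [id]
    field_simp
    ring

theorem eventually_primeCounting_le {ε : ℝ} (hε : 0 < ε) :
    ∀ᶠ u : ℝ in atTop, (Nat.primeCounting ⌊u⌋₊ : ℝ) ≤ (1 + ε) * u / Real.log u := by
  filter_upwards [PNT.Summary.prime_number_theorem.eventually_le_const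
    (show (1 : ℝ) < 1 + ε by linarith), eventually_gt_atTop 1] with u hu hu1
  rw [div_le_iff₀ (by linarith)] at hu
  rwa [le_div_iff₀ (Real.log_pos hu1)]

/-- **The count of the triples.** -/
theorem eventually_card_triplePairs_le {ε : ℝ} (hε : 0 < ε) (hε1 : ε ≤ 1) :
    ∀ᶠ x : ℕ in atTop,
      (#(triplePairs x ((x : ℝ) ^ (1 / 8 : ℝ)) ((x : ℝ) ^ (1 / 3 : ℝ))) : ℝ) ≤
        (3 / 4 + ε) * x / Real.log x := by
  obtain ⟨e, he⟩ : ∃ e, e = ε / 8 := ⟨_, rfl⟩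
  have he0 : 0 < e := by linarith
  obtain ⟨U₀, hU₀⟩ := eventually_atTop.1 (eventually_primeCounting_le he0)
  filter_upwards [((tendsto_rpow_atTop (show (0 : ℝ) < 1 / 3 by norm_num)).comp
      (tendsto_natCast_atTop_atTop (R := ℝ))).eventually_ge_atTop (max U₀ 4),
    eventually_sum_primes_le_integral (a₀ := 1 / 8) (L := 9) (B := 3) (by norm_num) (by norm_num)
      (by norm_num) he0,
    eventually_sum_primes_le_integral (a₀ := 1 / 8) (L := 0) (B := 1) (by norm_num) le_rfl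
      zero_le_one he0,
    BombieriVinogradov.eventually_log_ge 1] with x hxU hint hint1 hl1
  simp only [Function.comp_apply] at hxU
  obtain ⟨l, hl⟩ : ∃ l, l = Real.log x := ⟨_, rfl⟩
  rw [← hl] at hl1 hint hint1 ⊢
  obtain ⟨z, hz⟩ : ∃ z : ℝ, z = (x : ℝ) ^ (1 / 8 : ℝ) := ⟨_, rfl⟩
  obtain ⟨y, hy⟩ : ∃ y : ℝ, y = (x : ℝ) ^ (1 / 3 : ℝ) := ⟨_, rfl⟩
  rw [← hz, ← hy]
  rw [← hy] at hxU
  have hl0 : 0 < l := by linarith
  have hx0 : (0 : ℝ) < x := by
    rcases Nat.eq_zero_or_pos x with rfl | h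
    · simp at hl
      linarith
    · exact Nat.cast_pos.2 h
  have hy4 : 4 ≤ y := le_of_max_le_right hxU
  obtain ⟨al, hal⟩ : ∃ al : ℕ → ℝ, al = fun p : ℕ => Real.log p / l := ⟨_, rfl⟩
  have hexp : ∀ p : ℕ, 0 < p → (x : ℝ) ^ al p = p := fun p hp => by
    rw [hal, Real.rpow_def_of_pos hx0, ← hl, mul_div_cancel₀ _ hl0.ne',
      Real.exp_log (Nat.cast_pos.2 hp)]
  have halI : ∀ p ∈ firstPrimes x z y, al p ∈ Set.Icc (1 / 8 : ℝ) (1 / 3) := by
    intro p hp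
    simp only [firstPrimes, mem_filter] at hp
    have hp0 : (0 : ℝ) < p := Nat.cast_pos.2 hp.2.1.pos
    have h1 := Real.log_le_log (hz ▸ Real.rpow_pos_of_pos hx0 _) hp.2.2.1
    have h2 := Real.log_le_log hp0 hp.2.2.2.le
    rw [hz, Real.log_rpow hx0, ← hl] at h1
    rw [hy, Real.log_rpow hx0, ← hl] at h2
    rw [hal]
    exact ⟨(le_div_iff₀ hl0).2 h1, (div_le_iff₀ hl0).2 h2⟩
  obtain ⟨S₂, hS₂⟩ : ∃ S₂ : ℕ → Finset ℕ, S₂ = fun p₁ => (bigPrimes x y).filter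
      fun p₂ : ℕ => ((p₁ * p₂ : ℕ) : ℝ) * y < x := ⟨_, rfl⟩
  have hmid : ∀ p₁ ∈ firstPrimes x z y, ∀ p₂ ∈ S₂ p₁,
      p₂.Prime ∧ (x : ℝ) ^ (1 / 3 : ℝ) ≤ p₂ ∧ (p₂ : ℝ) < (x : ℝ) ^ (2 / 3 - al p₁) := by
    intro p₁ hp₁ p₂ hp₂
    simp only [hS₂, bigPrimes, mem_filter] at hp₂
    have hp0 : 0 < p₁ := by
      simp only [firstPrimes, mem_filter] at hp₁
      exact hp₁.2.1.pos
    refine ⟨hp₂.1.2.1, hy ▸ hp₂.1.2.2, ?_⟩
    rw [show 2 / 3 - al p₁ = 1 - (1 / 3 + al p₁) by ring, Real.rpow_sub hx0, Real.rpow_one,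
      Real.rpow_add hx0, hexp p₁ hp0, ← hy,
      lt_div_iff₀ (mul_pos (by linarith) (Nat.cast_pos.2 hp0))]
    refine lt_of_eq_of_lt ?_ hp₂.2
    push_cast
    ring
  have hcount : (#(triplePairs x z y) : ℝ) ≤ ∑ p₁ ∈ firstPrimes x z y, ∑ p₂ ∈ S₂ p₁,
      (Nat.primeCounting ⌊(x : ℝ) / ((p₁ * p₂ : ℕ) : ℝ)⌋₊ : ℝ) := by
    obtain ⟨R, hR⟩ : ∃ R, R = (firstPrimes x z y).sigma S₂ := ⟨_, rfl⟩
    refine le_trans ?_ (le_of_eq (sum_sigma (firstPrimes x z y) S₂ fun u =>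
      (Nat.primeCounting ⌊(x : ℝ) / ((u.1 * u.2 : ℕ) : ℝ)⌋₊ : ℝ)))
    rw [← Nat.cast_sum, Nat.cast_le]
    refine (card_le_card (t := ((firstPrimes x z y).sigma S₂).biUnion fun u =>
      (Nat.primesLE ⌊(x : ℝ) / ((u.1 * u.2 : ℕ) : ℝ)⌋₊).image fun n => (u.1 * u.2, n))
      fun w hw => ?_).trans (card_biUnion_le.trans (sum_le_sum fun u _ => ?_))
    · simp only [triplePairs, semiprimeSet, mem_filter, mem_product, mem_image] at hw
      obtain ⟨⟨⟨u, ⟨⟨hu1, hu2⟩, hu3⟩, hu4⟩, hw2⟩, hw3⟩ := hw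
      have hupos : 0 < u.1 * u.2 := by
        simp only [firstPrimes, bigPrimes, mem_filter] at hu1 hu2
        exact Nat.mul_pos hu1.2.1.pos hu2.2.1.pos
      simp only [bigPrimes, mem_filter] at hw2
      refine mem_biUnion.2 ⟨⟨u.1, u.2⟩, mem_sigma.2 ⟨hu1, hS₂ ▸ mem_filter.2 ⟨hu2, hu3⟩⟩,
        mem_image.2 ⟨w.2, Nat.mem_primesLE.2 ⟨Nat.le_floor ?_, hw2.2.1⟩, Prod.ext hu4 rfl⟩⟩
      rw [le_div_iff₀ (Nat.cast_pos.2 hupos), ← Nat.cast_mul, Nat.cast_le, hu4, mul_comm]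
      exact hw3
    · exact card_image_le.trans (Nat.primesLE_card_eq_primeCounting _).le
  refine hcount.trans ?_
  have hstep : ∀ p₁ ∈ firstPrimes x z y, ∑ p₂ ∈ S₂ p₁,
      (Nat.primeCounting ⌊(x : ℝ) / ((p₁ * p₂ : ℕ) : ℝ)⌋₊ : ℝ) ≤
        (1 + e) * (x / l) * (invPhi p₁ * (3 * (1 - 3 * al p₁) / (2 - 3 * al p₁) + e)) := by
    intro p₁ hp₁
    obtain ⟨h8, h3⟩ := halI p₁ hp₁
    have hp0 : 0 < p₁ := by
      simp only [firstPrimes, mem_filter] at hp₁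
      exact hp₁.2.1.pos
    have h := hint (1 / 3) (2 / 3 - al p₁) (fun u => 1 / (1 - al p₁ - u)) (by norm_num)
      (by linarith) (by linarith) (fun t ht => ⟨by
        have : (0 : ℝ) < 1 - al p₁ - t := by linarith [ht.2]
        positivity, by
        rw [div_le_iff₀ (by linarith [ht.2])]
        linarith [ht.2]⟩) (fun s hs t ht => ?_) (S₂ p₁) (hmid p₁ hp₁)
    swap
    · have hs1 : 1 / 3 ≤ 1 - al p₁ - s := by linarith [hs.2]
      have ht1 : 1 / 3 ≤ 1 - al p₁ - t := by linarith [ht.2]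
      have hs0 : (1 - al p₁ - s) ≠ 0 := by linarith
      have ht0 : (1 - al p₁ - t) ≠ 0 := by linarith
      rw [div_sub_div _ _ hs0 ht0, abs_div, abs_of_pos (mul_pos (show (0 : ℝ) < 1 - al p₁ - s by
        linarith) (show (0 : ℝ) < 1 - al p₁ - t by linarith)),
        show 1 * (1 - al p₁ - t) - (1 - al p₁ - s) * 1 = s - t by ring,
        div_le_iff₀ (mul_pos (by linarith) (by linarith))]
      have := mul_le_mul hs1 ht1 (by norm_num) (by linarith)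
      nlinarith [abs_nonneg (s - t)]
    have h5 := h.trans (add_le_add (integral_inner_le h3) le_rfl)
    refine (sum_le_sum (g := fun p₂ => (1 + e) * (x / l) * (invPhi p₁ *
      (invPhi p₂ * (1 / (1 - al p₁ - Real.log p₂ / l))))) fun p₂ hp₂ => ?_).trans ?_
    swap
    · rw [← mul_sum, ← mul_sum]
      exact mul_le_mul_of_nonneg_left (mul_le_mul_of_nonneg_left h5
        (by rw [invPhi_apply]; positivity)) (by positivity)
    obtain ⟨hp2, hlo, hhi⟩ := hmid p₁ hp₁ p₂ hp₂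
    have hlo' : y ≤ p₂ := hy ▸ hlo
    have hpp : (0 : ℝ) < ((p₁ * p₂ : ℕ) : ℝ) := Nat.cast_pos.2 (Nat.mul_pos hp0 hp2.pos)
    have hlt : ((p₁ * p₂ : ℕ) : ℝ) * y < x := by
      rw [hS₂] at hp₂
      exact (mem_filter.1 hp₂).2
    have huy : y ≤ (x : ℝ) / ((p₁ * p₂ : ℕ) : ℝ) := by
      rw [le_div_iff₀ hpp, mul_comm]
      exact hlt.le
    refine (hU₀ _ ((le_of_max_le_left hxU).trans huy)).trans (le_of_eq_of_le ?_
      (mul_le_mul_of_nonneg_left (mul_le_mul (b := invPhi p₁)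
        (a := (p₁ : ℝ)⁻¹) (c := (p₂ : ℝ)⁻¹ * (1 / (1 - al p₁ - Real.log p₂ / l)))
        ?_ (mul_le_mul_of_nonneg_right ?_ ?_) ?_ ?_) (by positivity)))
    · have hlp : Real.log p₁ = al p₁ * l := by
        rw [hal]
        field_simp
      have hne : 1 - al p₁ - Real.log p₂ / l ≠ 0 := by
        intro h0
        have h1 := Real.log_le_log (show (0 : ℝ) < y by linarith) huy
        rw [Real.log_div hx0.ne' hpp.ne', Nat.cast_mul, Real.log_mul (Nat.cast_ne_zero.2 hp0.ne')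
          (Nat.cast_ne_zero.2 hp2.ne_zero), hy, Real.log_rpow hx0, hlp, ← hl] at h1
        have h2 : Real.log p₂ = (1 - al p₁) * l := by
          field_simp at h0
          linarith
        linarith
      rw [Real.log_div hx0.ne' hpp.ne', Nat.cast_mul, Real.log_mul (Nat.cast_ne_zero.2 hp0.ne')
        (Nat.cast_ne_zero.2 hp2.ne_zero), hlp, ← hl]
      have hd : l - (al p₁ * l + Real.log p₂) = l * (1 - al p₁ - Real.log p₂ / l) := by
        field_simp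
        ring
      rw [hd]
      have hp0r : (p₁ : ℝ) ≠ 0 := Nat.cast_ne_zero.2 hp0.ne'
      have hp2r : (p₂ : ℝ) ≠ 0 := Nat.cast_ne_zero.2 hp2.ne_zero
      field_simp
    · simp only [invPhi_apply]
      refine inv_anti₀ (Nat.cast_pos.2 (Nat.totient_pos.2 hp0)) (Nat.cast_le.2 (Nat.totient_le _))
    · simp only [invPhi_apply]
      refine inv_anti₀ (Nat.cast_pos.2 (Nat.totient_pos.2 hp2.pos))
        (Nat.cast_le.2 (Nat.totient_le _))
    · have : Real.log p₂ / l ≤ 2 / 3 - al p₁ := by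
        rw [div_le_iff₀ hl0, hl, ← Real.log_rpow hx0]
        exact Real.log_le_log (Nat.cast_pos.2 hp2.pos) hhi.le
      exact div_nonneg zero_le_one (by linarith)
    · have : Real.log p₂ / l ≤ 2 / 3 - al p₁ := by
        rw [div_le_iff₀ hl0, hl, ← Real.log_rpow hx0]
        exact Real.log_le_log (Nat.cast_pos.2 hp2.pos) hhi.le
      exact mul_nonneg (by positivity) (div_nonneg zero_le_one (by linarith))
    · rw [invPhi_apply]
      positivity
  refine (sum_le_sum hstep).trans ?_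
  rw [← mul_sum]
  simp only [mul_add, sum_add_distrib, ← sum_mul]
  have hmem : ∀ p ∈ firstPrimes x z y,
      p.Prime ∧ (x : ℝ) ^ (1 / 8 : ℝ) ≤ p ∧ (p : ℝ) < (x : ℝ) ^ (1 / 3 : ℝ) := fun p hp => by
    simp only [firstPrimes, mem_filter] at hp
    exact ⟨hp.2.1, hz ▸ hp.2.2.1, hy ▸ hp.2.2.2⟩
  have hA := hint (1 / 8) (1 / 3) (fun u => 3 * (1 - 3 * u) / (2 - 3 * u)) le_rfl (by norm_num)
    (by norm_num) (fun t ht => ⟨div_nonneg (by linarith [ht.2]) (by linarith [ht.2]), by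
      rw [div_le_iff₀ (by linarith [ht.2])]
      linarith [ht.2]⟩) (fun s hs t ht => ?_) (firstPrimes x z y) hmem
  swap
  · have hs1 : (1 : ℝ) ≤ 2 - 3 * s := by linarith [hs.2]
    have ht1 : (1 : ℝ) ≤ 2 - 3 * t := by linarith [ht.2]
    have hs0 : (2 - 3 * s) ≠ 0 := by linarith
    have ht0 : (2 - 3 * t) ≠ 0 := by linarith
    rw [div_sub_div _ _ hs0 ht0, abs_div, abs_of_pos (mul_pos (show (0 : ℝ) < 2 - 3 * s by linarith)
      (show (0 : ℝ) < 2 - 3 * t by linarith)),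
      show 3 * (1 - 3 * s) * (2 - 3 * t) - (2 - 3 * s) * (3 * (1 - 3 * t)) = 9 * -(s - t) by ring,
      abs_mul, abs_neg, abs_of_pos (show (0 : ℝ) < 9 by norm_num)]
    exact div_le_self (by positivity) (one_le_mul_of_one_le_of_one_le hs1 ht1)
  have hA' := hA.trans (add_le_add integral_outer_le le_rfl)
  have hB := hint1 (1 / 8) (1 / 3) (fun _ => 1) le_rfl (by norm_num) (by norm_num)
    (fun t _ => ⟨zero_le_one, le_rfl⟩) (fun s _ t _ => by simp) (firstPrimes x z y) hmem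
  simp only [mul_one] at hB
  have hone : ∫ u in (1 / 8 : ℝ)..(1 / 3), (1 : ℝ) / u ≤ 2 := by
    simp only [one_div]
    rw [integral_inv_of_pos (by norm_num) (by norm_num)]
    refine (Real.log_le_sub_one_of_pos (by norm_num)).trans ?_
    norm_num
  have hB' := mul_le_mul_of_nonneg_right (hB.trans (add_le_add hone le_rfl)) he0.le
  rw [hal] at *
  have hxl : (0 : ℝ) ≤ x / l := by positivity
  have hall := add_le_add hA' hB'
  rw [mul_div_assoc, ← mul_add]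
  refine (mul_le_mul_of_nonneg_left hall (by positivity)).trans ?_
  rw [mul_right_comm]
  refine mul_le_mul_of_nonneg_right ?_ hxl
  have : e * e ≤ e / 8 := by
    have := mul_le_mul_of_nonneg_left (show e ≤ 1 / 8 by linarith) he0.le
    linarith
  nlinarith [he0, this, mul_le_mul_of_nonneg_left this he0.le]

end FA.Chen
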