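import Fermat.Agent.Chen.MertensLower
import Fermat.Agent.Chen.Bilinear
import Fermat.Agent.Chen.Triples

/-!
# Chen's switching

The products `k = p₁ p₂ p₃ < x` outside the classes `M` modulo the primes `q < x ^ (4999/10000)`,
`q ∤ M`, are at most `0.094 (A + 1/5000) V x / log x`, `V` the product of the sieve up to
`x ^ (1/8)`: the linear sieve at `s = 1`, the remainders by the bilinear Bombieri-Vinogradov.
-/

set_option autoImplicit false

noncomputable section

namespace FA.Chen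

open Finset Filter
open FA.CombinatorialSieve FA.LinearSieve
open FA.ThreePrimes (logOne)
open scoped Topology

/-- The sieve of the translated products. -/
def switchSieve (x : ℕ) (z y D : ℝ) (M : ℕ) (hM : 2 ∣ M) : BoundingSieve where
  support := (triplePairs x z y).image fun u => u.1 * u.2 + classShift D M M
  prodPrimes := sievingProd D M
  prodPrimes_squarefree := squarefree_sievingProd D M
  weights k := (#((triplePairs x z y).filter fun u => u.1 * u.2 + classShift D M M = k) : ℝ)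
  weights_nonneg _ := Nat.cast_nonneg _
  totalMass := (#(triplePairs x z y) : ℝ)
  nu := invPhi
  nu_mult := invPhi_isMultiplicative
  nu_pos_of_prime p hp hpd := (shiftSieve x D M M hM).nu_pos_of_prime p hp hpd
  nu_lt_one_of_prime p hp hpd := (shiftSieve x D M M hM).nu_lt_one_of_prime p hp hpd

theorem sum_weights_switch {x : ℕ} {z y D : ℝ} {M : ℕ} (hM : 2 ∣ M) (P : ℕ → Prop)
    [DecidablePred P] :
    (∑ k ∈ (switchSieve x z y D M hM).support,
        if P k then (switchSieve x z y D M hM).weights k else 0) =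
      (#((triplePairs x z y).filter fun u => P (u.1 * u.2 + classShift D M M)) : ℝ) := by
  classical
  show (∑ k ∈ (triplePairs x z y).image (fun u => u.1 * u.2 + classShift D M M),
    if P k then ((#((triplePairs x z y).filter fun u => u.1 * u.2 + classShift D M M = k) : ℝ))
      else 0) = _
  rw [← sum_filter, ← Nat.cast_sum, Nat.cast_inj]
  refine Eq.symm ?_
  refine (card_eq_sum_card_fiberwise (f := fun u : ℕ × ℕ => u.1 * u.2 + classShift D M M)
    (t := ((triplePairs x z y).image fun u => u.1 * u.2 + classShift D M M).filter P)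
    fun u hu => ?_).trans (sum_congr rfl fun k hk => ?_)
  · rw [coe_filter] at hu
    rw [coe_filter]
    exact ⟨mem_image.2 ⟨u, hu.1, rfl⟩, hu.2⟩
  · rw [filter_filter]
    exact congrArg card (filter_congr fun u _ =>
      ⟨fun h => h.2, fun h => ⟨h.symm ▸ (mem_filter.1 hk).2, h⟩⟩)

theorem switchSieve_multSum {x : ℕ} {z y D : ℝ} {M d : ℕ} (hM : 2 ∣ M)
    (hd : d ∣ sievingProd D M) : (switchSieve x z y D M hM).multSum d =
      (#((triplePairs x z y).filter fun u => u.1 * u.2 ≡ M [MOD d]) : ℝ) := by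
  rw [BoundingSieve.multSum, sum_weights_switch hM]
  exact congrArg (fun n : ℕ => (n : ℝ)) (congrArg card (filter_congr fun u _ =>
    dvd_add_classShift_iff hd))

/-- The indicator of the semiprimes. -/
def semiprimeCoeff (x : ℕ) (z y : ℝ) (m : ℕ) : ℂ := if m ∈ semiprimeSet x z y then 1 else 0

theorem semiprime_bounds {x m : ℕ} {z y : ℝ} (hz : 0 ≤ z) (hy : 0 < y)
    (hm : m ∈ semiprimeSet x z y) : 0 < m ∧ z * y ≤ m ∧ (m : ℝ) < x / y ∧ (y ≤ 1 ∨ m ≤ x) := by
  obtain ⟨p₁, p₂, h1, h2, hz1, -, hy2, rfl, hlt⟩ := mem_semiprimeSet hm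
  refine ⟨Nat.mul_pos h1.pos h2.pos, ?_, (lt_div_iff₀ hy).2 hlt, ?_⟩
  · rw [Nat.cast_mul]
    exact mul_le_mul hz1 hy2 hy.le (hz.trans hz1)
  · refine (le_or_gt y 1).imp_right fun h => Nat.cast_le (α := ℝ).1 ?_
    exact (le_mul_of_one_le_right (Nat.cast_nonneg _) h.le).trans hlt.le

theorem sum_coeff_eq_card {x : ℕ} {z y : ℝ} (hz : 0 ≤ z) (hy : 1 < y) (P : ℕ → Prop)
    [DecidablePred P] :
    (∑ m ∈ Ioc 0 x, ∑ n ∈ Ioc 0 x,
        if m * n ≤ x ∧ P (m * n) then semiprimeCoeff x z y m * primeCoeff y 1 n else 0) =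
      (#((triplePairs x z y).filter fun u => P (u.1 * u.2)) : ℂ) := by
  classical
  rw [← sum_product', card_eq_sum_ones, Nat.cast_sum, Nat.cast_one]
  refine (sum_congr_of_eq_on_inter (fun u hu hu' => ?_) (fun u hu hu' => ?_)
    fun u hu hu' => ?_).symm
  · exfalso
    simp only [triplePairs, mem_filter, mem_product, bigPrimes, mem_Icc] at hu
    obtain ⟨⟨⟨h1, ⟨h2, h3⟩, h4⟩, h5⟩, -⟩ := hu
    obtain ⟨h6, -, -, h7⟩ := semiprime_bounds hz (by linarith) h1
    refine hu' (mem_product.2 ⟨mem_Ioc.2 ⟨h6, h7.resolve_left (by linarith)⟩,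
      mem_Ioc.2 ⟨by omega, h3⟩⟩)
  · rw [semiprimeCoeff, primeCoeff]
    simp only [triplePairs, mem_filter, mem_product, bigPrimes, mem_Icc] at hu'
    rw [mem_product, mem_Ioc, mem_Ioc] at hu
    split_ifs with h1 h2 h3 <;> simp
    exact hu' ⟨⟨⟨h2, ⟨h3.1.one_le, hu.2.2⟩, h3.1, h3.2.1⟩, h1.1⟩, h1.2⟩
  · simp only [triplePairs, mem_filter, mem_product, bigPrimes] at hu
    obtain ⟨⟨⟨h1, -, h2, h3⟩, h4⟩, hP⟩ := hu
    rw [semiprimeCoeff, if_pos h1, primeCoeff, if_pos ⟨h4, hP⟩,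
      if_pos ⟨h2, h3, Nat.coprime_one_right _⟩, one_mul]

/-- `∑_{p ∣ d ≤ Q} 1 / φ d`. -/
theorem sum_inv_totient_dvd_le (Q : ℕ) {p : ℕ} (hp : p.Prime) :
    ∑ d ∈ (Icc 1 Q).filter (p ∣ ·), 1 / (d.totient : ℝ) ≤
      1 / (p.totient : ℝ) * logOne Q ^ 2 := by
  refine (sum_le_sum_of_subset_of_nonneg (t := (Icc 1 Q).image (p * ·)) (fun d hd => ?_)
    fun d _ _ => by positivity).trans ?_
  · rw [mem_filter, mem_Icc] at hd
    obtain ⟨j, rfl⟩ := hd.2
    refine mem_image.2 ⟨j, mem_Icc.2 ⟨Nat.pos_of_mul_pos_left hd.1.1, ?_⟩, rfl⟩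
    exact (Nat.le_mul_of_pos_left j hp.pos).trans hd.1.2
  rw [sum_image fun u _ v _ h => Nat.eq_of_mul_eq_mul_left hp.pos h]
  refine (sum_le_sum (g := fun j : ℕ => 1 / (p.totient : ℝ) * (1 / (j.totient : ℝ)))
    fun j hj => ?_).trans ?_
  · rw [mem_Icc] at hj
    rw [div_mul_div_comm, one_mul]
    refine div_le_div_of_nonneg_left zero_le_one ?_ ?_
    · exact mul_pos (Nat.cast_pos.2 (Nat.totient_pos.2 hp.pos))
        (Nat.cast_pos.2 (Nat.totient_pos.2 hj.1))
    · exact_mod_cast Nat.totient_super_multiplicative p j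
  · rw [← mul_sum]
    exact mul_le_mul_of_nonneg_left (BombieriVinogradov.sum_inv_totient_le Q) (by positivity)

theorem sum_not_coprime_le {x Q : ℕ} {z y : ℝ} (hz : 2 ≤ z) (hzy : z ≤ y) :
    ∑ d ∈ Icc 1 Q, (#((triplePairs x z y).filter fun u => ¬ (u.1 * u.2).Coprime d) : ℝ) /
      d.totient ≤ #(triplePairs x z y) * (6 / z * logOne Q ^ 2) := by
  classical
  simp only [← sum_boole, sum_div]
  rw [sum_comm, ← nsmul_eq_mul]
  refine sum_le_card_nsmul _ _ _ fun u hu => ?_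
  simp only [triplePairs, mem_filter, mem_product, bigPrimes] at hu
  obtain ⟨⟨hm, -, h3, hy3⟩, -⟩ := hu
  obtain ⟨p₁, p₂, h1, h2, hz1, -, hy2, hm', -⟩ := mem_semiprimeSet hm
  have hone : ∀ p : ℕ, p.Prime → z ≤ p → ∑ d ∈ Icc 1 Q,
      (if p ∣ d then 1 / (d.totient : ℝ) else 0) ≤ 2 / z * logOne Q ^ 2 := by
    intro p hp hzp
    rw [← sum_filter]
    refine (sum_inv_totient_dvd_le Q hp).trans (mul_le_mul_of_nonneg_right ?_ (sq_nonneg _))
    rw [Nat.totient_prime hp, Nat.cast_sub hp.one_le, Nat.cast_one,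
      div_le_div_iff₀ (by linarith) (by linarith)]
    linarith
  have hle : ∀ d ∈ Icc 1 Q, (if ¬ (u.1 * u.2).Coprime d then (1 : ℝ) else 0) / d.totient ≤
      (if p₁ ∣ d then 1 / (d.totient : ℝ) else 0) + (if p₂ ∣ d then 1 / (d.totient : ℝ) else 0) +
        (if u.2 ∣ d then 1 / (d.totient : ℝ) else 0) := by
    intro d _
    have h0 : ∀ p : ℕ, 0 ≤ (if p ∣ d then 1 / (d.totient : ℝ) else 0) := fun p => by
      split_ifs <;> positivity
    by_cases hc : (u.1 * u.2).Coprime d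
    · rw [if_neg (not_not_intro hc), zero_div]
      linarith [h0 p₁, h0 p₂, h0 u.2]
    rw [if_pos hc]
    rw [hm', Nat.coprime_mul_iff_left, Nat.coprime_mul_iff_left, h1.coprime_iff_not_dvd,
      h2.coprime_iff_not_dvd, h3.coprime_iff_not_dvd] at hc
    by_cases ha : p₁ ∣ d
    · rw [if_pos ha]
      linarith [h0 p₂, h0 u.2]
    by_cases hb : p₂ ∣ d
    · rw [if_pos hb]
      linarith [h0 p₁, h0 u.2]
    rw [if_pos (not_not.1 fun h => hc ⟨⟨ha, hb⟩, h⟩)]
    linarith [h0 p₁, h0 p₂]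
  refine (sum_le_sum hle).trans ?_
  rw [sum_add_distrib, sum_add_distrib, show 6 / z * logOne Q ^ 2 =
    2 / z * logOne Q ^ 2 + 2 / z * logOne Q ^ 2 + 2 / z * logOne Q ^ 2 by ring]
  exact add_le_add (add_le_add (hone p₁ h1 hz1) (hone p₂ h2 (hzy.trans hy2)))
    (hone u.2 h3 (hzy.trans hy3))

theorem abs_switchSieve_rem_le {x : ℕ} {z y D : ℝ} {M d : ℕ} (hM : 2 ∣ M) (hz : 0 ≤ z)
    (hy : 1 < y) (hd : d ∣ sievingProd D M) :
    |(switchSieve x z y D M hM).rem d| ≤
      ‖pairDisc (semiprimeCoeff x z y) (primeCoeff y 1) x d M‖ +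
        (#((triplePairs x z y).filter fun u => ¬ (u.1 * u.2).Coprime d) : ℝ) / d.totient := by
  classical
  rw [pairDisc, sum_coeff_eq_card hz hy (· ≡ M [MOD d]),
    sum_coeff_eq_card hz hy (fun k => k.Coprime d), BoundingSieve.rem, switchSieve_multSum hM hd,
    show (switchSieve x z y D M hM).nu d * (switchSieve x z y D M hM).totalMass =
      (d.totient : ℝ)⁻¹ * (#(triplePairs x z y) : ℝ) from rfl,
    inv_mul_eq_div]
  have e := card_filter_add_card_filter_not (s := triplePairs x z y)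
    (p := fun u : ℕ × ℕ => (u.1 * u.2).Coprime d)
  obtain ⟨a, ha⟩ : ∃ a, a = #((triplePairs x z y).filter fun u => u.1 * u.2 ≡ M [MOD d]) :=
    ⟨_, rfl⟩
  obtain ⟨b, hb⟩ : ∃ b, b = #((triplePairs x z y).filter fun u => (u.1 * u.2).Coprime d) :=
    ⟨_, rfl⟩
  obtain ⟨c, hc⟩ : ∃ c, c = #((triplePairs x z y).filter fun u => ¬ (u.1 * u.2).Coprime d) :=
    ⟨_, rfl⟩
  rw [← hb, ← hc] at e
  rw [← ha, ← hb, ← hc, ← e, show ((a : ℕ) : ℂ) - ((b : ℕ) : ℂ) / (d.totient : ℂ) =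
    (((a : ℝ) - (b : ℝ) / (d.totient : ℝ) : ℝ) : ℂ) by push_cast; ring, Complex.norm_real,
    Real.norm_eq_abs, show (a : ℝ) - ((b + c : ℕ) : ℝ) / (d.totient : ℝ) =
      ((a : ℝ) - (b : ℝ) / d.totient) + -((c : ℝ) / d.totient) by push_cast; ring]
  refine (abs_add_le _ _).trans (add_le_add le_rfl ?_)
  rw [abs_neg, abs_of_nonneg (by positivity)]

/-- **The products of the sieve compared.** -/
theorem eventually_prod_ratio_le {a b ε : ℝ} (ha : 0 < a) (hab : a ≤ b) (hε : 0 < ε) :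
    ∀ᶠ x : ℕ in atTop, ∀ M : ℕ, 2 ∣ M → 0 < M → M ≤ x →
      ∏ p ∈ sievingPrimes ((x : ℝ) ^ b) M, (1 - invPhi p) ≤
        a / b * (1 + ε) * ∏ p ∈ sievingPrimes ((x : ℝ) ^ a) M, (1 - invPhi p) := by
  obtain ⟨C, hC, hM'⟩ := exists_le_sum_prime_inv
  obtain ⟨e, he⟩ : ∃ e, e = Real.log (1 + ε) := ⟨_, rfl⟩
  have he0 : 0 < e := he ▸ Real.log_pos (by linarith)
  filter_upwards [((tendsto_rpow_atTop ha).comp
      (tendsto_natCast_atTop_atTop (R := ℝ))).eventually_ge_atTop (max 4 (2 / (a * e))),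
    BombieriVinogradov.eventually_log_ge (max 1 (2 * C / (a * e)))] with x hxa hlx M h2 hM hMx
  simp only [Function.comp_apply] at hxa
  obtain ⟨u, hu⟩ : ∃ u, u = (x : ℝ) ^ a := ⟨_, rfl⟩
  rw [← hu] at hxa ⊢
  obtain ⟨l, hl⟩ : ∃ l, l = Real.log x := ⟨_, rfl⟩
  rw [← hl] at hlx
  have hl1 : 1 ≤ l := le_of_max_le_left hlx
  have hx0 : (0 : ℝ) < x := Nat.cast_pos.2 (by omega)
  have hu4 : 4 ≤ u := le_of_max_le_left hxa
  obtain ⟨v, hv⟩ : ∃ v, v = (x : ℝ) ^ b := ⟨_, rfl⟩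
  rw [← hv]
  have huv : u ≤ v := by
    rw [hu, hv]
    exact Real.rpow_le_rpow_of_exponent_le (Nat.one_le_cast.2 (by omega)) hab
  obtain ⟨T, hT⟩ : ∃ T, T = (sievingPrimes v M).filter fun p : ℕ => u ≤ p := ⟨_, rfl⟩
  have hTe : T = (range ⌈v⌉₊).filter fun p : ℕ => p.Prime ∧ u ≤ p ∧ ¬ p ∣ M := by
    ext p
    simp only [hT, mem_filter, mem_sievingPrimes, mem_range, Nat.lt_ceil]
    exact ⟨fun h => ⟨h.1.2.1, h.1.1, h.2, h.1.2.2⟩, fun h => ⟨⟨h.2.1, h.1, h.2.2.2⟩, h.2.2.1⟩⟩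
  have hsum : Real.log b - Real.log a - e ≤ ∑ p ∈ T, (p : ℝ)⁻¹ := by
    refine le_trans ?_ (hTe ▸ hM' M u v hM hu4 huv)
    have hlM : Real.log M ≤ l := hl ▸ Real.log_le_log (Nat.cast_pos.2 hM) (Nat.cast_le.2 hMx)
    rw [hu, hv, Real.log_rpow hx0, Real.log_rpow hx0, ← hl, ← hu,
      Real.log_mul (by linarith) (by linarith), Real.log_mul ha.ne' (by linarith)]
    have h3 : C / (a * l) ≤ e / 2 := by
      have h4 : 2 * C / (a * e) ≤ l := le_of_max_le_right hlx
      rw [div_le_iff₀ (by positivity)] at h4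
      rw [div_le_iff₀ (by positivity)]
      linarith
    have h5 : Real.log M / (u * (a * l)) ≤ e / 2 := by
      have h6 : 2 / (a * e) ≤ u := le_of_max_le_right hxa
      rw [div_le_iff₀ (by positivity)] at h6
      rw [div_le_iff₀ (mul_pos (by linarith) (by positivity))]
      nlinarith [mul_le_mul_of_nonneg_right h6 (show 0 ≤ l by linarith)]
    linarith
  have hsplit : sievingPrimes v M = sievingPrimes u M ∪ T := by
    ext p
    simp only [hT, mem_union, mem_filter, mem_sievingPrimes]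
    constructor
    · intro h
      rcases lt_or_ge (p : ℝ) u with h' | h'
      · exact Or.inl ⟨h.1, h', h.2.2⟩
      · exact Or.inr ⟨h, h'⟩
    · rintro (h | h)
      · exact ⟨h.1, h.2.1.trans_le huv, h.2.2⟩
      · exact h.1
  rw [hsplit, prod_union (disjoint_left.2 fun p hp hp' => by
    rw [hT, mem_filter] at hp'
    exact not_lt.2 hp'.2 (mem_sievingPrimes.1 hp).2.1), mul_comm]
  refine mul_le_mul_of_nonneg_right ?_ (prod_nonneg fun p hp => ?_)
  swap
  · have h1 := mem_sievingPrimes.1 hp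
    exact sub_nonneg.2 (((shiftSieve x u M M h2).nu_lt_one_of_prime p h1.1
      ((prime_dvd_sievingProd_iff h1.1).2 ⟨h1.2.1, h1.2.2⟩)).le)
  have hp3 : ∀ p ∈ T, p.Prime ∧ (4 : ℝ) ≤ p := fun p hp => by
    rw [hTe, mem_filter] at hp
    exact ⟨hp.2.1, hu4.trans hp.2.2.1⟩
  refine (prod_le_prod (g := fun p : ℕ => Real.exp (-(p : ℝ)⁻¹)) (fun p hp => ?_)
    fun p hp => ?_).trans ?_
  · obtain ⟨hpp, hp4⟩ := hp3 p hp
    rw [invPhi_apply, Nat.totient_prime hpp, Nat.cast_sub hpp.one_le, Nat.cast_one]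
    exact sub_nonneg.2 (inv_le_one_of_one_le₀ (by linarith))
  · obtain ⟨hpp, hp4⟩ := hp3 p hp
    rw [invPhi_apply, Nat.totient_prime hpp, Nat.cast_sub hpp.one_le, Nat.cast_one]
    have h3 : (p : ℝ)⁻¹ ≤ ((p : ℝ) - 1)⁻¹ := inv_anti₀ (by linarith) (by linarith)
    linarith [Real.add_one_le_exp (-(p : ℝ)⁻¹)]
  · rw [← Real.exp_sum, sum_neg_distrib]
    refine (Real.exp_le_exp.2 (neg_le_neg hsum)).trans (le_of_eq ?_)
    rw [show -(Real.log b - Real.log a - e) = (Real.log a - Real.log b) + e by ring, Real.exp_add,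
      Real.exp_sub, Real.exp_log ha, Real.exp_log (by linarith), he, Real.exp_log (by linarith)]

theorem eventually_power_saving {η : ℝ} (hη : 0 < η) {s : ℝ} (hs : s < 1) (n : ℕ) (C : ℝ) :
    ∀ᶠ x : ℕ in atTop, C * (x : ℝ) ^ s * Real.log x ^ n ≤ η * x := by
  obtain ⟨r, hr⟩ : ∃ r, r = (1 - s) / 2 := ⟨_, rfl⟩
  have hr0 : 0 < r := by rw [hr]; linarith
  filter_upwards [BombieriVinogradov.eventually_log_pow_le n hr0,
    ((tendsto_rpow_atTop hr0).comp
      (tendsto_natCast_atTop_atTop (R := ℝ))).eventually_ge_atTop (|C| / η),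
    eventually_ge_atTop 1] with x h1 h2 hx
  simp only [Function.comp_apply] at h2
  have hx0 : (0 : ℝ) < x := Nat.cast_pos.2 hx
  rw [div_le_iff₀ hη] at h2
  have e : (x : ℝ) ^ s * (x : ℝ) ^ r * (x : ℝ) ^ r = x := by
    rw [← Real.rpow_add hx0, ← Real.rpow_add hx0, hr]
    ring_nf
    rw [Real.rpow_one]
  calc C * (x : ℝ) ^ s * Real.log x ^ n ≤ |C| * (x : ℝ) ^ s * Real.log x ^ n :=
        mul_le_mul_of_nonneg_right (mul_le_mul_of_nonneg_right (le_abs_self C) (by positivity))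
          (pow_nonneg (Real.log_natCast_nonneg x) n)
    _ ≤ |C| * (x : ℝ) ^ s * (x : ℝ) ^ r := mul_le_mul_of_nonneg_left h1 (by positivity)
    _ ≤ (x : ℝ) ^ r * η * (x : ℝ) ^ s * (x : ℝ) ^ r := by gcongr
    _ = η * ((x : ℝ) ^ s * (x : ℝ) ^ r * (x : ℝ) ^ r) := by ring
    _ = η * x := by rw [e]

set_option maxHeartbeats 1600000 in
/-- **Switching.** -/
theorem eventually_switched_le : ∀ᶠ x : ℕ in atTop, ∀ M : ℕ, 2 ∣ M → 0 < M → M ≤ x →
    (#((tripleProducts x ((x : ℝ) ^ (1 / 8 : ℝ)) ((x : ℝ) ^ (1 / 3 : ℝ))).filter fun k =>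
      ∀ q ∈ sievingPrimes ((x : ℝ) ^ (4999 / 10000 : ℝ)) M, ¬ k ≡ M [MOD q]) : ℝ) ≤
        94 / 1000 * (linearConst + 1 / 5000) * x / Real.log x *
          ∏ p ∈ sievingPrimes ((x : ℝ) ^ (1 / 8 : ℝ)) M, (1 - invPhi p) := by
  obtain ⟨B, C, hC, hBV⟩ := exists_bilinear_bombieri_vinogradov 3
    (show (0 : ℝ) < 1 / 16 by norm_num)
  obtain ⟨w, hw4, hw⟩ := exists_ratioBound_invPhi (show (0 : ℝ) < 1 / 150000000 by norm_num)
  obtain ⟨W, hWdef⟩ : ∃ W, W = ∏ p ∈ (range ⌈w⌉₊).filter Nat.Prime, p := ⟨_, rfl⟩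
  obtain ⟨θ, hθ⟩ : ∃ θ : ℝ, θ = (Real.exp 17)⁻¹ * (Real.log 2 * 8) := ⟨_, rfl⟩
  have hθ0 : 0 < θ := hθ ▸ mul_pos (by positivity) (mul_pos (Real.log_pos one_lt_two) (by norm_num))
  have hσ : 0 < θ / 300000 := by positivity
  filter_upwards [hBV, eventually_card_triplePairs_le (show (0 : ℝ) < 1 / 2000 by norm_num)
      (by norm_num),
    eventually_prod_ratio_le (show (0 : ℝ) < 1 / 8 by norm_num)
      (show (1 / 8 : ℝ) ≤ 4999 / 10000 by norm_num) (show (0 : ℝ) < 1 / 2000 by norm_num),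
    eventually_power_saving hσ (show (7 / 8 : ℝ) < 1 by norm_num) 3 600,
    eventually_power_saving hσ (show (37 / 48 : ℝ) < 1 by norm_num) 2 2,
    ((tendsto_rpow_atTop (show (0 : ℝ) < 1 / 20000 by norm_num)).comp
      (tendsto_natCast_atTop_atTop (R := ℝ))).eventually_ge_atTop (W : ℝ),
    BombieriVinogradov.eventually_log_pow_le B (show (0 : ℝ) < 1 / 20000 by norm_num),
    BombieriVinogradov.eventually_log_ge (max 1 (C / (θ / 300000))),
    eventually_ge_atTop (256 : ℕ)] with x hbv hcard hrat hsave hdiag hWx hlB hlx hx256 M h2 hM hMx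
  simp only [Function.comp_apply] at hWx
  obtain ⟨l, hl⟩ : ∃ l, l = Real.log x := ⟨_, rfl⟩
  rw [← hl] at hbv hcard hsave hdiag hlB hlx ⊢
  have hl1 : 1 ≤ l := le_of_max_le_left hlx
  have hl0 : 0 < l := by linarith
  have hx0 : (0 : ℝ) < x := Nat.cast_pos.2 (by omega)
  have hx1 : (1 : ℝ) ≤ x := Nat.one_le_cast.2 (by omega)
  obtain ⟨z, hz⟩ : ∃ z : ℝ, z = (x : ℝ) ^ (1 / 8 : ℝ) := ⟨_, rfl⟩
  obtain ⟨y, hy⟩ : ∃ y : ℝ, y = (x : ℝ) ^ (1 / 3 : ℝ) := ⟨_, rfl⟩
  obtain ⟨D, hD⟩ : ∃ D : ℝ, D = (x : ℝ) ^ (4999 / 10000 : ℝ) := ⟨_, rfl⟩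
  rw [← hz, ← hy] at hcard ⊢
  rw [← hz, ← hD] at hrat
  rw [← hD]
  have hlr : ∀ a : ℝ, Real.log ((x : ℝ) ^ a) = a * l := fun a => by rw [Real.log_rpow hx0, hl]
  have hz2 : 2 ≤ z := by
    have h1 : ((2 : ℝ) ^ (8 : ℕ)) ≤ x := by
      norm_num
      exact_mod_cast hx256
    rw [hz, show (1 : ℝ) / 8 = ((8 : ℕ) : ℝ)⁻¹ by norm_num]
    refine le_of_eq_of_le ?_ (Real.rpow_le_rpow (by positivity) h1 (by positivity))
    exact (Real.pow_rpow_inv_natCast (by norm_num) (by norm_num)).symm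
  have hzy : z ≤ y := by
    rw [hz, hy]
    exact Real.rpow_le_rpow_of_exponent_le hx1 (by norm_num)
  have hzD : z ≤ D := by
    rw [hz, hD]
    exact Real.rpow_le_rpow_of_exponent_le hx1 (by norm_num)
  obtain ⟨S, hS⟩ : ∃ S, S = switchSieve x z y D M h2 := ⟨_, rfl⟩
  have hpf : S.prodPrimes.primeFactors = sievingPrimes D M := hS ▸ primeFactors_sievingProd D M
  have hratio : RatioBound (largePrimes S w) S.nu (1 / 150000000) := by
    rw [show S.nu = invPhi by rw [hS]; rfl]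
    refine hw _ fun p hp => ?_
    rw [largePrimes, mem_filter, hpf] at hp
    exact ⟨prime_of_mem_sievingPrimes hp.1, hp.2⟩
  have hX : 0 ≤ S.totalMass := by rw [hS]; exact Nat.cast_nonneg _
  have hup := (linear_sieve (δ := 1 / 5000) (ε := 1 / 150000000) (by norm_num) (by norm_num)
    (by norm_num) (by norm_num) S (w := w) hX (fun p hp => by
      rw [hpf] at hp
      exact (mem_sievingPrimes.1 hp).2.1) (show (2 : ℝ) ≤ D by linarith)
    (show (0 : ℝ) < D by linarith) hratio).1 le_rfl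
  rw [div_self (show Real.log D ≠ 0 by rw [hD, hlr]; positivity),
    sieveUpperFn_eq le_rfl (by norm_num), div_one] at hup
  -- the remainders
  have hDW : D * W ≤ √(x : ℝ) / l ^ B := by
    rw [le_div_iff₀ (by positivity)]
    refine (mul_le_mul (mul_le_mul_of_nonneg_left hWx (by linarith)) hlB (by positivity)
      (mul_nonneg (by linarith) (by positivity))).trans ?_
    rw [hD, ← Real.rpow_add hx0, ← Real.rpow_add hx0, Real.sqrt_eq_rpow]
    exact Real.rpow_le_rpow_of_exponent_le hx1 (by norm_num)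
  obtain ⟨Q, hQ⟩ : ∃ Q, Q = ⌊D * W⌋₊ := ⟨_, rfl⟩
  have hsp : smallProduct S w ≤ W := by
    rw [smallProduct, hWdef, hpf]
    refine Nat.le_of_dvd (prod_pos fun p hp => (mem_filter.1 hp).2.pos)
      (prod_dvd_prod_of_subset _ _ _ fun p hp => ?_)
    rw [mem_filter, not_le] at hp
    rw [mem_filter, mem_range, Nat.lt_ceil]
    exact ⟨hp.2, prime_of_mem_sievingPrimes hp.1⟩
  obtain ⟨c, hc⟩ : ∃ c : ℕ → ℕ, c = fun q => if M.Coprime q then M else 1 := ⟨_, rfl⟩
  have hbv' := hbv Q y (semiprimeCoeff x z y) c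
    (hQ ▸ (Nat.floor_le (mul_nonneg (by linarith) (Nat.cast_nonneg W))).trans hDW)
    (fun m => by unfold semiprimeCoeff; split_ifs <;> simp) (fun m hm => ?_)
    (hy ▸ Real.rpow_le_rpow_of_exponent_le hx1 (by norm_num)) fun q _ => by
      simp only [hc]
      split_ifs with h
      · exact h
      · exact Nat.coprime_one_left q
  swap
  · obtain ⟨-, h1, h1', -⟩ := semiprime_bounds (show 0 ≤ z by linarith) (show 0 < y by linarith)
      (by by_contra h; exact hm (if_neg h))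
    refine ⟨le_trans ?_ h1, h1'.le.trans ?_⟩
    · rw [hz, hy, ← Real.rpow_add hx0]
      exact Real.rpow_le_rpow_of_exponent_le hx1 (by norm_num)
    · rw [div_le_iff₀ (by linarith), hy, ← Real.rpow_add hx0]
      conv_lhs => rw [← Real.rpow_one (x : ℝ)]
      exact Real.rpow_le_rpow_of_exponent_le hx1 (by norm_num)
  have hmemQ : ∀ d ∈ S.prodPrimes.divisors.filter
      (fun d : ℕ => (d : ℝ) < D * smallProduct S w), d ∈ Icc 1 Q := fun d hd => by
    rw [mem_filter] at hd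
    exact mem_Icc.2 ⟨Nat.pos_of_mem_divisors hd.1, hQ ▸ Nat.le_floor (hd.2.le.trans
      (mul_le_mul_of_nonneg_left (Nat.cast_le.2 hsp) (by linarith)))⟩
  have hrem : remSum S (D * smallProduct S w) ≤
      C * ((x : ℝ) / l ^ 3) + #(triplePairs x z y) * (6 / z * logOne Q ^ 2) := by
    rw [remSum]
    refine (sum_le_sum (g := fun d => ‖pairDisc (semiprimeCoeff x z y) (primeCoeff y 1) x d (c d)‖ +
      (#((triplePairs x z y).filter fun u => ¬ (u.1 * u.2).Coprime d) : ℝ) / d.totient)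
      fun d hd => ?_).trans ((sum_le_sum_of_subset_of_nonneg hmemQ fun d _ _ =>
        add_nonneg (norm_nonneg _) (by positivity)).trans ?_)
    · have hdvd : d ∣ sievingProd D M := by
        have h1 := Nat.dvd_of_mem_divisors (mem_filter.1 hd).1
        rwa [hS] at h1
      have hcd : c d = M := by
        simp only [hc]
        refine if_pos ?_
        by_contra h
        obtain ⟨r, hr, hrM, hrd⟩ := Nat.Prime.not_coprime_iff_dvd.1 h
        exact ((prime_dvd_sievingProd_iff hr).1 (hrd.trans hdvd)).2 hrM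
      rw [hcd, hS]
      exact abs_switchSieve_rem_le h2 (by linarith) (by linarith) hdvd
    · rw [sum_add_distrib]
      exact add_le_add hbv' (sum_not_coprime_le hz2 hzy)
  -- the product
  obtain ⟨V, hV⟩ : ∃ V, V = ∏ p ∈ sievingPrimes z M, (1 - invPhi p) := ⟨_, rfl⟩
  have hVD : sieveProduct S ≤ 1 / 8 / (4999 / 10000) * (1 + 1 / 2000) * V := by
    rw [sieveProduct, hpf, show S.nu = invPhi by rw [hS]; rfl, hV]
    exact hrat M h2 hM hMx
  rw [← hV]
  have hVlow : θ / l ≤ V := by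
    have h := inv_mul_rpow_le_prod (Real.exp_pos 17) hz2
      (fun p hp => (prime_of_mem_sievingPrimes hp).two_le) (fun p hp => by
        refine (shiftSieve x z M M h2).nu_lt_one_of_prime p (prime_of_mem_sievingPrimes hp) ?_
        exact dvd_prod_of_mem _ hp) (phi_dimension (Z := z) h2)
    rw [Real.rpow_one, hz, hlr] at h
    rw [hV, hz]
    refine le_of_eq_of_le ?_ h
    rw [hθ]
    field_simp
  -- the count
  have hA := three_le_linearConst
  obtain ⟨T, hT⟩ : ∃ T, T = (x : ℝ) / l * V := ⟨_, rfl⟩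
  have hV0 : 0 ≤ V := le_trans (div_nonneg hθ0.le hl0.le) hVlow
  have hT0 : 0 ≤ T := by
    rw [hT]
    exact mul_nonneg (by positivity) hV0
  have hsmall : ∀ E : ℝ, E ≤ θ / 300000 * x / l ^ 2 → E ≤ 1 / 300000 * T := fun E hE => by
    refine hE.trans ?_
    rw [hT]
    refine le_trans (le_of_eq ?_) (mul_le_mul_of_nonneg_left
      (mul_le_mul_of_nonneg_left hVlow (show (0 : ℝ) ≤ x / l by positivity)) (by norm_num))
    ring
  have hE1 : C * ((x : ℝ) / l ^ 3) ≤ 1 / 300000 * T := by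
    refine hsmall _ ?_
    have h1 : C / (θ / 300000) ≤ l := le_of_max_le_right hlx
    rw [div_le_iff₀ hσ] at h1
    rw [mul_div_assoc', div_le_div_iff₀ (by positivity) (by positivity), pow_succ l 2]
    linarith [mul_le_mul_of_nonneg_right h1 (show 0 ≤ (x : ℝ) * l ^ 2 by positivity)]
  have hcard2 : (#(triplePairs x z y) : ℝ) ≤ x / l := by
    refine hcard.trans ?_
    rw [mul_div_assoc]
    exact mul_le_of_le_one_left (by positivity) (by norm_num)
  have hE2 : (#(triplePairs x z y) : ℝ) * (6 / z * logOne Q ^ 2) ≤ 1 / 300000 * T := by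
    refine hsmall _ ?_
    have hlQ : logOne Q ≤ 10 * l := by
      rw [logOne]
      rcases Nat.eq_zero_or_pos Q with h | h
      · simp [h]
        linarith
      · have h1 : (Q : ℝ) ≤ x := by
          rw [hQ]
          refine (Nat.floor_le (mul_nonneg (by linarith) (Nat.cast_nonneg W))).trans (hDW.trans ?_)
          exact (div_le_self (Real.sqrt_nonneg _) (one_le_pow₀ hl1)).trans
            ((Real.sqrt_le_left hx0.le).2 (le_self_pow₀ hx1 two_ne_zero))
        have := Real.log_le_log (Nat.cast_pos.2 h) h1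
        rw [← hl] at this
        linarith
    have hQ1 : 0 ≤ logOne Q := by linarith [ThreePrimes.one_le_logOne Q]
    refine (mul_le_mul hcard2 (mul_le_mul_of_nonneg_left (pow_le_pow_left₀ hQ1 hlQ 2)
      (by positivity)) (by positivity) (by positivity)).trans ?_
    rw [le_div_iff₀ (by positivity)]
    have e : (x : ℝ) / z = (x : ℝ) ^ (7 / 8 : ℝ) := by
      rw [hz, show (7 / 8 : ℝ) = 1 - 1 / 8 by norm_num, Real.rpow_sub hx0, Real.rpow_one]
    calc (x : ℝ) / l * (6 / z * (10 * l) ^ 2) * l ^ 2 = 600 * ((x : ℝ) / z) * l ^ 3 := by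
          field_simp
          ring
      _ ≤ _ := e ▸ hsave
  have hE3 : 2 * y * √((x : ℝ) / z) ≤ 1 / 300000 * T := by
    refine hsmall _ ?_
    rw [le_div_iff₀ (by positivity)]
    refine le_trans (le_of_eq ?_) hdiag
    rw [Real.sqrt_eq_rpow, hz, show (x : ℝ) / (x : ℝ) ^ (1 / 8 : ℝ) = (x : ℝ) ^ (7 / 8 : ℝ) by
      rw [show (7 / 8 : ℝ) = 1 - 1 / 8 by norm_num, Real.rpow_sub hx0, Real.rpow_one],
      ← Real.rpow_mul hx0.le, hy, show (37 / 48 : ℝ) = 1 / 3 + 7 / 8 * (1 / 2) by norm_num,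
      Real.rpow_add hx0]
    ring
  -- the sifted pairs
  have hsift : (#((triplePairs x z y).filter fun u =>
      ∀ q ∈ sievingPrimes D M, ¬ u.1 * u.2 ≡ M [MOD q]) : ℝ) ≤ S.siftedSum := by
    rw [hS, BoundingSieve.siftedSum]
    refine le_of_le_of_eq ?_ (sum_weights_switch h2 fun k => Nat.Coprime (sievingProd D M) k).symm
    refine Nat.cast_le.2 (card_le_card fun u hu => ?_)
    rw [mem_filter] at hu ⊢
    refine ⟨hu.1, ?_⟩
    by_contra h
    obtain ⟨r, hr, hrP, hru⟩ := Nat.Prime.not_coprime_iff_dvd.1 h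
    obtain ⟨h3, h4⟩ := (prime_dvd_sievingProd_iff hr).1 hrP
    exact hu.2 r (mem_sievingPrimes.2 ⟨hr, h3, h4⟩) ((dvd_add_classShift_iff hrP).1 hru)
  have hcomb : 2 * (#((tripleProducts x z y).filter fun k =>
      ∀ q ∈ sievingPrimes D M, ¬ k ≡ M [MOD q]) : ℝ) ≤ S.siftedSum + 2 * y * √((x : ℝ) / z) := by
    have h := two_mul_card_tripleProducts_le x (z := z) (y := y)
      fun k => ∀ q ∈ sievingPrimes D M, ¬ k ≡ M [MOD q]
    have h' : ((2 * _ : ℕ) : ℝ) ≤ ((_ + _ : ℕ) : ℝ) := Nat.cast_le.2 h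
    push_cast at h'
    exact h'.trans (add_le_add hsift (card_diagonal_le (by linarith) (by linarith)))
  have hmain : S.totalMass * sieveProduct S * (linearConst + 1 / 5000) ≤
      (3 / 4 + 1 / 2000) * (1 / 8 / (4999 / 10000) * (1 + 1 / 2000)) *
        (linearConst + 1 / 5000) * T := by
    have h1 := mul_le_mul hcard hVD (sieveProduct_pos S).le (by positivity)
    have h3 : S.totalMass * sieveProduct S ≤ (3 / 4 + 1 / 2000) * x / l *
        (1 / 8 / (4999 / 10000) * (1 + 1 / 2000) * V) := by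
      refine le_of_eq_of_le ?_ h1
      rw [hS]
      rfl
    refine (mul_le_mul_of_nonneg_right h3 (show 0 ≤ linearConst + 1 / 5000 by linarith)).trans
      (le_of_eq ?_)
    rw [hT]
    ring
  have hAT : 3 * T ≤ (linearConst + 1 / 5000) * T :=
    mul_le_mul_of_nonneg_right (by linarith) hT0
  have hnum : (3 / 4 + 1 / 2000 : ℝ) * (1 / 8 / (4999 / 10000) * (1 + 1 / 2000)) ≤
      18785 / 100000 := by norm_num
  have hnum' := mul_le_mul_of_nonneg_right hnum
    (mul_nonneg (show 0 ≤ linearConst + 1 / 5000 by linarith) hT0)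
  rw [show 94 / 1000 * (linearConst + 1 / 5000) * x / l * V =
    94 / 1000 * ((linearConst + 1 / 5000) * T) by rw [hT]; ring]
  linarith

end FA.Chen
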