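import Fermat.Agent.Chen.Switching

/-!
# Chen's weights

Among the primes `p ≤ x` outside the classes `c` modulo the `q < x ^ (1/8)`, the weight
`1 - n / 2 - [n = 1, k p = p₁ p₂ p₃] / 2`, `n` the number of the classes modulo the
`x ^ (1/8) ≤ q < x ^ (1/3)` met by `p`, has a positive sum `≫ x / log x`.
-/

set_option autoImplicit false

noncomputable section

namespace FA.Chen

open Finset Filter
open FA.CombinatorialSieve FA.LinearSieve
open scoped Topology

/-- The primes kept by Chen's weights. -/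
def chenSet (x : ℕ) (z y : ℝ) (M c : ℕ) (k : ℕ → ℕ) : Finset ℕ :=
  (weightedSet x z y M c).filter fun p => ¬ (#((middlePrimes z y M).filter
    fun q => q ∣ p + classShift y M c) = 1 ∧ k p ∈ tripleProducts x z y)

/-- The primes removed by the switching. -/
def switchedSet (x : ℕ) (z y : ℝ) (M c : ℕ) (k : ℕ → ℕ) : Finset ℕ :=
  (weightedSet x z y M c).filter fun p => #((middlePrimes z y M).filter
    fun q => q ∣ p + classShift y M c) = 1 ∧ k p ∈ tripleProducts x z y

theorem chen_weight_le (x : ℕ) (z y : ℝ) (M c : ℕ) (k : ℕ → ℕ) (hM : 2 ∣ M) :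
    (multipleSieve x z y M c 1 hM).siftedSum -
        (∑ q ∈ middlePrimes z y M, (multipleSieve x z y M c q hM).siftedSum) / 2 -
        (∑ p ∈ switchedSet x z y M c k, Real.log p) / 2 ≤
      ∑ p ∈ chenSet x z y M c k, Real.log p := by
  rw [multipleSieve_siftedSum, sum_congr rfl fun q _ => multipleSieve_siftedSum hM, chenSet,
    switchedSet, weightedSet, filter_filter, filter_filter]
  simp only [one_dvd, true_and, sum_filter]
  rw [sum_comm, sum_div, sum_div, ← sum_sub_distrib, ← sum_sub_distrib]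
  refine sum_le_sum fun p _ => ?_
  have hl : 0 ≤ Real.log p := Real.log_natCast_nonneg p
  by_cases hp : p.Prime ∧ (sievingProd z M).Coprime (p + classShift y M c)
  · obtain ⟨n, hn⟩ : ∃ n, n = #((middlePrimes z y M).filter fun q =>
        q ∣ p + classShift y M c) := ⟨_, rfl⟩
    have e : (∑ q ∈ middlePrimes z y M, if p.Prime ∧ q ∣ p + classShift y M c ∧
        (sievingProd z M).Coprime (p + classShift y M c) then Real.log p else 0) =
          n * Real.log p := by
      rw [← sum_filter, sum_const, nsmul_eq_mul, hn]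
      congr 3
      exact filter_congr fun q _ => ⟨fun h => h.2.1, fun h => ⟨hp.1, h, hp.2⟩⟩
    rw [if_pos hp, e, ← hn]
    have h2 : 2 ≤ n → 2 * Real.log p ≤ n * Real.log p := fun h =>
      mul_le_mul_of_nonneg_right (Nat.ofNat_le_cast.2 h) hl
    have h0 : 0 ≤ (n : ℝ) * Real.log p := mul_nonneg (Nat.cast_nonneg n) hl
    split_ifs with h h' h'
    · exact absurd h.2 h'.2
    · rw [show n = 1 from h.2.1, Nat.cast_one]
      linarith
    · linarith
    · have hn2 : 2 ≤ n := by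
        by_contra hlt
        by_cases hT : n = 1 ∧ k p ∈ tripleProducts x z y
        · exact h ⟨⟨hp.1, hp.2, by omega⟩, hT⟩
        · exact h' ⟨⟨hp.1, hp.2, by omega⟩, hT⟩
      linarith [h2 hn2]
  · rw [if_neg hp, sum_eq_zero fun q _ => if_neg fun h => hp ⟨h.1, h.2.2⟩, zero_div, zero_sub]
    rw [if_neg fun h => hp ⟨h.1.1, h.1.2.1⟩, if_neg fun h => hp ⟨h.1.1, h.1.2.1⟩]
    simp

theorem integral_middle_le :
    ∫ t in (1 / 8 : ℝ)..(1 / 3), (1 / (8 * (4999 / 10000 - t))) / t ≤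
      (Real.log 6 + 34 / 100000) / 3.9992 := by
  rw [intervalIntegral.integral_eq_sub_of_hasDerivAt
    (f := fun s => (Real.log s - Real.log (4999 / 10000 - s)) / 3.9992)
    (fun u hu => ?_) (ContinuousOn.intervalIntegrable ?_)]
  · rw [← sub_div]
    refine div_le_div_of_nonneg_right ?_ (by norm_num)
    rw [show Real.log (1 / 3) - Real.log (4999 / 10000 - 1 / 3) -
        (Real.log (1 / 8) - Real.log (4999 / 10000 - 1 / 8)) =
      Real.log 6 + (Real.log (1 / 3) - Real.log (4999 / 10000 - 1 / 3) -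
        (Real.log (1 / 8) - Real.log (4999 / 10000 - 1 / 8)) - Real.log 6) by ring,
      ← Real.log_div (by norm_num) (by norm_num), ← Real.log_div (by norm_num) (by norm_num),
      ← Real.log_div (by norm_num) (by norm_num), ← Real.log_div (by norm_num) (by norm_num),
      add_le_add_iff_left]
    refine (Real.log_le_sub_one_of_pos (by norm_num)).trans ?_
    norm_num
  · rw [Set.uIcc_of_le (by norm_num)]
    refine ContinuousOn.div (ContinuousOn.div continuousOn_const (by fun_prop) fun u hu => ?_)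
      continuousOn_id fun u hu => ?_
    · linarith [hu.2]
    · show u ≠ 0
      linarith [hu.1]
  · rw [Set.uIcc_of_le (by norm_num)] at hu
    have h1 : (0 : ℝ) < u := by linarith [hu.1]
    have h2 : (0 : ℝ) < 4999 / 10000 - u := by linarith [hu.2]
    have d := (((hasDerivAt_id u).log h1.ne').sub (((hasDerivAt_id u).const_sub
      (4999 / 10000 : ℝ)).log (show (4999 / 10000 : ℝ) - id u ≠ 0 from h2.ne'))).div_const
        (3.9992 : ℝ)
    refine d.congr_deriv ?_
    simp only [id]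
    have h3 : (4999 : ℝ) - 10000 * u ≠ 0 := by linarith
    have h4 : (4999 : ℝ) - u * 10000 ≠ 0 := by linarith
    field_simp
    ring

/-- The numerical margin. -/
theorem chen_margin {A : ℝ} (hA : 3 ≤ A) :
    8 / 1000 ≤ A * Real.log (2.9992) / 3.9992 - 1 / 5000 -
      (A * ((Real.log 6 + 34 / 100000) / 3.9992 + 1 / 10000) + 1 / 5000 * (2 + 1 / 10000)) / 2 -
      94 / 1000 * (A + 1 / 5000) / 2 := by
  obtain ⟨hl, hu⟩ := log_three_bounds
  have h2l := Real.log_two_gt_d9
  have h2u := Real.log_two_lt_d9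
  have e6 : Real.log 6 = Real.log 2 + Real.log 3 := by
    rw [← Real.log_mul two_ne_zero three_ne_zero]; norm_num
  have e3 : Real.log 3 - 27 / 100000 ≤ Real.log 2.9992 := by
    rw [show (3 : ℝ) = 2.9992 * (3 / 2.9992) by norm_num,
      Real.log_mul (by norm_num) (by norm_num)]
    linarith [Real.log_le_sub_one_of_pos (show (0 : ℝ) < 3 / 2.9992 by norm_num)]
  have b0 : 1.0972 ≤ Real.log 2.9992 := by norm_num at e3 ⊢; linarith
  have b6 : (Real.log 6 + 34 / 100000) / 3.9992 ≤ 0.4487 := by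
    rw [div_le_iff₀ (by norm_num)]
    norm_num
    linarith
  have c0 := mul_le_mul_of_nonneg_left b0 (show (0 : ℝ) ≤ A by linarith)
  have c6 := mul_le_mul_of_nonneg_left b6 (show (0 : ℝ) ≤ A by linarith)
  norm_num at c0 c6 ⊢
  linarith

set_option maxHeartbeats 1600000 in
/-- **Chen's weighted sieve**, in terms of the product of the sieve. -/
theorem exists_chenSet_ge_prod : ∃ η : ℝ, 0 < η ∧ ∀ᶠ x : ℕ in atTop, ∀ (M c : ℕ) (k : ℕ → ℕ),
    2 ∣ M → 0 < M → M ≤ x →
    (∀ q : ℕ, q.Prime → (q : ℝ) < (x : ℝ) ^ (1 / 3 : ℝ) → ¬ q ∣ M → ¬ q ∣ c) →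
    Set.InjOn k (weightedSet x ((x : ℝ) ^ (1 / 8 : ℝ)) ((x : ℝ) ^ (1 / 3 : ℝ)) M c : Finset ℕ) →
    (∀ p ∈ weightedSet x ((x : ℝ) ^ (1 / 8 : ℝ)) ((x : ℝ) ^ (1 / 3 : ℝ)) M c,
      ∀ q : ℕ, q.Prime → ¬ q ∣ M → k p ≡ M [MOD q] → q ∣ p) →
      η * x / Real.log x ≤ 6 / 1000 *
          ((x : ℝ) * ∏ p ∈ sievingPrimes ((x : ℝ) ^ (1 / 8 : ℝ)) M, (1 - invPhi p)) ∧
        6 / 1000 * ((x : ℝ) * ∏ p ∈ sievingPrimes ((x : ℝ) ^ (1 / 8 : ℝ)) M, (1 - invPhi p)) ≤
          ∑ p ∈ chenSet x ((x : ℝ) ^ (1 / 8 : ℝ)) ((x : ℝ) ^ (1 / 3 : ℝ)) M c k, Real.log p := by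
  obtain ⟨B, C, hC, hBV⟩ := BombieriVinogradov.Summary.bombieri_vinogradov_theta 2
  obtain ⟨w, hw4, hw⟩ := exists_ratioBound_invPhi (show (0 : ℝ) < 1 / 150000000 by norm_num)
  obtain ⟨W, hWdef⟩ : ∃ W, W = ∏ p ∈ (range ⌈w⌉₊).filter Nat.Prime, p := ⟨_, rfl⟩
  obtain ⟨θ, hθ⟩ : ∃ θ : ℝ, θ = (Real.exp 17)⁻¹ * (Real.log 2 * 8) := ⟨_, rfl⟩
  have hθ0 : 0 < θ := hθ ▸ mul_pos (by positivity) (mul_pos (Real.log_pos one_lt_two) (by norm_num))
  refine ⟨6 / 1000 * θ, by positivity, ?_⟩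
  filter_upwards [eventually_switched_le,
    eventually_sum_primes_le_integral (a₀ := 1 / 8) (L := 5) (B := 1) (by norm_num) (by norm_num)
      zero_le_one (show (0 : ℝ) < 1 / 10000 by norm_num),
    eventually_sum_primes_le_integral (a₀ := 1 / 8) (L := 0) (B := 1) (by norm_num) le_rfl
      zero_le_one (show (0 : ℝ) < 1 / 10000 by norm_num),
    eventually_power_saving (show 0 < θ / 1000 by positivity)
      (show (4999 / 10000 : ℝ) < 1 by norm_num) 2 2,
    ((tendsto_rpow_atTop (show (0 : ℝ) < 1 / 20000 by norm_num)).comp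
      (tendsto_natCast_atTop_atTop (R := ℝ))).eventually_ge_atTop (W : ℝ),
    eventually_ge_atTop (65536 : ℕ),
    BombieriVinogradov.eventually_log_ge (max 1 (2000 * C / θ)),
    BombieriVinogradov.eventually_log_pow_le B (show (0 : ℝ) < 1 / 20000 by norm_num)]
    with x hsw hint hint1 hDsave hWx hx2 hlC hlB M c k hM hM0 hMx hc hinj hk
  simp only [Function.comp_apply] at hWx
  obtain ⟨l, hl⟩ : ∃ l, l = Real.log x := ⟨_, rfl⟩
  rw [← hl] at hsw hint hint1 hDsave hlC hlB ⊢
  have hl1 : 1 ≤ l := le_of_max_le_left hlC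
  have hl0 : 0 < l := by linarith
  have hx0 : (0 : ℝ) < x := Nat.cast_pos.2 (by omega)
  have hx1 : (1 : ℝ) ≤ x := Nat.one_le_cast.2 (by omega)
  obtain ⟨z, hz⟩ : ∃ z : ℝ, z = (x : ℝ) ^ (1 / 8 : ℝ) := ⟨_, rfl⟩
  obtain ⟨y, hy⟩ : ∃ y : ℝ, y = (x : ℝ) ^ (1 / 3 : ℝ) := ⟨_, rfl⟩
  obtain ⟨D, hD⟩ : ∃ D : ℝ, D = (x : ℝ) ^ (4999 / 10000 : ℝ) := ⟨_, rfl⟩
  rw [← hz, ← hy] at hinj hk hsw ⊢
  rw [← hD] at hsw
  rw [← hy] at hc
  have hlr : ∀ a : ℝ, Real.log ((x : ℝ) ^ a) = a * l := fun a => by rw [Real.log_rpow hx0, hl]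
  have hz4 : 4 ≤ z := by
    have h1 : ((4 : ℝ) ^ (8 : ℕ)) ≤ x := by
      norm_num
      exact_mod_cast hx2
    rw [hz, show (1 : ℝ) / 8 = ((8 : ℕ) : ℝ)⁻¹ by norm_num]
    refine le_of_eq_of_le ?_ (Real.rpow_le_rpow (by positivity) h1 (by positivity))
    exact (Real.pow_rpow_inv_natCast (by norm_num) (by norm_num)).symm
  have hzy : z ≤ y := by
    rw [hz, hy]
    exact Real.rpow_le_rpow_of_exponent_le hx1 (by norm_num)
  have hD1 : 1 ≤ D := hD ▸ Real.one_le_rpow hx1 (by norm_num)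
  have hD0 : 0 < D := by linarith
  have hDW : D * W ≤ Real.sqrt x / l ^ B := by
    rw [le_div_iff₀ (by positivity)]
    refine (mul_le_mul (mul_le_mul_of_nonneg_left hWx hD0.le) hlB (by positivity)
      (by positivity)).trans ?_
    rw [hD, ← Real.rpow_add hx0, ← Real.rpow_add hx0, Real.sqrt_eq_rpow]
    exact Real.rpow_le_rpow_of_exponent_le hx1 (by norm_num)
  obtain ⟨E, hE⟩ : ∃ E, E = C * ((x : ℝ) / l ^ 2) := ⟨_, rfl⟩
  have hpf : ∀ q, (multipleSieve x z y M c q hM).prodPrimes.primeFactors = sievingPrimes z M :=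
    fun q => primeFactors_sievingProd z M
  have hW : smallProduct (multipleSieve x z y M c 1 hM) w ≤ W := by
    rw [smallProduct, hWdef, hpf]
    refine Nat.le_of_dvd (prod_pos fun p hp => (mem_filter.1 hp).2.pos)
      (prod_dvd_prod_of_subset _ _ _ fun p hp => ?_)
    rw [mem_filter, not_le] at hp
    rw [mem_filter, mem_range, Nat.lt_ceil]
    exact ⟨hp.2, prime_of_mem_sievingPrimes hp.1⟩
  have hR := remSum_total_le (D := D) (E := E) (w := w) (W := W) hM hzy hD0.le hc hW fun a ha =>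
    hE ▸ hl ▸ hBV x (by omega) ⌊D * W⌋₊ (hl ▸ (Nat.floor_le (by positivity)).trans hDW)
      (fun _ => x) a fun n hn => ⟨le_rfl, ha n hn⟩
  -- the main terms
  have hratio : ∀ q, RatioBound (largePrimes (multipleSieve x z y M c q hM) w)
      (multipleSieve x z y M c q hM).nu (1 / 150000000) := fun q => hw _ fun p hp => by
    rw [largePrimes, mem_filter, hpf] at hp
    exact ⟨prime_of_mem_sievingPrimes hp.1, hp.2⟩
  have hP : ∀ q, ∀ p ∈ (multipleSieve x z y M c q hM).prodPrimes.primeFactors, (p : ℝ) < z :=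
    fun q p hp => by
      rw [hpf] at hp
      exact (mem_sievingPrimes.1 hp).2.1
  obtain ⟨V, hV⟩ : ∃ V, V = ∏ p ∈ sievingPrimes z M, (1 - invPhi p) := ⟨_, rfl⟩
  have hVs : ∀ q, sieveProduct (multipleSieve x z y M c q hM) = V := fun q => by
    rw [sieveProduct, hpf, hV]
    rfl
  have hV0 : 0 ≤ V := hVs 1 ▸ (sieveProduct_pos _).le
  have hVlow : θ / l ≤ V := by
    have h := inv_mul_rpow_le_prod (Real.exp_pos 17) (show (2 : ℝ) ≤ z by linarith)
      (fun p hp => (prime_of_mem_sievingPrimes hp).two_le) (fun p hp => by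
        refine (multipleSieve x z y M c 1 hM).nu_lt_one_of_prime p
          (prime_of_mem_sievingPrimes hp) ?_
        exact dvd_prod_of_mem _ hp) (phi_dimension (Z := z) hM)
    rw [Real.rpow_one, hz, hlr] at h
    rw [hV, hz]
    refine le_of_eq_of_le ?_ h
    rw [hθ]
    field_simp
  have hlzD : Real.log D / Real.log z = 3.9992 := by
    rw [hD, hz, hlr, hlr]
    field_simp
    norm_num
  have hlo := (linear_sieve (δ := 1 / 5000) (ε := 1 / 150000000) (by norm_num) (by norm_num)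
    (by norm_num) (by norm_num) (multipleSieve x z y M c 1 hM) (w := w)
    (show (0 : ℝ) ≤ (x : ℝ) / (1 : ℕ).totient by positivity) (hP 1) (by linarith) hD0 (hratio 1)).2
    (by rw [hz, hD, hlr, hlr]; linarith)
  have htot : (multipleSieve x z y M c 1 hM).totalMass = (x : ℝ) := by
    show (x : ℝ) / ((1 : ℕ).totient : ℝ) = x
    simp
  rw [hVs, hlzD, sieveLowerFn_eq (by norm_num) (by norm_num), htot,
    show (3.9992 : ℝ) - 1 = 2.9992 by norm_num] at hlo
  have hA := three_le_linearConst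
  have hmidI : ∀ q ∈ middlePrimes z y M,
      q.Prime ∧ (x : ℝ) ^ (1 / 8 : ℝ) ≤ q ∧ (q : ℝ) < (x : ℝ) ^ (1 / 3 : ℝ) := fun q hq => by
    simp only [middlePrimes, mem_filter, mem_sievingPrimes] at hq
    exact ⟨hq.1.1, hz ▸ hq.2, hy ▸ hq.1.2.1⟩
  have hup : ∀ q ∈ middlePrimes z y M, (multipleSieve x z y M c q hM).siftedSum -
      remSum (multipleSieve x z y M c q hM)
        (D / q * smallProduct (multipleSieve x z y M c q hM) w) ≤
      (x : ℝ) * V * (invPhi q *
        (linearConst * (1 / (8 * (4999 / 10000 - Real.log q / l))) + 1 / 5000)) := by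
    intro q hq
    obtain ⟨hqp, hq8, hq3⟩ := hmidI q hq
    have hq0 : (0 : ℝ) < q := Nat.cast_pos.2 hqp.pos
    obtain ⟨t, ht⟩ : ∃ t, t = Real.log q / l := ⟨_, rfl⟩
    rw [← ht]
    have hlq : Real.log q = t * l := by rw [ht]; field_simp
    have ht8 : 1 / 8 ≤ t := by
      rw [ht, le_div_iff₀ hl0, ← hlr]
      exact Real.log_le_log (Real.rpow_pos_of_pos hx0 _) hq8
    have ht3 : t ≤ 1 / 3 := by
      rw [ht, div_le_iff₀ hl0, ← hlr]
      exact Real.log_le_log hq0 hq3.le
    have hs : Real.log (D / q) / Real.log z = 8 * (4999 / 10000 - t) := by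
      rw [Real.log_div hD0.ne' hq0.ne', hD, hz, hlr, hlr, hlq]
      field_simp
    have hs1 : 1 ≤ 8 * (4999 / 10000 - t) := by linarith
    have h := (linear_sieve (δ := 1 / 5000) (ε := 1 / 150000000) (by norm_num) (by norm_num)
      (by norm_num) (by norm_num) (multipleSieve x z y M c q hM) (D := D / q) (w := w)
      (show (0 : ℝ) ≤ (x : ℝ) / q.totient by positivity) (hP q) (by linarith)
      (div_pos hD0 hq0) (hratio q)).1 (by
        have hlz : 0 < Real.log z := Real.log_pos (by linarith)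
        rw [← hs, le_div_iff₀ hlz, one_mul] at hs1
        exact hs1)
    rw [hVs, hs, sieveUpperFn_eq hs1 (by linarith),
      show (multipleSieve x z y M c q hM).totalMass = (x : ℝ) / q.totient from rfl] at h
    rw [invPhi_apply]
    refine (sub_le_iff_le_add.2 h).trans (le_of_eq ?_)
    ring
  have hG := hint (1 / 8) (1 / 3) (fun t => 1 / (8 * (4999 / 10000 - t))) le_rfl (by norm_num)
    (by norm_num) (fun t ht => ⟨div_nonneg zero_le_one (by linarith [ht.2]), by
      rw [div_le_iff₀ (by linarith [ht.2])]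
      linarith [ht.2]⟩) (fun s hs t ht => ?_) (middlePrimes z y M) hmidI
  swap
  · have hs6 : (4 / 25 : ℝ) ≤ 4999 / 10000 - s := by linarith [hs.2]
    have ht6 : (4 / 25 : ℝ) ≤ 4999 / 10000 - t := by linarith [ht.2]
    have h49 := mul_le_mul hs6 ht6 (by norm_num) (by linarith)
    have hs0 : 8 * (4999 / 10000 - s) ≠ (0 : ℝ) := by linarith
    have ht0 : 8 * (4999 / 10000 - t) ≠ (0 : ℝ) := by linarith
    rw [div_sub_div _ _ hs0 ht0, abs_div, abs_of_pos (mul_pos
      (show (0 : ℝ) < 8 * (4999 / 10000 - s) by linarith)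
      (show (0 : ℝ) < 8 * (4999 / 10000 - t) by linarith)),
      show 1 * (8 * (4999 / 10000 - t)) - 8 * (4999 / 10000 - s) * 1 = 8 * (s - t) by ring,
      abs_mul, abs_of_pos (show (0 : ℝ) < 8 by norm_num),
      div_le_iff₀ (mul_pos (by linarith) (by linarith))]
    have h50 : (1 : ℝ) / 40 ≤ (4999 / 10000 - s) * (4999 / 10000 - t) := by linarith
    nlinarith [abs_nonneg (s - t)]
  have hG' := hG.trans (add_le_add integral_middle_le le_rfl)
  have hone := hint1 (1 / 8) (1 / 3) (fun _ => 1) le_rfl (by norm_num) (by norm_num)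
    (fun t _ => ⟨zero_le_one, le_rfl⟩) (fun s _ t _ => by simp) (middlePrimes z y M) hmidI
  simp only [mul_one] at hone
  have hone' : ∫ u in (1 / 8 : ℝ)..(1 / 3), (1 : ℝ) / u ≤ 2 := by
    simp only [one_div]
    rw [integral_inv_of_pos (by norm_num) (by norm_num)]
    refine (Real.log_le_sub_one_of_pos (by norm_num)).trans ?_
    norm_num
  have hxV : 0 ≤ (x : ℝ) * V := by positivity
  have hmiddle : ∑ q ∈ middlePrimes z y M, (multipleSieve x z y M c q hM).siftedSum ≤
      (x : ℝ) * V * (linearConst * ((Real.log 6 + 34 / 100000) / 3.9992 + 1 / 10000) +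
        1 / 5000 * (2 + 1 / 10000)) + ∑ q ∈ middlePrimes z y M,
          remSum (multipleSieve x z y M c q hM)
            (D / q * smallProduct (multipleSieve x z y M c q hM) w) := by
    rw [← sub_le_iff_le_add, ← sum_sub_distrib]
    refine (sum_le_sum hup).trans ?_
    rw [← mul_sum]
    refine mul_le_mul_of_nonneg_left ?_ hxV
    refine le_trans (le_of_eq ?_) (add_le_add (mul_le_mul_of_nonneg_left hG'
      (show 0 ≤ linearConst by linarith)) (mul_le_mul_of_nonneg_left
        (hone.trans (add_le_add hone' le_rfl)) (show (0 : ℝ) ≤ 1 / 5000 by norm_num)))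
    rw [mul_sum, mul_sum, ← sum_add_distrib]
    exact sum_congr rfl fun q _ => by ring
  have hswitch : ∑ p ∈ switchedSet x z y M c k, Real.log p ≤
      94 / 1000 * (linearConst + 1 / 5000) * ((x : ℝ) * V) + θ / 1000 * x / l := by
    obtain ⟨K, hK⟩ : ∃ K, K = (tripleProducts x z y).filter fun n =>
        ∀ q ∈ sievingPrimes D M, ¬ n ≡ M [MOD q] := ⟨_, rfl⟩
    obtain ⟨T, hT⟩ : ∃ T, T = switchedSet x z y M c k := ⟨_, rfl⟩
    have hTsub : T ⊆ weightedSet x z y M c := hT ▸ filter_subset _ _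
    have hcard : (#T : ℝ) ≤ #K + (D + 1) := by
      rw [← card_filter_add_card_filter_not (s := T) (p := fun p : ℕ => D < p), Nat.cast_add]
      refine add_le_add (Nat.cast_le.2 (card_le_card_of_injOn k (fun p hp => ?_)
        (hinj.mono fun p hp => hTsub (mem_filter.1 hp).1))) ?_
      · rw [coe_filter] at hp
        have h1 := hp.1
        rw [hT, switchedSet, mem_filter] at h1
        rw [hK, coe_filter]
        refine ⟨h1.2.2, fun q hq hmod => ?_⟩
        obtain ⟨hq1, hq2, hq3⟩ := mem_sievingPrimes.1 hq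
        have hd := hk p h1.1 q hq1 hq3 hmod
        simp only [weightedSet, mem_filter] at h1
        rw [Nat.prime_dvd_prime_iff_eq hq1 h1.1.2.1] at hd
        subst hd
        exact lt_asymm hp.2 hq2
      · refine (Nat.cast_le.2 (card_le_card (t := range (⌊D⌋₊ + 1)) fun p hp => ?_)).trans ?_
        · rw [mem_filter] at hp
          exact mem_range.2 (Nat.lt_succ_of_le (Nat.le_floor (not_lt.1 hp.2)))
        · rw [card_range]
          push_cast
          linarith [Nat.floor_le hD0.le]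
    have hK' : (#K : ℝ) ≤ 94 / 1000 * (linearConst + 1 / 5000) * x / l * V := by
      rw [hK, hV]
      exact hsw M hM hM0 hMx
    rw [← hT]
    refine (sum_le_card_nsmul _ _ l fun p hp => ?_).trans ?_
    · have h1 := hTsub hp
      rw [weightedSet, mem_filter, mem_Icc] at h1
      exact hl ▸ Real.log_le_log (Nat.cast_pos.2 h1.1.1) (Nat.cast_le.2 h1.1.2)
    rw [nsmul_eq_mul]
    refine (mul_le_mul_of_nonneg_right (hcard.trans (add_le_add hK'
      (show D + 1 ≤ 2 * D by linarith))) hl0.le).trans ?_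
    rw [add_mul]
    refine add_le_add (le_of_eq (by field_simp)) ?_
    rw [le_div_iff₀ hl0]
    refine le_trans (le_of_eq ?_) hDsave
    rw [hD, sq]
    ring
  have hw' := chen_weight_le x z y M c k hM
  have hmargin := mul_le_mul_of_nonneg_left (chen_margin hA) hxV
  have hXV : θ / l * (x : ℝ) ≤ (x : ℝ) * V := by
    rw [mul_comm _ (x : ℝ)]
    exact mul_le_mul_of_nonneg_left hVlow hx0.le
  have hErr : 2 * E ≤ θ / 1000 * x / l := by
    have h3 : 2000 * C / θ ≤ l := le_of_max_le_right hlC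
    rw [div_le_iff₀ hθ0] at h3
    rw [hE, mul_div_assoc', mul_div_assoc', div_le_div_iff₀ (by positivity) (by positivity)]
    have := mul_le_mul_of_nonneg_left h3 (show 0 ≤ (x : ℝ) * l by positivity)
    rw [sq]
    linarith
  have e1 : 6 / 1000 * θ * x / l = 6 * (θ / 1000 * x / l) := by ring
  have e2 : θ / l * (x : ℝ) = 1000 * (θ / 1000 * x / l) := by ring
  have h0 : 0 ≤ θ / 1000 * x / l := by positivity
  rw [← hV]
  refine ⟨by linarith, by linarith⟩

/-- Chen's weighted sieve with a constant. -/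
theorem exists_chenSet_ge : ∃ η : ℝ, 0 < η ∧ ∀ᶠ x : ℕ in atTop, ∀ (M c : ℕ) (k : ℕ → ℕ),
    2 ∣ M → 0 < M → M ≤ x →
    (∀ q : ℕ, q.Prime → (q : ℝ) < (x : ℝ) ^ (1 / 3 : ℝ) → ¬ q ∣ M → ¬ q ∣ c) →
    Set.InjOn k (weightedSet x ((x : ℝ) ^ (1 / 8 : ℝ)) ((x : ℝ) ^ (1 / 3 : ℝ)) M c : Finset ℕ) →
    (∀ p ∈ weightedSet x ((x : ℝ) ^ (1 / 8 : ℝ)) ((x : ℝ) ^ (1 / 3 : ℝ)) M c,
      ∀ q : ℕ, q.Prime → ¬ q ∣ M → k p ≡ M [MOD q] → q ∣ p) →
      η * x / Real.log x ≤
        ∑ p ∈ chenSet x ((x : ℝ) ^ (1 / 8 : ℝ)) ((x : ℝ) ^ (1 / 3 : ℝ)) M c k, Real.log p := by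
  obtain ⟨η, hη, h⟩ := exists_chenSet_ge_prod
  exact ⟨η, hη, h.mono fun x hx M c k hM hM0 hMx hc hinj hk =>
    (hx M c k hM hM0 hMx hc hinj hk).1.trans (hx M c k hM hM0 hMx hc hinj hk).2⟩

end FA.Chen
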